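import Mathlib

/-!
Program C (S55), local fields in the `PadicAlgCl q` model: foundation leaves (F1).
Norm formula and discreteness of the value group of a finite extension of `ℚ_q`
inside `PadicAlgCl q` (helper88).
-/

set_option autoImplicit false

open Polynomial
open scoped IntermediateField

namespace Fermat.Agent.S55.H88

variable (q : ℕ) [Fact q.Prime]

/-- The norm of `PadicAlgCl q` in terms of the constant coefficient of the minimal polynomial. -/
theorem norm_pow_natDegree (x : PadicAlgCl q) :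
    ‖x‖ ^ (minpoly ℚ_[q] x).natDegree = ‖(minpoly ℚ_[q] x).coeff 0‖ := by
  have h := spectralNorm.spectralNorm_eq_norm_coeff_zero_rpow (K := ℚ_[q]) (L := PadicAlgCl q) x
  rw [PadicAlgCl.spectralNorm_eq] at h
  have hd : (minpoly ℚ_[q] x).natDegree ≠ 0 :=
    (minpoly.natDegree_pos (Algebra.IsIntegral.isIntegral x)).ne'
  rw [h, ← Real.rpow_natCast, ← Real.rpow_mul (norm_nonneg _), one_div,
    inv_mul_cancel₀ (by exact_mod_cast hd), Real.rpow_one]

variable {q}

/-- **Norm formula**: on a finite extension `K` of `ℚ_q` inside `PadicAlgCl q`, the `[K : ℚ_q]`-th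
power of the norm is the `q`-adic norm of the field norm. -/
theorem norm_pow_finrank (K : IntermediateField ℚ_[q] (PadicAlgCl q)) [FiniteDimensional ℚ_[q] K]
    (x : K) :
    ‖(x : PadicAlgCl q)‖ ^ Module.finrank ℚ_[q] K = ‖Algebra.norm ℚ_[q] x‖ := by
  have hx : IsIntegral ℚ_[q] x := Algebra.IsIntegral.isIntegral x
  have hmin : minpoly ℚ_[q] (x : PadicAlgCl q) = minpoly ℚ_[q] x :=
    (minpoly.algebraMap_eq (algebraMap K (PadicAlgCl q)).injective x)
  rw [Algebra.norm_eq_norm_adjoin ℚ_[q] x]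
  have hgen : Algebra.norm ℚ_[q] (IntermediateField.AdjoinSimple.gen ℚ_[q] x) =
      (-1) ^ (minpoly ℚ_[q] x).natDegree * (minpoly ℚ_[q] x).coeff 0 := by
    have h := Algebra.PowerBasis.norm_gen_eq_coeff_zero_minpoly
      (IntermediateField.adjoin.powerBasis hx)
    rw [IntermediateField.adjoin.powerBasis_gen, IntermediateField.adjoin.powerBasis_dim,
      IntermediateField.minpoly_gen] at h
    exact h
  rw [hgen, norm_pow, norm_mul, norm_pow, norm_neg, norm_one, one_pow, one_mul,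
    ← hmin, ← norm_pow_natDegree q (x : PadicAlgCl q), ← pow_mul]
  congr 1
  rw [hmin, ← IntermediateField.adjoin.finrank hx]
  exact (Module.finrank_mul_finrank ℚ_[q] ℚ_[q]⟮x⟯ K).symm

variable (K : IntermediateField ℚ_[q] (PadicAlgCl q)) [FiniteDimensional ℚ_[q] K]

/-- Every nonzero element of `K` has norm `q ^ (-m / n)`, `n = [K : ℚ_q]`. -/
theorem exists_norm_pow_eq_zpow {x : K} (hx : x ≠ 0) :
    ∃ m : ℤ, ‖(x : PadicAlgCl q)‖ ^ Module.finrank ℚ_[q] K = (q : ℝ) ^ (-m) := by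
  rw [norm_pow_finrank]
  have h0 : Algebra.norm ℚ_[q] x ≠ 0 := by
    rwa [Ne, Algebra.norm_eq_zero_iff]
  exact ⟨_, Padic.norm_eq_zpow_neg_valuation h0⟩

/-- The (unnormalised) valuation subgroup of `ℤ`. -/
def valGroup : AddSubgroup ℤ where
  carrier := {m | ∃ x : K, x ≠ 0 ∧
    ‖(x : PadicAlgCl q)‖ ^ Module.finrank ℚ_[q] K = (q : ℝ) ^ (-m)}
  zero_mem' := ⟨1, one_ne_zero, by simp⟩
  add_mem' := by
    rintro a b ⟨x, hx, hxa⟩ ⟨y, hy, hyb⟩
    refine ⟨x * y, mul_ne_zero hx hy, ?_⟩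
    have hq : (q : ℝ) ≠ 0 := by exact_mod_cast (Fact.out : q.Prime).ne_zero
    rw [MulMemClass.coe_mul, norm_mul, mul_pow, hxa, hyb, ← zpow_add₀ hq]
    congr 1; ring
  neg_mem' := by
    rintro a ⟨x, hx, hxa⟩
    refine ⟨x⁻¹, inv_ne_zero hx, ?_⟩
    rw [show ((x⁻¹ : K) : PadicAlgCl q) = (x : PadicAlgCl q)⁻¹ from rfl, norm_inv, inv_pow, hxa,
      ← zpow_neg]

omit [FiniteDimensional ℚ_[q] ↥K] in
theorem finrank_mem_valGroup : (Module.finrank ℚ_[q] K : ℤ) ∈ valGroup K := by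
  refine ⟨(q : K), ?_, ?_⟩
  · exact_mod_cast (Fact.out : q.Prime).ne_zero
  · have : (((q : K) : PadicAlgCl q)) = algebraMap ℚ_[q] (PadicAlgCl q) (q : ℚ_[q]) := by
      simp
    rw [this, PadicAlgCl.norm_extends, Padic.norm_p, zpow_neg, zpow_natCast, inv_pow]

/-- **Uniformiser**: the value group of `K` is infinite cyclic, generated by `‖π‖` with
`‖π‖ ^ e = q⁻¹` for the ramification index `e ∣ [K : ℚ_q]`. -/
theorem exists_uniformiser :
    ∃ (e : ℕ) (π : K), 0 < e ∧ e ∣ Module.finrank ℚ_[q] K ∧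
      ‖(π : PadicAlgCl q)‖ ^ e = (q : ℝ)⁻¹ ∧
      ∀ x : K, x ≠ 0 → ∃ m : ℤ, ‖(x : PadicAlgCl q)‖ = ‖(π : PadicAlgCl q)‖ ^ m := by
  classical
  set n := Module.finrank ℚ_[q] K with hn
  have hn0 : 0 < n := Module.finrank_pos
  have hq1 : (1 : ℝ) < q := by exact_mod_cast (Fact.out : q.Prime).one_lt
  have hq0 : (0 : ℝ) < q := by linarith
  obtain ⟨a, ha⟩ := Int.subgroup_cyclic (valGroup K)
  rw [← AddSubgroup.zmultiples_eq_closure] at ha
  -- normalise `a > 0`
  have hna : (n : ℤ) ∈ AddSubgroup.zmultiples a := ha ▸ finrank_mem_valGroup K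
  rw [Int.mem_zmultiples_iff] at hna
  have ha0 : a ≠ 0 := by
    rintro rfl
    have := zero_dvd_iff.mp hna
    omega
  set d : ℕ := a.natAbs with hd
  have hd0 : 0 < d := Int.natAbs_pos.mpr ha0
  have hdH : valGroup K = AddSubgroup.zmultiples (d : ℤ) := by
    rw [ha, hd, Int.zmultiples_natAbs]
  have hdn : d ∣ n := by
    have : (d : ℤ) ∣ (n : ℤ) := by rw [hd, Int.natAbs_dvd]; exact hna
    exact_mod_cast this
  obtain ⟨e, he⟩ := hdn
  have he0 : 0 < e := by
    rcases Nat.eq_zero_or_pos e with h | h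
    · rw [h, mul_zero] at he; omega
    · exact h
  -- the uniformiser
  have hdmem : (d : ℤ) ∈ valGroup K := by
    rw [hdH]; exact AddSubgroup.mem_zmultiples _
  obtain ⟨π, hπ0, hπ⟩ := hdmem
  refine ⟨e, π, he0, ⟨d, by rw [he, mul_comm]⟩, ?_, ?_⟩
  · -- (‖π‖^e)^d = q^(-d)
    have h1 : (‖(π : PadicAlgCl q)‖ ^ e) ^ d = ((q : ℝ)⁻¹) ^ d := by
      rw [← pow_mul, mul_comm, ← he, hπ, zpow_neg, zpow_natCast, inv_pow]
    exact (pow_left_inj₀ (by positivity) (by positivity) hd0.ne').mp h1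
  · intro x hx
    obtain ⟨m, hm⟩ := exists_norm_pow_eq_zpow K hx
    have hmH : m ∈ valGroup K := ⟨x, hx, hm⟩
    rw [hdH, Int.mem_zmultiples_iff] at hmH
    obtain ⟨c, rfl⟩ := hmH
    refine ⟨c, ?_⟩
    have h2 : ‖(x : PadicAlgCl q)‖ ^ n = (‖(π : PadicAlgCl q)‖ ^ c) ^ n := by
      rw [hm, ← zpow_natCast (‖(π : PadicAlgCl q)‖ ^ c) n, ← zpow_mul, mul_comm c (n : ℤ),
        zpow_mul, zpow_natCast, hπ, ← zpow_mul]
      congr 1; ring
    have hπpos : 0 < ‖(π : PadicAlgCl q)‖ := by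
      rw [norm_pos_iff]; exact_mod_cast hπ0
    exact (pow_left_inj₀ (norm_nonneg _) (zpow_pos hπpos c).le hn0.ne').mp h2

end Fermat.Agent.S55.H88
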