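import Mathlib
import Fermat.Prelude.Def_GaloisRep_CompletionBridge
import Fermat.Agent.S55.H88.LocalNorm

/-!
Program C (S55), local fields in the `PadicAlgCl q` model: foundation leaves (F2).
The ring of integers of a finite extension `K` of `ℚ_q` inside `PadicAlgCl q` is a discrete
valuation ring with finite residue field of characteristic `q`; `K` is complete and proper
(helper88).
-/

set_option autoImplicit false

open scoped IntermediateField NNReal

namespace Fermat.Agent.S55.H88

variable {q : ℕ} [Fact q.Prime] (K : IntermediateField ℚ_[q] (PadicAlgCl q))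

/-- The ring of integers of `K`: the elements of norm `≤ 1`. -/
noncomputable def integerRing : ValuationSubring K :=
  (padicIntegers q).comap (algebraMap K (PadicAlgCl q))

theorem mem_integerRing_iff {x : K} : x ∈ integerRing K ↔ ‖x‖ ≤ 1 := by
  show ‖(x : PadicAlgCl q)‖₊ ≤ 1 ↔ ‖x‖ ≤ 1
  rw [← NNReal.coe_le_coe]
  rfl

theorem mem_nonunits_integerRing_iff {x : K} : x ∈ (integerRing K).nonunits ↔ ‖x‖ < 1 := by
  rw [ValuationSubring.mem_nonunits_iff_or]
  constructor
  · rintro (rfl | h)
    · simp
    · rw [mem_integerRing_iff, norm_inv, not_le] at h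
      by_cases hx : x = 0
      · simp [hx]
      · have hpos : 0 < ‖x‖ := norm_pos_iff.mpr hx
        rwa [one_lt_inv₀ hpos] at h
  · intro h
    by_cases hx : x = 0
    · exact Or.inl hx
    · right
      have hpos : 0 < ‖x‖ := norm_pos_iff.mpr hx
      rw [mem_integerRing_iff, norm_inv, not_le, one_lt_inv₀ hpos]
      exact h

theorem isUnit_integerRing_iff (x : integerRing K) : IsUnit x ↔ ‖(x : K)‖ = 1 := by
  have h1 : ‖(x : K)‖ ≤ 1 := (mem_integerRing_iff K).mp x.2
  constructor
  · intro hu
    by_contra hne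
    have hlt : ‖(x : K)‖ < 1 := lt_of_le_of_ne h1 hne
    have := (mem_nonunits_integerRing_iff K).mpr hlt
    rw [ValuationSubring.mem_nonunits_iff_exists_mem_maximalIdeal] at this
    obtain ⟨hx, hmem⟩ := this
    exact (IsLocalRing.mem_maximalIdeal _).mp hmem hu
  · intro h
    have hx0 : (x : K) ≠ 0 := by
      intro h0; rw [h0, norm_zero] at h; exact zero_ne_one h
    have hinv : (x : K)⁻¹ ∈ integerRing K := by
      rw [mem_integerRing_iff, norm_inv, h, inv_one]
    exact IsUnit.of_mul_eq_one ⟨(x : K)⁻¹, hinv⟩ (Subtype.ext (mul_inv_cancel₀ hx0))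

variable [FiniteDimensional ℚ_[q] K]

theorem properSpace : ProperSpace K := FiniteDimensional.proper ℚ_[q] K

theorem completeSpace : CompleteSpace K := FiniteDimensional.complete ℚ_[q] K

/-- The ring of integers is a discrete valuation ring. -/
theorem isDiscreteValuationRing_integerRing : IsDiscreteValuationRing (integerRing K) := by
  obtain ⟨e, π, he, -, hπ, hall⟩ := exists_uniformiser K
  have hq1 : (1 : ℝ) < q := by exact_mod_cast (Fact.out : q.Prime).one_lt
  have hπlt : ‖π‖ < 1 := by
    by_contra h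
    rw [not_lt] at h
    have : (1 : ℝ) ≤ ‖(π : PadicAlgCl q)‖ ^ e := one_le_pow₀ h
    rw [hπ] at this
    have : (q : ℝ)⁻¹ < 1 := inv_lt_one_of_one_lt₀ hq1
    linarith
  have hπpos : 0 < ‖π‖ := by
    by_contra h
    have h0 : ‖(π : PadicAlgCl q)‖ = 0 := le_antisymm (not_lt.mp h) (norm_nonneg _)
    rw [h0, zero_pow he.ne'] at hπ
    have : (0 : ℝ) < (q : ℝ)⁻¹ := by positivity
    linarith
  have hπne1 : ‖π‖ ≠ 1 := hπlt.ne
  have hπmem : π ∈ integerRing K := (mem_integerRing_iff K).mpr hπlt.le
  -- exponent of an integral element is nonnegative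
  have hexp : ∀ x : K, x ≠ 0 → ‖x‖ ≤ 1 → ∃ n : ℕ, ‖x‖ = ‖π‖ ^ n := by
    intro x hx hx1
    obtain ⟨m, hm⟩ := hall x hx
    have hm0 : 0 ≤ m := by
      by_contra hneg
      rw [not_le] at hneg
      have : 1 < ‖(π : PadicAlgCl q)‖ ^ m := by
        rw [← neg_neg m, zpow_neg]
        have h2 : ‖(π : PadicAlgCl q)‖ ^ (-m) < 1 := by
          lift -m to ℕ using (by omega) with k hk
          rw [zpow_natCast]
          exact pow_lt_one₀ (norm_nonneg _) hπlt (by omega)
        exact (one_lt_inv₀ (zpow_pos hπpos _)).mpr h2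
      have hx1' : ‖(x : PadicAlgCl q)‖ ≤ 1 := hx1
      rw [hm] at hx1'
      linarith
    lift m to ℕ using hm0
    exact ⟨m, by rw [show ‖x‖ = ‖(x : PadicAlgCl q)‖ from rfl, hm, zpow_natCast]; rfl⟩
  have hinj : ∀ a b : ℕ, ‖π‖ ^ a = ‖π‖ ^ b → a = b := by
    intro a b hab
    exact pow_right_injective₀ hπpos hπne1 hab
  apply IsDiscreteValuationRing.ofHasUnitMulPowIrreducibleFactorization
  refine ⟨⟨π, hπmem⟩, ?_, ?_⟩
  · -- irreducible
    constructor
    · rw [isUnit_integerRing_iff]
      exact hπne1
    · intro a b hab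
      have hab' : π = (a : K) * (b : K) := congrArg Subtype.val hab
      have ha0 : (a : K) ≠ 0 := by
        rintro h; rw [h, zero_mul] at hab'; rw [hab', norm_zero] at hπpos; exact lt_irrefl _ hπpos
      have hb0 : (b : K) ≠ 0 := by
        rintro h; rw [h, mul_zero] at hab'; rw [hab', norm_zero] at hπpos; exact lt_irrefl _ hπpos
      obtain ⟨m, hm⟩ := hexp a ha0 ((mem_integerRing_iff K).mp a.2)
      obtain ⟨k, hk⟩ := hexp b hb0 ((mem_integerRing_iff K).mp b.2)
      have h1 : ‖π‖ ^ 1 = ‖π‖ ^ (m + k) := by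
        rw [pow_one, pow_add, ← hm, ← hk, ← norm_mul, ← hab']
      have hmk := hinj _ _ h1
      rcases Nat.eq_zero_or_pos m with h0 | h0
      · left; rw [isUnit_integerRing_iff, hm, h0, pow_zero]
      · right
        have : k = 0 := by omega
        rw [isUnit_integerRing_iff, hk, this, pow_zero]
  · intro x hx
    have hx0 : (x : K) ≠ 0 := fun h => hx (Subtype.ext h)
    obtain ⟨n, hn⟩ := hexp x hx0 ((mem_integerRing_iff K).mp x.2)
    refine ⟨n, ?_⟩
    have hπ0 : π ≠ 0 := by
      rintro rfl; rw [norm_zero] at hπpos; exact lt_irrefl _ hπpos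
    have hu : (x : K) / π ^ n ∈ integerRing K := by
      rw [mem_integerRing_iff, norm_div, norm_pow, hn, div_self (pow_ne_zero _ hπpos.ne')]
    have hunit : IsUnit (⟨(x : K) / π ^ n, hu⟩ : integerRing K) := by
      rw [isUnit_integerRing_iff]
      show ‖(x : K) / π ^ n‖ = 1
      rw [norm_div, norm_pow, hn, div_self (pow_ne_zero _ hπpos.ne')]
    refine ⟨hunit.unit, ?_⟩
    apply Subtype.ext
    show π ^ n * ((x : K) / π ^ n) = x
    field_simp

/-- The residue field of the ring of integers is finite. -/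
theorem finite_residueField : Finite (IsLocalRing.ResidueField (integerRing K)) := by
  classical
  have hP : ProperSpace K := properSpace K
  have hc : IsCompact (Metric.closedBall (0 : K) 1) := isCompact_closedBall 0 1
  obtain ⟨t, hts, htfin, hcov⟩ := finite_cover_balls_of_compact hc one_pos
  let g : K → IsLocalRing.ResidueField (integerRing K) := fun x =>
    if h : x ∈ integerRing K then IsLocalRing.residue (integerRing K) ⟨x, h⟩ else 0
  have hsurj : (Set.univ : Set (IsLocalRing.ResidueField (integerRing K))) ⊆ g '' t := by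
    intro r _
    obtain ⟨y, rfl⟩ := IsLocalRing.residue_surjective r
    have hy : (y : K) ∈ Metric.closedBall (0 : K) 1 := by
      rw [mem_closedBall_zero_iff]; exact (mem_integerRing_iff K).mp y.2
    obtain ⟨x, hx⟩ := Set.mem_iUnion.mp (hcov hy)
    obtain ⟨hxt, hyx⟩ := Set.mem_iUnion.mp hx
    have hxO : x ∈ integerRing K := by
      have := hts hxt
      rw [mem_closedBall_zero_iff] at this
      exact (mem_integerRing_iff K).mpr this
    refine ⟨x, hxt, ?_⟩
    simp only [g, dif_pos hxO]
    rw [← sub_eq_zero, ← map_sub, IsLocalRing.residue_eq_zero_iff]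
    have hlt : ‖x - (y : K)‖ < 1 := by
      rw [Metric.mem_ball, dist_eq_norm] at hyx
      rwa [norm_sub_rev]
    have := (mem_nonunits_integerRing_iff K).mpr hlt
    rw [ValuationSubring.mem_nonunits_iff_exists_mem_maximalIdeal] at this
    obtain ⟨h1, h2⟩ := this
    exact h2
  exact Set.finite_univ_iff.mp ((htfin.image g).subset hsurj)

omit [FiniteDimensional ℚ_[q] ↥K] in
/-- The residue field has characteristic `q`. -/
theorem charP_residueField : CharP (IsLocalRing.ResidueField (integerRing K)) q := by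
  rw [CharP.charP_iff_prime_eq_zero (Fact.out : q.Prime)]
  have hq : (q : K) ∈ (integerRing K).nonunits := by
    rw [mem_nonunits_integerRing_iff]
    have h1 : ‖(q : K)‖ = ‖(q : ℚ_[q])‖ := by
      rw [show ‖(q : K)‖ = ‖((q : K) : PadicAlgCl q)‖ from rfl]
      have : (((q : K) : PadicAlgCl q)) = algebraMap ℚ_[q] (PadicAlgCl q) (q : ℚ_[q]) := by
        simp
      rw [this, PadicAlgCl.norm_extends]
    rw [h1, Padic.norm_p]
    exact inv_lt_one_of_one_lt₀ (by exact_mod_cast (Fact.out : q.Prime).one_lt)
  rw [ValuationSubring.mem_nonunits_iff_exists_mem_maximalIdeal] at hq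
  obtain ⟨h1, h2⟩ := hq
  have : ((q : ℕ) : IsLocalRing.ResidueField (integerRing K)) =
      IsLocalRing.residue (integerRing K) ⟨(q : K), h1⟩ := by
    rw [← map_natCast (IsLocalRing.residue (integerRing K))]
    rfl
  rw [this, IsLocalRing.residue_eq_zero_iff]
  exact h2

end Fermat.Agent.S55.H88
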