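import Mathlib
import Fermat.Prelude.Def_GaloisRep_CompletionBridge
import Fermat.Agent.S55.H88.LocalInt

/-!
Program C (S55), package C5: shared definitions for semi-local objects in the embedding model
(helper88).

For a prime `q` and a field `K` (a number field in the applications) the `q`-adic places of `K`
are the orbits of `G_q = Gal(PadicAlgCl q / ℚ_q)` on the set `K →+* PadicAlgCl q` of embeddings,
and the semi-local algebra `K ⊗_ℚ ℚ_q = ∏_{w ∣ q} K_w` is the ring of `G_q`-equivariant functions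
on the embeddings.  The completion at (the place of) an embedding `τ` is the intermediate field
`locField q τ = ℚ_q(τ K)` of `PadicAlgCl q / ℚ_q`.

Definitions only (plus the evident algebraic structure).
-/

set_option autoImplicit false

open scoped IntermediateField NNReal

noncomputable section

namespace Fermat.Agent.S55.H88

variable (q : ℕ) [Fact q.Prime]

section Basic

variable (K : Type*) [Field K]

/-- The semi-local algebra `K ⊗_ℚ ℚ_q` of a field `K` at the prime `q`, as the ring of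
Galois-equivariant functions on the embeddings of `K` into `PadicAlgCl q`. -/
def semiLocal : Subring ((K →+* PadicAlgCl q) → PadicAlgCl q) where
  carrier := {f | ∀ (g : PadicAlgCl q ≃ₐ[ℚ_[q]] PadicAlgCl q) (τ : K →+* PadicAlgCl q),
    f ((g : PadicAlgCl q →+* PadicAlgCl q).comp τ) = g (f τ)}
  mul_mem' := fun {a b} ha hb g τ => by
    rw [Pi.mul_apply, Pi.mul_apply, ha g τ, hb g τ, map_mul]
  one_mem' := fun g τ => by rw [Pi.one_apply, Pi.one_apply, map_one]
  add_mem' := fun {a b} ha hb g τ => by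
    rw [Pi.add_apply, Pi.add_apply, ha g τ, hb g τ, map_add]
  zero_mem' := fun g τ => by rw [Pi.zero_apply, Pi.zero_apply, map_zero]
  neg_mem' := fun {a} ha g τ => by rw [Pi.neg_apply, Pi.neg_apply, ha g τ, map_neg]

variable {q K}

theorem mem_semiLocal_iff {f : (K →+* PadicAlgCl q) → PadicAlgCl q} :
    f ∈ semiLocal q K ↔ ∀ (g : PadicAlgCl q ≃ₐ[ℚ_[q]] PadicAlgCl q) (τ : K →+* PadicAlgCl q),
      f ((g : PadicAlgCl q →+* PadicAlgCl q).comp τ) = g (f τ) := Iff.rfl

theorem semiLocal_apply_comp (f : semiLocal q K) (g : PadicAlgCl q ≃ₐ[ℚ_[q]] PadicAlgCl q)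
    (τ : K →+* PadicAlgCl q) :
    (f : (K →+* PadicAlgCl q) → PadicAlgCl q) ((g : PadicAlgCl q →+* PadicAlgCl q).comp τ)
      = g ((f : (K →+* PadicAlgCl q) → PadicAlgCl q) τ) := f.2 g τ

variable (q K)

/-- The diagonal embedding `K → K ⊗ ℚ_q`, `x ↦ (τ ↦ τ x)`. -/
def semiLocalDiag : K →+* semiLocal q K where
  toFun x := ⟨fun τ => τ x, fun _ _ => rfl⟩
  map_one' := Subtype.ext (funext fun τ => map_one τ)
  map_mul' x y := Subtype.ext (funext fun τ => map_mul τ x y)
  map_zero' := Subtype.ext (funext fun τ => map_zero τ)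
  map_add' x y := Subtype.ext (funext fun τ => map_add τ x y)

@[simp] theorem semiLocalDiag_apply (x : K) (τ : K →+* PadicAlgCl q) :
    (semiLocalDiag q K x : (K →+* PadicAlgCl q) → PadicAlgCl q) τ = τ x := rfl

/-- The constants `ℚ_q → K ⊗ ℚ_q`. -/
def semiLocalConst : ℚ_[q] →+* semiLocal q K where
  toFun c := ⟨fun _ => algebraMap ℚ_[q] (PadicAlgCl q) c, fun g _ => (g.commutes c).symm⟩
  map_one' := Subtype.ext (funext fun _ => map_one _)
  map_mul' x y := Subtype.ext (funext fun _ => map_mul _ x y)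
  map_zero' := Subtype.ext (funext fun _ => map_zero _)
  map_add' x y := Subtype.ext (funext fun _ => map_add _ x y)

instance semiLocalAlgebra : Algebra ℚ_[q] (semiLocal q K) := (semiLocalConst q K).toAlgebra

@[simp] theorem semiLocal_algebraMap_apply (c : ℚ_[q]) (τ : K →+* PadicAlgCl q) :
    (algebraMap ℚ_[q] (semiLocal q K) c : (K →+* PadicAlgCl q) → PadicAlgCl q) τ
      = algebraMap ℚ_[q] (PadicAlgCl q) c := rfl

/-- Evaluation at an embedding, `K ⊗ ℚ_q → PadicAlgCl q`. -/
def semiLocalEval (τ : K →+* PadicAlgCl q) : semiLocal q K →ₐ[ℚ_[q]] PadicAlgCl q where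
  toFun f := (f : (K →+* PadicAlgCl q) → PadicAlgCl q) τ
  map_one' := rfl
  map_mul' _ _ := rfl
  map_zero' := rfl
  map_add' _ _ := rfl
  commutes' _ := rfl

@[simp] theorem semiLocalEval_apply (τ : K →+* PadicAlgCl q) (f : semiLocal q K) :
    semiLocalEval q K τ f = (f : (K →+* PadicAlgCl q) → PadicAlgCl q) τ := rfl

variable {K}

/-- The completion of `K` at (the place of) the embedding `τ`: the subfield `ℚ_q(τ K)` of
`PadicAlgCl q`. -/
def locField (τ : K →+* PadicAlgCl q) : IntermediateField ℚ_[q] (PadicAlgCl q) :=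
  IntermediateField.adjoin ℚ_[q] (Set.range τ)

/-- The embedding of `K` into its completion at `τ`. -/
def locEmb (τ : K →+* PadicAlgCl q) : K →+* locField q τ :=
  τ.codRestrict (locField q τ).toSubring fun x =>
    IntermediateField.subset_adjoin ℚ_[q] (Set.range τ) ⟨x, rfl⟩

@[simp] theorem coe_locEmb (τ : K →+* PadicAlgCl q) (x : K) :
    ((locEmb q τ x : locField q τ) : PadicAlgCl q) = τ x := rfl

variable (K)

/-- Two embeddings define the same place above `q` when they are conjugate under the local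
Galois group. -/
def placeSetoid : Setoid (K →+* PadicAlgCl q) where
  r τ τ' := ∃ g : PadicAlgCl q ≃ₐ[ℚ_[q]] PadicAlgCl q,
    τ' = (g : PadicAlgCl q →+* PadicAlgCl q).comp τ
  iseqv :=
    { refl := fun τ => ⟨1, rfl⟩
      symm := by
        rintro τ τ' ⟨g, rfl⟩
        refine ⟨g⁻¹, RingHom.ext fun x => ?_⟩
        show τ x = g⁻¹ (g (τ x))
        exact (g.symm_apply_apply (τ x)).symm
      trans := by
        rintro τ τ' τ'' ⟨g, rfl⟩ ⟨h, rfl⟩
        exact ⟨h * g, RingHom.ext fun x => rfl⟩ }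

/-- The places of `K` above `q`: orbits of the local Galois group on the embeddings. -/
def PlaceAbove : Type _ := Quotient (placeSetoid q K)

variable {K}

/-- The place of an embedding. -/
def placeOf (τ : K →+* PadicAlgCl q) : PlaceAbove q K := Quotient.mk (placeSetoid q K) τ

/-- A chosen embedding in a place. -/
def PlaceAbove.emb {q : ℕ} [Fact q.Prime] (v : PlaceAbove q K) : K →+* PadicAlgCl q :=
  Quotient.out v

variable (K)

/-- The local units of the semi-local algebra: invertible elements all of whose values have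
norm one (`= ∏_{w ∣ q} 𝒪_w^×`). -/
def semiLocalUnits : Subgroup (semiLocal q K)ˣ where
  carrier := {u | ∀ τ : K →+* PadicAlgCl q,
    ‖((u : semiLocal q K) : (K →+* PadicAlgCl q) → PadicAlgCl q) τ‖ = 1}
  mul_mem' := fun {a b} ha hb τ => by
    show ‖((a : semiLocal q K) : (K →+* PadicAlgCl q) → PadicAlgCl q) τ *
      ((b : semiLocal q K) : (K →+* PadicAlgCl q) → PadicAlgCl q) τ‖ = 1
    rw [norm_mul, ha τ, hb τ, mul_one]
  one_mem' := fun τ => by
    show ‖(1 : PadicAlgCl q)‖ = 1
    exact norm_one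
  inv_mem' := fun {a} ha τ => by
    have h1 : ((a : semiLocal q K) : (K →+* PadicAlgCl q) → PadicAlgCl q) τ *
        (((a⁻¹ : (semiLocal q K)ˣ) : semiLocal q K) : (K →+* PadicAlgCl q) → PadicAlgCl q) τ
        = 1 := by
      have := congrArg (fun f : semiLocal q K =>
        (f : (K →+* PadicAlgCl q) → PadicAlgCl q) τ) a.mul_inv
      exact this
    have h2 := congrArg norm h1
    rw [norm_mul, ha τ, one_mul, norm_one] at h2
    exact h2

/-- The local unit group of the completion at `τ`. -/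
def locUnits (K' : IntermediateField ℚ_[q] (PadicAlgCl q)) : Subgroup K'ˣ where
  carrier := {u | ‖((u : K') : PadicAlgCl q)‖ = 1}
  mul_mem' := fun {a b} ha hb => by
    show ‖(((a : K') * (b : K') : K') : PadicAlgCl q)‖ = 1
    rw [MulMemClass.coe_mul, norm_mul, ha, hb, mul_one]
  one_mem' := by
    show ‖(((1 : K')) : PadicAlgCl q)‖ = 1
    rw [OneMemClass.coe_one, norm_one]
  inv_mem' := fun {a} ha => by
    show ‖((((a⁻¹ : K'ˣ) : K')) : PadicAlgCl q)‖ = 1
    rw [Units.val_inv_eq_inv_val]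
    show ‖(((a : K') : PadicAlgCl q))⁻¹‖ = 1
    rw [norm_inv, ha, inv_one]

end Basic

section Functoriality

variable (k K : Type*) [Field k] [Field K] [Algebra k K]

/-- Restriction of scalars `k ⊗ ℚ_q → K ⊗ ℚ_q` for an extension `K / k`. -/
def semiLocalMap : semiLocal q k →+* semiLocal q K where
  toFun f := ⟨fun τ => (f : (k →+* PadicAlgCl q) → PadicAlgCl q) (τ.comp (algebraMap k K)),
    fun g τ => by
      have := f.2 g (τ.comp (algebraMap k K))
      rw [← RingHom.comp_assoc] at this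
      exact this⟩
  map_one' := rfl
  map_mul' _ _ := rfl
  map_zero' := rfl
  map_add' _ _ := rfl

@[simp] theorem semiLocalMap_apply (f : semiLocal q k) (τ : K →+* PadicAlgCl q) :
    (semiLocalMap q k K f : (K →+* PadicAlgCl q) → PadicAlgCl q) τ
      = (f : (k →+* PadicAlgCl q) → PadicAlgCl q) (τ.comp (algebraMap k K)) := rfl

/-- The Galois group of `K / k` acts on `K ⊗ ℚ_q` by `(σ • f) τ = f (τ ∘ σ)`. -/
instance semiLocalGalAction : MulSemiringAction (K ≃ₐ[k] K) (semiLocal q K) where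
  smul σ f := ⟨fun τ => (f : (K →+* PadicAlgCl q) → PadicAlgCl q)
      (τ.comp ((σ : K ≃+* K) : K →+* K)),
    fun g τ => by
      have := f.2 g (τ.comp ((σ : K ≃+* K) : K →+* K))
      rw [← RingHom.comp_assoc] at this
      exact this⟩
  one_smul f := rfl
  mul_smul σ ρ f := rfl
  smul_zero σ := rfl
  smul_add σ f h := rfl
  smul_one σ := rfl
  smul_mul σ f h := rfl

variable {k K}

@[simp] theorem semiLocal_smul_apply (σ : K ≃ₐ[k] K) (f : semiLocal q K)
    (τ : K →+* PadicAlgCl q) :
    ((σ • f : semiLocal q K) : (K →+* PadicAlgCl q) → PadicAlgCl q) τ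
      = (f : (K →+* PadicAlgCl q) → PadicAlgCl q) (τ.comp ((σ : K ≃+* K) : K →+* K)) := rfl

theorem semiLocalDiag_smul (σ : K ≃ₐ[k] K) (x : K) :
    semiLocalDiag q K (σ x) = σ • semiLocalDiag q K x := rfl

theorem semiLocalMap_smul (σ : K ≃ₐ[k] K) (f : semiLocal q k) :
    σ • semiLocalMap q k K f = semiLocalMap q k K f := by
  refine Subtype.ext (funext fun τ => ?_)
  show (f : (k →+* PadicAlgCl q) → PadicAlgCl q)
      ((τ.comp ((σ : K ≃+* K) : K →+* K)).comp (algebraMap k K)) =
    (f : (k →+* PadicAlgCl q) → PadicAlgCl q) (τ.comp (algebraMap k K))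
  have h : (τ.comp ((σ : K ≃+* K) : K →+* K)).comp (algebraMap k K)
      = τ.comp (algebraMap k K) :=
    RingHom.ext fun x => congrArg τ (σ.commutes x)
  rw [h]

variable (k)

/-- The decomposition group of the place of `τ` in `Gal(K/k)`: the `σ` with `τ ∘ σ` conjugate to
`τ` under the local Galois group. -/
def decompGroup (τ : K →+* PadicAlgCl q) : Subgroup (K ≃ₐ[k] K) where
  carrier := {σ | ∃ g : PadicAlgCl q ≃ₐ[ℚ_[q]] PadicAlgCl q,
    τ.comp ((σ : K ≃+* K) : K →+* K) = (g : PadicAlgCl q →+* PadicAlgCl q).comp τ}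
  mul_mem' := by
    rintro σ ρ ⟨g, hg⟩ ⟨h, hh⟩
    refine ⟨g * h, RingHom.ext fun x => ?_⟩
    have h1 : τ (σ (ρ x)) = g (τ (ρ x)) := RingHom.congr_fun hg (ρ x)
    have h2 : τ (ρ x) = h (τ x) := RingHom.congr_fun hh x
    show τ (σ (ρ x)) = g (h (τ x))
    rw [h1, h2]
  one_mem' := ⟨1, RingHom.ext fun x => rfl⟩
  inv_mem' := by
    rintro σ ⟨g, hg⟩
    refine ⟨g⁻¹, RingHom.ext fun x => ?_⟩
    have h1 : τ (σ (σ⁻¹ x)) = g (τ (σ⁻¹ x)) := RingHom.congr_fun hg (σ⁻¹ x)
    have h2 : σ (σ⁻¹ x) = x := σ.apply_symm_apply x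
    rw [h2] at h1
    show τ (σ⁻¹ x) = g⁻¹ (τ x)
    rw [h1]
    exact (g.symm_apply_apply _).symm

theorem mem_decompGroup_iff {τ : K →+* PadicAlgCl q} {σ : K ≃ₐ[k] K} :
    σ ∈ decompGroup q k τ ↔ ∃ g : PadicAlgCl q ≃ₐ[ℚ_[q]] PadicAlgCl q,
      τ.comp ((σ : K ≃+* K) : K →+* K) = (g : PadicAlgCl q →+* PadicAlgCl q).comp τ := Iff.rfl

end Functoriality

end Fermat.Agent.S55.H88
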