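import Mathlib
import Fermat.Agent.S55.H88.SemiLocalDefs

/-!
Program C (S55), package C5 (helper88): first leaves of the embedding model.

* `eqOn_locField` : two local Galois elements that agree on `τ K` agree on `locField q τ`.
* `finiteDimensional_locField` (A1), `semiLocal_apply_mem_locField` (A2),
  `exists_semiLocal_split` (A3).
* `exists_algEquiv_comp_eq` (C1), `exists_extend` (C2), `norm_eq_finprod` (C6),
  `exists_semiLocalMap_eq` (C7).
-/

set_option autoImplicit false
set_option linter.style.haveILetI false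
set_option linter.unusedSectionVars false

open scoped IntermediateField NNReal

noncomputable section

namespace Fermat.Agent.S55.H88

variable (q : ℕ) [Fact q.Prime]

section Basic

variable {K : Type*} [Field K]

/-- Two elements of the local Galois group that agree on `τ K` agree on `ℚ_q(τ K)`. -/
theorem eqOn_locField (τ : K →+* PadicAlgCl q) (g g' : PadicAlgCl q ≃ₐ[ℚ_[q]] PadicAlgCl q)
    (h : (g : PadicAlgCl q →+* PadicAlgCl q).comp τ = (g' : PadicAlgCl q →+* PadicAlgCl q).comp τ)
    {z : PadicAlgCl q} (hz : z ∈ locField q τ) : g z = g' z := by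
  have hle : locField q τ ≤ IntermediateField.fixedField (Subgroup.zpowers (g'⁻¹ * g)) := by
    refine IntermediateField.adjoin_le_iff.mpr ?_
    rintro _ ⟨x, rfl⟩
    rw [SetLike.mem_coe, IntermediateField.mem_fixedField_iff]
    have hfix : (g'⁻¹ * g) (τ x) = τ x := by
      have h1 : g (τ x) = g' (τ x) := RingHom.congr_fun h x
      show g'⁻¹ (g (τ x)) = τ x
      rw [h1]
      exact g'.symm_apply_apply (τ x)
    intro f hf
    obtain ⟨n, rfl⟩ := Subgroup.mem_zpowers_iff.mp hf
    have hstab : (g'⁻¹ * g) ∈ MulAction.stabilizer (PadicAlgCl q ≃ₐ[ℚ_[q]] PadicAlgCl q) (τ x) :=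
      hfix
    exact (MulAction.stabilizer (PadicAlgCl q ≃ₐ[ℚ_[q]] PadicAlgCl q) (τ x)).zpow_mem hstab n
  have h2 := (IntermediateField.mem_fixedField_iff _ z).mp (hle hz) (g'⁻¹ * g)
    (Subgroup.mem_zpowers _)
  have h3 : g'⁻¹ (g z) = z := h2
  have h4 := congrArg g' h3
  rw [show g' (g'⁻¹ (g z)) = g z from g'.apply_symm_apply (g z)] at h4
  exact h4

/-- (A2) The values of a semi-local element lie in the completions. -/
theorem semiLocal_apply_mem_locField (f : semiLocal q K) (τ : K →+* PadicAlgCl q) :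
    (f : (K →+* PadicAlgCl q) → PadicAlgCl q) τ ∈ locField q τ := by
  rw [← InfiniteGalois.fixedField_fixingSubgroup (locField q τ),
    IntermediateField.mem_fixedField_iff]
  intro g hg
  have hgτ : (g : PadicAlgCl q →+* PadicAlgCl q).comp τ = τ := by
    refine RingHom.ext fun x => ?_
    have := (IntermediateField.mem_fixingSubgroup_iff (locField q τ) g).mp hg (τ x)
      (IntermediateField.subset_adjoin ℚ_[q] (Set.range τ) ⟨x, rfl⟩)
    exact this
  have := f.2 g τ
  rw [hgτ] at this
  exact this.symm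

open Classical in
/-- (A3) Product decomposition: every element of a completion is the value of a semi-local
element supported on that place. -/
theorem exists_semiLocal_split (τ : K →+* PadicAlgCl q) (y : PadicAlgCl q)
    (hy : y ∈ locField q τ) :
    ∃ f : semiLocal q K, (f : (K →+* PadicAlgCl q) → PadicAlgCl q) τ = y ∧
      ∀ τ' : K →+* PadicAlgCl q, ¬ (placeSetoid q K).r τ τ' →
        (f : (K →+* PadicAlgCl q) → PadicAlgCl q) τ' = 0 := by
  let F : (K →+* PadicAlgCl q) → PadicAlgCl q := fun τ' =>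
    if h : ∃ g : PadicAlgCl q ≃ₐ[ℚ_[q]] PadicAlgCl q,
        τ' = (g : PadicAlgCl q →+* PadicAlgCl q).comp τ then (Classical.choose h) y else 0
  have hF : ∀ g : PadicAlgCl q ≃ₐ[ℚ_[q]] PadicAlgCl q,
      F ((g : PadicAlgCl q →+* PadicAlgCl q).comp τ) = g y := by
    intro g
    have h : ∃ g' : PadicAlgCl q ≃ₐ[ℚ_[q]] PadicAlgCl q,
        (g : PadicAlgCl q →+* PadicAlgCl q).comp τ
          = (g' : PadicAlgCl q →+* PadicAlgCl q).comp τ := ⟨g, rfl⟩
    show (if h : ∃ g' : PadicAlgCl q ≃ₐ[ℚ_[q]] PadicAlgCl q,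
        (g : PadicAlgCl q →+* PadicAlgCl q).comp τ
          = (g' : PadicAlgCl q →+* PadicAlgCl q).comp τ then (Classical.choose h) y else 0) = g y
    rw [dif_pos h]
    exact (eqOn_locField q τ g (Classical.choose h) (Classical.choose_spec h) hy).symm
  have hF0 : ∀ τ' : K →+* PadicAlgCl q, ¬ (placeSetoid q K).r τ τ' → F τ' = 0 := by
    intro τ' h
    exact dif_neg h
  refine ⟨⟨F, fun g τ' => ?_⟩, ?_, hF0⟩
  · by_cases h : (placeSetoid q K).r τ τ'
    · obtain ⟨g', rfl⟩ := h
      have h1 : (g : PadicAlgCl q →+* PadicAlgCl q).comp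
          ((g' : PadicAlgCl q →+* PadicAlgCl q).comp τ)
          = ((g * g' : PadicAlgCl q ≃ₐ[ℚ_[q]] PadicAlgCl q) : PadicAlgCl q →+* PadicAlgCl q).comp τ :=
        RingHom.ext fun x => rfl
      rw [h1, hF, hF]
      rfl
    · have h' : ¬ (placeSetoid q K).r τ ((g : PadicAlgCl q →+* PadicAlgCl q).comp τ') := by
        rintro ⟨g', hg'⟩
        refine h ⟨g⁻¹ * g', RingHom.ext fun x => ?_⟩
        have := RingHom.congr_fun hg' x
        show τ' x = g⁻¹ (g' (τ x))
        rw [show g' (τ x) = g (τ' x) from this.symm]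
        exact (g.symm_apply_apply (τ' x)).symm
      rw [hF0 _ h, hF0 _ h', map_zero]
  · have := hF 1
    have h1 : ((1 : PadicAlgCl q ≃ₐ[ℚ_[q]] PadicAlgCl q) : PadicAlgCl q →+* PadicAlgCl q).comp τ
        = τ := RingHom.ext fun x => rfl
    rw [h1] at this
    exact this

end Basic

section NumberField

variable {K : Type*} [Field K] [NumberField K]

/-- The completion at `τ` is generated by the image of a primitive element. -/
theorem locField_eq_adjoin_simple (τ : K →+* PadicAlgCl q) (α : K) (hα : ℚ⟮α⟯ = ⊤) :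
    locField q τ = ℚ_[q]⟮τ α⟯ := by
  apply le_antisymm
  · refine IntermediateField.adjoin_le_iff.mpr ?_
    rintro _ ⟨x, rfl⟩
    have hx : x ∈ ℚ⟮α⟯ := by rw [hα]; exact IntermediateField.mem_top
    obtain ⟨r, s, rfl⟩ := (IntermediateField.mem_adjoin_simple_iff ℚ x).mp hx
    have key : ∀ r : Polynomial ℚ, τ (Polynomial.aeval α r) ∈ ℚ_[q]⟮τ α⟯ := by
      intro r
      have h1 : τ (Polynomial.aeval α r) = Polynomial.aeval (τ α) (r.map (algebraMap ℚ ℚ_[q])) := by
        rw [Polynomial.aeval_def, Polynomial.hom_eval₂, Polynomial.aeval_def,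
          Polynomial.eval₂_map]
        congr 1
        exact Subsingleton.elim _ _
      rw [h1]
      exact IntermediateField.algebra_adjoin_le_adjoin ℚ_[q] {τ α}
        (Polynomial.aeval_mem_adjoin_singleton ℚ_[q] (τ α))
    show τ (Polynomial.aeval α r / Polynomial.aeval α s) ∈ ℚ_[q]⟮τ α⟯
    rw [map_div₀]
    exact div_mem (key r) (key s)
  · refine IntermediateField.adjoin_le_iff.mpr ?_
    rintro _ rfl
    exact IntermediateField.subset_adjoin ℚ_[q] (Set.range τ) ⟨α, rfl⟩

/-- (A1) The completions of a number field are finite over `ℚ_q`. -/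
instance finiteDimensional_locField (τ : K →+* PadicAlgCl q) :
    FiniteDimensional ℚ_[q] (locField q τ) := by
  obtain ⟨α, hα⟩ := Field.exists_primitive_element ℚ K
  rw [locField_eq_adjoin_simple q τ α hα]
  exact IntermediateField.adjoin.finiteDimensional (Algebra.IsIntegral.isIntegral (τ α))

end NumberField

section Layer

variable {k K : Type*} [Field k] [Field K] [Algebra k K]

/-- (C1) For a normal extension `K / k`, the automorphism group is transitive on the embeddings
of `K` above a given embedding of `k`. -/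
theorem exists_algEquiv_comp_eq [Normal k K] (τ' τ'' : K →+* PadicAlgCl q)
    (h : τ'.comp (algebraMap k K) = τ''.comp (algebraMap k K)) :
    ∃ σ : K ≃ₐ[k] K, τ'' = τ'.comp ((σ : K ≃+* K) : K →+* K) := by
  letI : Algebra K (PadicAlgCl q) := τ'.toAlgebra
  letI : Algebra k (PadicAlgCl q) := (τ'.comp (algebraMap k K)).toAlgebra
  haveI : IsScalarTower k K (PadicAlgCl q) := IsScalarTower.of_algebraMap_eq (fun x => rfl)
  let ψ : K →ₐ[k] PadicAlgCl q :=
    { τ'' with commutes' := fun x => (RingHom.congr_fun h x).symm }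
  refine ⟨Normal.algHomEquivAut k (PadicAlgCl q) K ψ, RingHom.ext fun x => ?_⟩
  have h1 := (Normal.algHomEquivAut k (PadicAlgCl q) K).symm_apply_apply ψ
  have h2 := congrArg (fun φ : K →ₐ[k] PadicAlgCl q => φ x) h1
  exact h2.symm

/-- (C2) Every embedding of `k` extends to an algebraic extension `K`. -/
theorem exists_extend [Algebra.IsAlgebraic k K] (τ : k →+* PadicAlgCl q) :
    ∃ τ' : K →+* PadicAlgCl q, τ'.comp (algebraMap k K) = τ := by
  letI : Algebra k (PadicAlgCl q) := τ.toAlgebra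
  let ψ : K →ₐ[k] PadicAlgCl q := IsAlgClosed.lift
  exact ⟨ψ, RingHom.ext fun x => ψ.commutes x⟩

/-- (C6) A global norm is the product of the conjugates. -/
theorem norm_eq_finprod [FiniteDimensional k K] [IsGalois k K] (τ' : K →+* PadicAlgCl q)
    (b : K) :
    τ' (algebraMap k K (Algebra.norm k b)) = ∏ᶠ σ : K ≃ₐ[k] K, τ' (σ b) := by
  classical
  rw [Algebra.norm_eq_prod_automorphisms, map_prod, finprod_eq_prod_of_fintype]

/-- (C7) The Galois invariants of `K ⊗ ℚ_q` are `k ⊗ ℚ_q`. -/
theorem exists_semiLocalMap_eq [Normal k K] (f : semiLocal q K)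
    (hf : ∀ σ : K ≃ₐ[k] K, σ • f = f) : ∃ f₀ : semiLocal q k, semiLocalMap q k K f₀ = f := by
  choose ext hext using fun τ : k →+* PadicAlgCl q => exists_extend q (K := K) τ
  have key : ∀ τ' τ'' : K →+* PadicAlgCl q,
      τ'.comp (algebraMap k K) = τ''.comp (algebraMap k K) →
      (f : (K →+* PadicAlgCl q) → PadicAlgCl q) τ'' =
        (f : (K →+* PadicAlgCl q) → PadicAlgCl q) τ' := by
    intro τ' τ'' h
    obtain ⟨σ, rfl⟩ := exists_algEquiv_comp_eq q τ' τ'' h
    have := congrArg (fun F : semiLocal q K =>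
      (F : (K →+* PadicAlgCl q) → PadicAlgCl q) τ') (hf σ)
    exact this
  refine ⟨⟨fun τ => (f : (K →+* PadicAlgCl q) → PadicAlgCl q) (ext τ), fun g τ => ?_⟩,
    Subtype.ext (funext fun τ' => ?_)⟩
  · rw [← f.2 g (ext τ)]
    refine key _ _ ?_
    rw [RingHom.comp_assoc, hext τ, hext]
  · show (f : (K →+* PadicAlgCl q) → PadicAlgCl q) (ext (τ'.comp (algebraMap k K))) = _
    exact key _ _ (hext _).symm

end Layer

section Integrality

/-- Elements of `PadicAlgCl q` that are integral over `ℤ` have norm at most one. -/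
theorem norm_le_one_of_isIntegral {z : PadicAlgCl q} (hz : IsIntegral ℤ z) : ‖z‖ ≤ 1 := by
  have h1 : IsIntegral (padicIntegers q) z := hz.tower_top
  obtain ⟨y, rfl⟩ := IsIntegrallyClosed.isIntegral_iff.mp h1
  have h2 : ‖(y : PadicAlgCl q)‖₊ ≤ 1 := (mem_padicIntegers_iff q).mp y.2
  exact_mod_cast h2

variable {K : Type*} [Field K] [NumberField K]

open NumberField in
/-- Algebraic integers have norm at most one at every finite place. -/
theorem norm_map_integer_le_one (τ : K →+* PadicAlgCl q) (a : 𝓞 K) : ‖τ (a : K)‖ ≤ 1 :=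
  norm_le_one_of_isIntegral q
    ((RingOfIntegers.isIntegral_coe a).map (τ.toIntAlgHom))

open NumberField in
/-- A nonzero algebraic integer is a unit at the places not dividing its norm. -/
theorem norm_map_integer_eq_one (τ : K →+* PadicAlgCl q) (a : 𝓞 K)
    (hq : ¬ q ∣ Ideal.absNorm (Ideal.span {a})) : ‖τ (a : K)‖ = 1 := by
  obtain ⟨c, hc⟩ := Ideal.mem_span_singleton'.mp (Ideal.absNorm_mem (Ideal.span {a}))
  have h1 : τ ((c : K)) * τ (a : K) = ((Ideal.absNorm (Ideal.span {a}) : ℕ) : PadicAlgCl q) := by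
    rw [← map_mul]
    have h2 : ((c * a : 𝓞 K) : K) = ((Ideal.absNorm (Ideal.span {a}) : ℕ) : K) := by
      rw [hc]
      simp
    rw [show (c : K) * (a : K) = ((c * a : 𝓞 K) : K) by simp, h2, map_natCast]
  have h3 : ‖((Ideal.absNorm (Ideal.span {a}) : ℕ) : PadicAlgCl q)‖ = 1 := by
    have h4 : ((Ideal.absNorm (Ideal.span {a}) : ℕ) : PadicAlgCl q)
        = algebraMap ℚ_[q] (PadicAlgCl q) ((Ideal.absNorm (Ideal.span {a}) : ℕ) : ℚ_[q]) := by
      rw [map_natCast]
    rw [h4, norm_algebraMap', Padic.norm_natCast_eq_one_iff]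
    exact (Nat.Prime.coprime_iff_not_dvd Fact.out).mpr hq
  have h5 := congrArg norm h1
  rw [norm_mul, h3] at h5
  have ha := norm_map_integer_le_one q τ a
  have hc' := norm_map_integer_le_one q τ c
  have hc0 : 0 ≤ ‖τ (c : K)‖ := norm_nonneg _
  have ha0 : 0 ≤ ‖τ (a : K)‖ := norm_nonneg _
  nlinarith

end Integrality

section Finiteness

variable {K : Type*} [Field K] [NumberField K]

open NumberField in
/-- (B2 = FIN) A nonzero element of a number field is a unit at all places above all but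
finitely many primes. -/
theorem finite_setOf_exists_norm_ne_one (x : K) (hx : x ≠ 0) :
    {q : Nat.Primes | ∃ τ : K →+* @PadicAlgCl (q : ℕ) ⟨q.2⟩, ‖τ x‖ ≠ 1}.Finite := by
  obtain ⟨a, b, hb, rfl⟩ := IsFractionRing.div_surjective (A := 𝓞 K) x
  have hb0 : b ≠ 0 := nonZeroDivisors.ne_zero hb
  have ha0 : a ≠ 0 := by
    rintro rfl
    apply hx
    rw [map_zero, zero_div]
  set n := Ideal.absNorm (Ideal.span {a}) * Ideal.absNorm (Ideal.span {b}) with hn
  have hn0 : n ≠ 0 := by
    rw [hn]
    refine mul_ne_zero ?_ ?_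
    · rw [Ne, Ideal.absNorm_eq_zero_iff, Ideal.span_singleton_eq_bot]
      exact ha0
    · rw [Ne, Ideal.absNorm_eq_zero_iff, Ideal.span_singleton_eq_bot]
      exact hb0
  have hfin : {d : ℕ | d ∣ n}.Finite :=
    (Finset.finite_toSet (Nat.divisors n)).subset fun d hd =>
      Finset.mem_coe.mpr (Nat.mem_divisors.mpr ⟨hd, hn0⟩)
  refine Set.Finite.subset (hfin.preimage (f := fun q : Nat.Primes => (q : ℕ))
    (Nat.Primes.coe_nat_injective.injOn)) ?_
  rintro q ⟨τ, hτ⟩
  haveI : Fact (q : ℕ).Prime := ⟨q.2⟩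
  show (q : ℕ) ∣ n
  by_contra hq
  apply hτ
  have h1 : ¬ (q : ℕ) ∣ Ideal.absNorm (Ideal.span {a}) := fun h => hq (Dvd.dvd.mul_right h _)
  have h2 : ¬ (q : ℕ) ∣ Ideal.absNorm (Ideal.span {b}) := fun h => hq (Dvd.dvd.mul_left h _)
  rw [map_div₀, norm_div]
  have e1 := norm_map_integer_eq_one (q : ℕ) τ a h1
  have e2 := norm_map_integer_eq_one (q : ℕ) τ b h2
  rw [show algebraMap (𝓞 K) K a = (a : K) from rfl, show algebraMap (𝓞 K) K b = (b : K) from rfl,
    e1, e2, div_one]

end Finiteness

end Fermat.Agent.S55.H88
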