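import Mathlib
import Fermat.Agent.S55.H88.SemiLocalBasic

/-!
Program C (S55), package C5 (helper88): the decomposition group as the Galois group of the
completion.

For a Galois layer `K / k` and an embedding `τ : K →+* PadicAlgCl q`, the decomposition group
`decompGroup q k τ` acts on the completion `locField q τ` by `ℚ_q`-automorphisms
(`decompAut`), compatibly with its action on `K`; the action is faithful, and (for `K / k`
normal) its image is the group of automorphisms of `locField q τ` fixing `τ k`.
-/

set_option autoImplicit false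
set_option linter.unusedSectionVars false

open scoped IntermediateField NNReal

noncomputable section

namespace Fermat.Agent.S55.H88

variable (q : ℕ) [Fact q.Prime]

variable (k : Type*) {K : Type*} [Field k] [Field K] [Algebra k K] (τ : K →+* PadicAlgCl q)

/-- A chosen element of the local Galois group inducing `σ ∈ decompGroup q k τ`. -/
def decompLift (σ : decompGroup q k τ) : PadicAlgCl q ≃ₐ[ℚ_[q]] PadicAlgCl q :=
  Classical.choose σ.2

theorem decompLift_spec (σ : decompGroup q k τ) :
    τ.comp (((σ : K ≃ₐ[k] K) : K ≃+* K) : K →+* K)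
      = (decompLift q k τ σ : PadicAlgCl q →+* PadicAlgCl q).comp τ :=
  Classical.choose_spec σ.2

theorem decompLift_apply (σ : decompGroup q k τ) (x : K) :
    decompLift q k τ σ (τ x) = τ ((σ : K ≃ₐ[k] K) x) :=
  (RingHom.congr_fun (decompLift_spec q k τ σ) x).symm

/-- Any local Galois element inducing `σ` agrees with the chosen one on the completion. -/
theorem decompLift_eq_of_comp_eq (σ : decompGroup q k τ)
    (g : PadicAlgCl q ≃ₐ[ℚ_[q]] PadicAlgCl q)
    (hg : τ.comp (((σ : K ≃ₐ[k] K) : K ≃+* K) : K →+* K)
      = (g : PadicAlgCl q →+* PadicAlgCl q).comp τ)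
    {z : PadicAlgCl q} (hz : z ∈ locField q τ) : decompLift q k τ σ z = g z :=
  eqOn_locField q τ _ _ ((decompLift_spec q k τ σ).symm.trans hg) hz

theorem decompLift_mem (σ : decompGroup q k τ) {z : PadicAlgCl q} (hz : z ∈ locField q τ) :
    decompLift q k τ σ z ∈ locField q τ := by
  have hle : locField q τ ≤
      (locField q τ).comap ((decompLift q k τ σ : PadicAlgCl q ≃ₐ[ℚ_[q]] PadicAlgCl q) :
        PadicAlgCl q →ₐ[ℚ_[q]] PadicAlgCl q) := by
    refine IntermediateField.adjoin_le_iff.mpr ?_
    rintro _ ⟨x, rfl⟩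
    show decompLift q k τ σ (τ x) ∈ locField q τ
    rw [decompLift_apply]
    exact IntermediateField.subset_adjoin ℚ_[q] (Set.range τ) ⟨_, rfl⟩
  exact hle hz

theorem decompLift_mul_apply (σ ρ : decompGroup q k τ) {z : PadicAlgCl q}
    (hz : z ∈ locField q τ) :
    decompLift q k τ (σ * ρ) z = decompLift q k τ σ (decompLift q k τ ρ z) := by
  refine decompLift_eq_of_comp_eq q k τ (σ * ρ) (decompLift q k τ σ * decompLift q k τ ρ) ?_ hz
  refine RingHom.ext fun x => ?_
  show τ ((σ : K ≃ₐ[k] K) ((ρ : K ≃ₐ[k] K) x)) = decompLift q k τ σ (decompLift q k τ ρ (τ x))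
  rw [decompLift_apply, decompLift_apply]

theorem decompLift_one_apply {z : PadicAlgCl q} (hz : z ∈ locField q τ) :
    decompLift q k τ 1 z = z :=
  decompLift_eq_of_comp_eq q k τ 1 1 (RingHom.ext fun _ => rfl) hz

/-- The action of the decomposition group on the completion. -/
def decompAut : decompGroup q k τ →* (locField q τ ≃ₐ[ℚ_[q]] locField q τ) where
  toFun σ :=
    { toFun := fun z => ⟨decompLift q k τ σ z, decompLift_mem q k τ σ z.2⟩
      invFun := fun z => ⟨decompLift q k τ σ⁻¹ z, decompLift_mem q k τ σ⁻¹ z.2⟩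
      left_inv := fun z => Subtype.ext (by
        show decompLift q k τ σ⁻¹ (decompLift q k τ σ z) = z
        rw [← decompLift_mul_apply q k τ σ⁻¹ σ z.2, inv_mul_cancel]
        exact decompLift_one_apply q k τ z.2)
      right_inv := fun z => Subtype.ext (by
        show decompLift q k τ σ (decompLift q k τ σ⁻¹ z) = z
        rw [← decompLift_mul_apply q k τ σ σ⁻¹ z.2, mul_inv_cancel]
        exact decompLift_one_apply q k τ z.2)
      map_mul' := fun a b => Subtype.ext (map_mul (decompLift q k τ σ) (a : PadicAlgCl q) b)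
      map_add' := fun a b => Subtype.ext (map_add (decompLift q k τ σ) (a : PadicAlgCl q) b)
      commutes' := fun c => Subtype.ext ((decompLift q k τ σ).commutes c) }
  map_one' := AlgEquiv.ext fun z => Subtype.ext (decompLift_one_apply q k τ z.2)
  map_mul' σ ρ := AlgEquiv.ext fun z => Subtype.ext (decompLift_mul_apply q k τ σ ρ z.2)

@[simp] theorem coe_decompAut_apply (σ : decompGroup q k τ) (z : locField q τ) :
    ((decompAut q k τ σ z : locField q τ) : PadicAlgCl q) = decompLift q k τ σ z := rfl

/-- The action on the completion extends the action on `K`. -/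
theorem decompAut_locEmb (σ : decompGroup q k τ) (x : K) :
    decompAut q k τ σ (locEmb q τ x) = locEmb q τ ((σ : K ≃ₐ[k] K) x) :=
  Subtype.ext (decompLift_apply q k τ σ x)

/-- The action of any local Galois element inducing `σ` is the action of `σ`. -/
theorem coe_decompAut_eq_of_comp_eq (σ : decompGroup q k τ)
    (g : PadicAlgCl q ≃ₐ[ℚ_[q]] PadicAlgCl q)
    (hg : τ.comp (((σ : K ≃ₐ[k] K) : K ≃+* K) : K →+* K)
      = (g : PadicAlgCl q →+* PadicAlgCl q).comp τ) (z : locField q τ) :
    ((decompAut q k τ σ z : locField q τ) : PadicAlgCl q) = g z :=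
  decompLift_eq_of_comp_eq q k τ σ g hg z.2

/-- The action of the decomposition group on the completion is faithful. -/
theorem decompAut_injective : Function.Injective (decompAut q k τ) := by
  rw [injective_iff_map_eq_one]
  intro σ hσ
  refine Subtype.ext (AlgEquiv.ext fun x => ?_)
  have h1 := decompAut_locEmb q k τ σ x
  rw [hσ] at h1
  have h2 : τ x = τ ((σ : K ≃ₐ[k] K) x) := congrArg Subtype.val h1
  exact (τ.injective h2).symm

/-- The elements of the decomposition group fix (the image of) `k`. -/
theorem decompAut_apply_algebraMap (σ : decompGroup q k τ) (y : k) :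
    decompAut q k τ σ (locEmb q τ (algebraMap k K y)) = locEmb q τ (algebraMap k K y) := by
  rw [decompAut_locEmb, AlgEquiv.commutes]

/-- (C5) For a normal extension `K / k`, every automorphism of the completion `K_w` that fixes
the image of `k` comes from the decomposition group: `D_w = Gal(K_w / k_v)`. -/
theorem exists_decompAut_eq [Normal k K] (α : locField q τ ≃ₐ[ℚ_[q]] locField q τ)
    (hα : ∀ y : k, α (locEmb q τ (algebraMap k K y)) = locEmb q τ (algebraMap k K y)) :
    ∃ σ : decompGroup q k τ, decompAut q k τ σ = α := by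
  -- extend `α` to the algebraic closure
  let g : PadicAlgCl q ≃ₐ[ℚ_[q]] PadicAlgCl q := AlgEquiv.liftNormal α (PadicAlgCl q)
  have hg : ∀ z : locField q τ, g (z : PadicAlgCl q) = (α z : PadicAlgCl q) := fun z =>
    AlgEquiv.liftNormal_commutes α (PadicAlgCl q) z
  have hk : τ.comp (algebraMap k K)
      = ((g : PadicAlgCl q →+* PadicAlgCl q).comp τ).comp (algebraMap k K) := by
    refine RingHom.ext fun y => ?_
    have h1 := hg (locEmb q τ (algebraMap k K y))
    rw [hα y] at h1
    exact h1.symm
  obtain ⟨σ, hσ⟩ := exists_algEquiv_comp_eq q τ ((g : PadicAlgCl q →+* PadicAlgCl q).comp τ) hk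
  refine ⟨⟨σ, g, hσ.symm⟩, AlgEquiv.ext fun z => Subtype.ext ?_⟩
  rw [coe_decompAut_eq_of_comp_eq q k τ ⟨σ, g, hσ.symm⟩ g hσ.symm z]
  exact hg z

end Fermat.Agent.S55.H88
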