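import Mathlib
import Fermat.Agent.S55.H88.DecompAction

/-!
Program C (S55), package C5 (helper88): the Galois modules of a layer `K / k` in the embedding
model, as objects of Mathlib's `Rep ℤ Gal(K/k)`:

* `semiLocalRep q k K` : `(K ⊗ ℚ_q)ˣ`;
* `locUnitsRep q k τ` : `K_wˣ` as a representation of the decomposition group;
* `semiLocalToLoc q k τ` : evaluation at `τ`, a morphism `Res (K ⊗ ℚ_q)ˣ ⟶ K_wˣ`, and the induced
  localisation maps `locCohMap` on cohomology;
* `ideleGroup K`, `ideleRep k K` : the finite ideles (restricted product over all primes `q`),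
  `ideleProj`, `ideleDiag`.
-/

set_option autoImplicit false
set_option linter.unusedSectionVars false
set_option linter.unusedVariables false

open scoped IntermediateField NNReal
open CategoryTheory

noncomputable section

namespace Fermat.Agent.S55.H88

variable (q : ℕ) [Fact q.Prime]

section SemiLocal

variable (k K : Type*) [Field k] [Field K] [Algebra k K]

/-- The action of `Gal(K/k)` on the units of `K ⊗ ℚ_q`. -/
instance semiLocalUnitsGalAction : MulDistribMulAction (K ≃ₐ[k] K) (semiLocal q K)ˣ :=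
  Units.mulDistribMulActionRight

variable {k K}

@[simp] theorem coe_smul_semiLocalUnits (σ : K ≃ₐ[k] K) (u : (semiLocal q K)ˣ) :
    ((σ • u : (semiLocal q K)ˣ) : semiLocal q K) = σ • (u : semiLocal q K) := rfl

variable (k) in
/-- The action of the decomposition group on the units of the completion. -/
instance locUnitsDecompAction (τ : K →+* PadicAlgCl q) :
    MulDistribMulAction (decompGroup q k τ) (locField q τ)ˣ where
  smul σ u := Units.map ((decompAut q k τ σ : locField q τ ≃ₐ[ℚ_[q]] locField q τ) :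
    locField q τ →* locField q τ) u
  one_smul u := by
    refine Units.ext ?_
    show decompAut q k τ 1 (u : locField q τ) = u
    rw [map_one]
    rfl
  mul_smul σ ρ u := by
    refine Units.ext ?_
    show decompAut q k τ (σ * ρ) (u : locField q τ)
      = decompAut q k τ σ (decompAut q k τ ρ (u : locField q τ))
    rw [map_mul]
    rfl
  smul_mul σ u v := by
    refine Units.ext ?_
    show decompAut q k τ σ ((u : locField q τ) * (v : locField q τ))
      = decompAut q k τ σ (u : locField q τ) * decompAut q k τ σ (v : locField q τ)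
    rw [map_mul]
  smul_one σ := by
    refine Units.ext ?_
    show decompAut q k τ σ (1 : locField q τ) = 1
    rw [map_one]

@[simp] theorem coe_smul_locUnits (τ : K →+* PadicAlgCl q) (σ : decompGroup q k τ)
    (u : (locField q τ)ˣ) :
    ((σ • u : (locField q τ)ˣ) : locField q τ) = decompAut q k τ σ (u : locField q τ) := rfl

/-- Evaluation at `τ`, with values in the completion. -/
def semiLocalEvalLoc (τ : K →+* PadicAlgCl q) : semiLocal q K →+* locField q τ :=
  (semiLocalEval q K τ).toRingHom.codRestrict (locField q τ).toSubring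
    fun f => semiLocal_apply_mem_locField q f τ

@[simp] theorem coe_semiLocalEvalLoc (τ : K →+* PadicAlgCl q) (f : semiLocal q K) :
    ((semiLocalEvalLoc q τ f : locField q τ) : PadicAlgCl q)
      = (f : (K →+* PadicAlgCl q) → PadicAlgCl q) τ := rfl

theorem semiLocalEvalLoc_diag (τ : K →+* PadicAlgCl q) (x : K) :
    semiLocalEvalLoc q τ (semiLocalDiag q K x) = locEmb q τ x := rfl

/-- Evaluation at `τ` is equivariant for the decomposition group. -/
theorem semiLocalEvalLoc_smul (τ : K →+* PadicAlgCl q) (σ : decompGroup q k τ)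
    (f : semiLocal q K) :
    semiLocalEvalLoc q τ ((σ : K ≃ₐ[k] K) • f) = decompAut q k τ σ (semiLocalEvalLoc q τ f) := by
  refine Subtype.ext ?_
  show (f : (K →+* PadicAlgCl q) → PadicAlgCl q)
      (τ.comp (((σ : K ≃ₐ[k] K) : K ≃+* K) : K →+* K))
    = decompLift q k τ σ ((f : (K →+* PadicAlgCl q) → PadicAlgCl q) τ)
  rw [decompLift_spec q k τ σ]
  exact f.2 _ τ

end SemiLocal

section Reps

variable (k K : Type) [Field k] [Field K] [Algebra k K]

/-- `(K ⊗ ℚ_q)ˣ` as a representation of `Gal(K/k)`. -/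
def semiLocalRep : Rep ℤ (K ≃ₐ[k] K) := Rep.ofMulDistribMulAction (K ≃ₐ[k] K) (semiLocal q K)ˣ

variable {K}

/-- `K_wˣ` as a representation of the decomposition group `D_w = Gal(K_w/k_v)`. -/
def locUnitsRep (τ : K →+* PadicAlgCl q) : Rep ℤ (decompGroup q k τ) :=
  Rep.ofMulDistribMulAction (decompGroup q k τ) (locField q τ)ˣ

/-- Evaluation at `τ` as a morphism of representations of the decomposition group. -/
def semiLocalToLoc (τ : K →+* PadicAlgCl q) :
    Rep.res (decompGroup q k τ).subtype (semiLocalRep q k K) ⟶ locUnitsRep q k τ :=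
  Rep.ofHom ⟨(MonoidHom.toAdditive
      (Units.map (semiLocalEvalLoc q τ : semiLocal q K →* locField q τ))).toIntLinearMap,
    fun σ => LinearMap.ext fun u =>
      congrArg Additive.ofMul (Units.ext (semiLocalEvalLoc_smul q τ σ
        (((Additive.toMul (α := (semiLocal q K)ˣ) u : (semiLocal q K)ˣ) : semiLocal q K))))⟩

/-- The localisation map `Hⁿ(Gal(K/k), (K ⊗ ℚ_q)ˣ) ⟶ Hⁿ(D_w, K_wˣ)`. -/
def locCohMap (τ : K →+* PadicAlgCl q) (n : ℕ) :
    groupCohomology (semiLocalRep q k K) n ⟶ groupCohomology (locUnitsRep q k τ) n :=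
  groupCohomology.map (decompGroup q k τ).subtype (semiLocalToLoc q k τ) n

end Reps

/-- Exactness of a short complex of representations, elementwise (stated for a general
coefficient ring to avoid the `ℤ`-module instance diamond). -/
theorem rep_exact_iff {k G : Type} [CommRing k] [Monoid G] (S : ShortComplex (Rep.{0} k G)) :
    S.Exact ↔ ∀ x : S.X₂, S.g.hom x = 0 → ∃ y : S.X₁, S.f.hom y = x := by
  rw [← ShortComplex.exact_map_iff_of_faithful S (forget₂ (Rep.{0} k G) (ModuleCat.{0} k)),
    ShortComplex.moduleCat_exact_iff]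
  rfl

/-- `Nat.Primes` are prime (use as a local instance). -/
theorem factOfPrimes (q : Nat.Primes) : Fact (q : ℕ).Prime := ⟨q.2⟩

attribute [local instance] factOfPrimes

section Idele

variable (k K : Type) [Field k] [Field K] [Algebra k K]

theorem smul_mem_semiLocalUnits {q : ℕ} [Fact q.Prime] (σ : K ≃ₐ[k] K) {u : (semiLocal q K)ˣ}
    (hu : u ∈ semiLocalUnits q K) : σ • u ∈ semiLocalUnits q K :=
  fun τ => hu (τ.comp (((σ : K ≃ₐ[k] K) : K ≃+* K) : K →+* K))

/-- The group of finite ideles of `K`: the restricted product of the `(K ⊗ ℚ_q)ˣ` with respect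
to the unit groups. -/
def ideleGroup : Subgroup (∀ q : Nat.Primes, (semiLocal (q : ℕ) K)ˣ) where
  carrier := {x | {q : Nat.Primes | x q ∉ semiLocalUnits (q : ℕ) K}.Finite}
  one_mem' := by
    have : {q : Nat.Primes | (1 : ∀ q : Nat.Primes, (semiLocal (q : ℕ) K)ˣ) q
        ∉ semiLocalUnits (q : ℕ) K} = ∅ :=
      Set.eq_empty_of_forall_notMem fun q hq => hq (Subgroup.one_mem _)
    show Set.Finite _
    rw [this]
    exact Set.finite_empty
  mul_mem' := by
    intro x y hx hy
    refine (Set.Finite.union hx hy).subset ?_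
    intro q hq
    by_contra h
    simp only [Set.mem_union, Set.mem_ofPred_eq, not_or, not_not] at h
    exact hq (Subgroup.mul_mem _ h.1 h.2)
  inv_mem' := by
    intro x hx
    refine Set.Finite.subset hx ?_
    intro q hq h
    exact hq (Subgroup.inv_mem _ h)

variable {K} in
theorem mem_ideleGroup_iff {x : ∀ q : Nat.Primes, (semiLocal (q : ℕ) K)ˣ} :
    x ∈ ideleGroup K ↔ {q : Nat.Primes | x q ∉ semiLocalUnits (q : ℕ) K}.Finite := Iff.rfl

/-- The action of `Gal(K/k)` on the ideles. -/
instance ideleGalAction : MulDistribMulAction (K ≃ₐ[k] K) (ideleGroup K) where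
  smul σ x := ⟨fun q => σ • (x : ∀ q : Nat.Primes, (semiLocal (q : ℕ) K)ˣ) q,
    Set.Finite.subset x.2 fun q hq h => hq (smul_mem_semiLocalUnits k K σ h)⟩
  one_smul x := Subtype.ext (funext fun q => one_smul _ _)
  mul_smul σ ρ x := Subtype.ext (funext fun q => mul_smul _ _ _)
  smul_mul σ x y := Subtype.ext (funext fun q => smul_mul' _ _ _)
  smul_one σ := Subtype.ext (funext fun q => smul_one _)

variable {k K} in
@[simp] theorem coe_smul_idele (σ : K ≃ₐ[k] K) (x : ideleGroup K) (q : Nat.Primes) :
    ((σ • x : ideleGroup K) : ∀ q : Nat.Primes, (semiLocal (q : ℕ) K)ˣ) q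
      = σ • (x : ∀ q : Nat.Primes, (semiLocal (q : ℕ) K)ˣ) q := rfl

/-- The finite ideles of `K` as a representation of `Gal(K/k)`. -/
def ideleRep : Rep ℤ (K ≃ₐ[k] K) := Rep.ofMulDistribMulAction (K ≃ₐ[k] K) (ideleGroup K)

/-- The component at `q` of an idele, as a group homomorphism. -/
def ideleComponent (q : Nat.Primes) : ideleGroup K →* (semiLocal (q : ℕ) K)ˣ :=
  (Pi.evalMonoidHom (fun q : Nat.Primes => (semiLocal (q : ℕ) K)ˣ) q).comp (ideleGroup K).subtype

/-- The projection of the ideles to the semi-local component at `q`. -/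
def ideleProj (q : Nat.Primes) : ideleRep k K ⟶ semiLocalRep (q : ℕ) k K :=
  Rep.ofHom ⟨(MonoidHom.toAdditive (ideleComponent K q)).toIntLinearMap,
    fun _ => LinearMap.ext fun _ => rfl⟩

/-- The action of `Gal(K/k)` on the semi-local unit group `∏_{w ∣ q} 𝒪_wˣ`. -/
instance semiLocalUnitsSubAction (q : ℕ) [Fact q.Prime] :
    MulDistribMulAction (K ≃ₐ[k] K) (semiLocalUnits q K) where
  smul σ u := ⟨σ • (u : (semiLocal q K)ˣ), smul_mem_semiLocalUnits k K σ u.2⟩
  one_smul u := Subtype.ext (one_smul _ _)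
  mul_smul σ ρ u := Subtype.ext (mul_smul _ _ _)
  smul_mul σ u v := Subtype.ext (smul_mul' _ _ _)
  smul_one σ := Subtype.ext (smul_one _)

/-- `∏_{w ∣ q} 𝒪_wˣ` as a representation of `Gal(K/k)`. -/
def semiLocalUnitsRep (q : ℕ) [Fact q.Prime] : Rep ℤ (K ≃ₐ[k] K) :=
  Rep.ofMulDistribMulAction (K ≃ₐ[k] K) (semiLocalUnits q K)

/-- The inclusion of the semi-local units. -/
def semiLocalUnitsIncl (q : ℕ) [Fact q.Prime] : semiLocalUnitsRep k K q ⟶ semiLocalRep q k K :=
  Rep.ofHom ⟨(MonoidHom.toAdditive (semiLocalUnits q K).subtype).toIntLinearMap,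
    fun _ => LinearMap.ext fun _ => rfl⟩

end Idele

section Diag

variable (k K : Type) [Field k] [Field K] [Algebra k K] [NumberField K]

/-- The diagonal embedding of `Kˣ` into the ideles. -/
def ideleDiagHom : Kˣ →* ideleGroup K where
  toFun x := ⟨fun q => Units.map (semiLocalDiag (q : ℕ) K : K →* semiLocal (q : ℕ) K) x, by
    refine Set.Finite.subset (finite_setOf_exists_norm_ne_one (x : K) x.ne_zero) ?_
    intro q hq
    by_contra h
    refine hq fun τ => ?_
    by_contra h'
    exact h ⟨τ, h'⟩⟩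
  map_one' := Subtype.ext (funext fun q => map_one _)
  map_mul' x y := Subtype.ext (funext fun q => map_mul _ x y)

/-- The diagonal embedding `Kˣ ⟶ J_K` as a morphism of representations of `Gal(K/k)`. -/
def ideleDiag : Rep.ofAlgebraAutOnUnits k K ⟶ ideleRep k K :=
  Rep.ofHom ⟨(MonoidHom.toAdditive (ideleDiagHom K)).toIntLinearMap,
    fun _ => LinearMap.ext fun _ => rfl⟩

theorem ideleDiagHom_injective : Function.Injective (ideleDiagHom K) := by
  rw [injective_iff_map_eq_one]
  intro x hx
  -- evaluate at the prime `2` and any embedding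
  let q : Nat.Primes := ⟨2, Nat.prime_two⟩
  have : Algebra.IsAlgebraic ℚ K := Algebra.IsAlgebraic.of_finite ℚ K
  obtain ⟨τ, -⟩ := exists_extend (q : ℕ) (k := ℚ) (K := K) (algebraMap ℚ (PadicAlgCl (q : ℕ)))
  have h1 := congrArg (fun y : ideleGroup K =>
    ((((y : ∀ q : Nat.Primes, (semiLocal (q : ℕ) K)ˣ) q : (semiLocal (q : ℕ) K)ˣ) :
      semiLocal (q : ℕ) K) : (K →+* PadicAlgCl (q : ℕ)) → PadicAlgCl (q : ℕ)) τ) hx
  have h2 : τ (x : K) = 1 := h1
  exact Units.ext (τ.injective (h2.trans (map_one τ).symm))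

/-- The principal ideles, as a `ℤ`-submodule of the idele representation. -/
def idelePrincipal : Submodule ℤ (ideleRep k K) :=
  LinearMap.range (ideleDiag k K).hom.toLinearMap

theorem idelePrincipal_le_comap (g : K ≃ₐ[k] K) :
    idelePrincipal k K ≤ (idelePrincipal k K).comap ((ideleRep k K).ρ g) := by
  rintro _ ⟨x, rfl⟩
  exact ⟨(Rep.ofAlgebraAutOnUnits k K).ρ g x, Rep.hom_comm_apply (ideleDiag k K) g x⟩

/-- The idele class module `C_K = J_K / Kˣ` as a representation of `Gal(K/k)`. -/
def ideleClassRep : Rep ℤ (K ≃ₐ[k] K) :=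
  (ideleRep k K).quotient (idelePrincipal k K) (idelePrincipal_le_comap k K)

/-- The projection `J_K ⟶ C_K`. -/
def ideleClassProj : ideleRep k K ⟶ ideleClassRep k K :=
  (ideleRep k K).mkQ (idelePrincipal k K) (idelePrincipal_le_comap k K)

theorem ideleDiag_comp_ideleClassProj : ideleDiag k K ≫ ideleClassProj k K = 0 := by
  apply Rep.hom_ext
  apply Representation.IntertwiningMap.ext
  refine LinearMap.ext fun x => ?_
  exact (Submodule.Quotient.mk_eq_zero (idelePrincipal k K)).mpr ⟨x, rfl⟩

/-- The short complex `Kˣ ⟶ J_K ⟶ C_K` of representations of `Gal(K/k)`. -/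
def ideleShortComplex : ShortComplex (Rep ℤ (K ≃ₐ[k] K)) :=
  ShortComplex.mk (ideleDiag k K) (ideleClassProj k K) (ideleDiag_comp_ideleClassProj k K)

/-- `0 ⟶ Kˣ ⟶ J_K ⟶ C_K ⟶ 0` is exact. -/
theorem ideleShortComplex_shortExact : (ideleShortComplex k K).ShortExact where
  exact := (rep_exact_iff _).2 fun x hx =>
    (Submodule.Quotient.mk_eq_zero (idelePrincipal k K)).mp hx
  mono_f := (Rep.mono_iff_injective _).2 fun a b h =>
    congrArg Additive.ofMul (ideleDiagHom_injective K (congrArg Additive.toMul h))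
  epi_g := (Rep.epi_iff_surjective _).2 (Submodule.mkQ_surjective _)

end Diag

end Fermat.Agent.S55.H88
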