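import Mathlib
import Fermat.Agent.S55.H88.IdeleRep
import Fermat.Agent.S55.H8.KummerDefs

/-!
Program C (S55), package C5 (helper88): STATEMENTS of the leaves, in the embedding model of
`SemiLocalDefs.lean`.  Every leaf is a `Prop`-valued definition named `…Statement`; the internal
assembly at the end is compiled from them.

Notation: `C_q = PadicAlgCl q`, `G_q = Gal(C_q/ℚ_q)`, embeddings `τ : K →+* C_q`,
places above `q` = `PlaceAbove q K` = `G_q`-orbits of embeddings, `locField q τ = ℚ_q(τ K)`.
-/

set_option autoImplicit false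

open scoped IntermediateField NNReal
open Module NumberField IsDedekindDomain

noncomputable section

namespace Fermat.Agent.S55.H88

attribute [local instance] factOfPrimes

/-! ### The idele system of finite places of a field `K` (helper8's `KummerDefs` shape) -/

section IdeleSystem

variable (K : Type*) [Field K]

/-- The finite places of `K`: a rational prime and an orbit of embeddings. -/
def FinPlace : Type _ := Σ q : Nat.Primes, PlaceAbove (q : ℕ) K

variable {K}

/-- The chosen embedding of a finite place. -/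
def FinPlace.emb (v : FinPlace K) : K →+* PadicAlgCl (v.1 : ℕ) := v.2.emb

/-- The completion at a finite place. -/
def FinPlace.field (v : FinPlace K) : IntermediateField ℚ_[(v.1 : ℕ)] (PadicAlgCl (v.1 : ℕ)) :=
  locField (v.1 : ℕ) v.emb

variable (K)

/-- `X v = K_vˣ`. -/
abbrev finX (v : FinPlace K) : Type := (v.field)ˣ

/-- `U v = 𝒪_vˣ`. -/
def finU (v : FinPlace K) : Subgroup (finX K v) := locUnits (v.1 : ℕ) v.field

/-- `loc v : Kˣ → K_vˣ`. -/
def finLoc (v : FinPlace K) : Kˣ →* finX K v := Units.map (locEmb (v.1 : ℕ) v.emb).toMonoidHom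

end IdeleSystem

/-! ### A. Places and completions -/

section A

variable (q : ℕ) [Fact q.Prime] (K : Type*) [Field K] [NumberField K]

/-- (A1) The completions are finite over `ℚ_q`. -/
def LocFieldFiniteStatement : Prop :=
  ∀ τ : K →+* PadicAlgCl q, FiniteDimensional ℚ_[q] (locField q τ)

/-- (A2) The values of a semi-local element lie in the completions. -/
def SemiLocalMemStatement : Prop :=
  ∀ (f : semiLocal q K) (τ : K →+* PadicAlgCl q),
    (f : (K →+* PadicAlgCl q) → PadicAlgCl q) τ ∈ locField q τ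

/-- (A3) Product decomposition `K ⊗ ℚ_q = ∏_w K_w`, in the form: every element of a completion
is the value of a semi-local element supported on that place. -/
def SemiLocalSplitStatement : Prop :=
  ∀ (τ : K →+* PadicAlgCl q) (y : PadicAlgCl q), y ∈ locField q τ →
    ∃ f : semiLocal q K, (f : (K →+* PadicAlgCl q) → PadicAlgCl q) τ = y ∧
      ∀ τ' : K →+* PadicAlgCl q, ¬ (placeSetoid q K).r τ τ' →
        (f : (K →+* PadicAlgCl q) → PadicAlgCl q) τ' = 0

/-- (A4) Density of `K` in `K ⊗ ℚ_q` (weak approximation above `q`). -/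
def SemiLocalDenseStatement : Prop :=
  ∀ (f : semiLocal q K) (ε : ℝ), 0 < ε → ∃ x : K, ∀ τ : K →+* PadicAlgCl q,
    ‖(f : (K →+* PadicAlgCl q) → PadicAlgCl q) τ - τ x‖ < ε

/-- (A5 = DEG) The local degrees above `q` add up to the global degree. -/
def SumLocalDegreeStatement : Prop :=
  ∑ᶠ v : PlaceAbove q K, finrank ℚ_[q] (locField q v.emb) = finrank ℚ K

end A

/-! ### B. Dictionary with Mathlib's primes of `𝓞 K` -/

section B

variable (K : Type*) [Field K] [NumberField K]

/-- (B1 = DICT) Finite places are the maximal ideals of `𝓞 K`, compatibly with the valuations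
and with the residue characteristic. -/
def DictStatement : Prop :=
  ∃ e : FinPlace K ≃ HeightOneSpectrum (𝓞 K),
    (∀ (v : FinPlace K) (x : K), ‖v.emb x‖ ≤ 1 ↔ (e v).valuation K x ≤ 1) ∧
    (∀ v : FinPlace K, (((v.1 : ℕ) : ℤ) : 𝓞 K) ∈ (e v).asIdeal)

/-- (B2 = FIN) A nonzero element is a unit at almost all finite places. -/
def FiniteNonunitStatement : Prop :=
  ∀ x : Kˣ, {v : FinPlace K | finLoc K v x ∉ finU K v}.Finite

/-- (B3 = CN) Finiteness of the class group: `J = Kˣ · J_S` for all `S` containing a fixed finite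
set of finite places. -/
def ClassNumberStatement : Prop :=
  ∃ T : Finset (FinPlace K), ∀ S : Finset (FinPlace K), T ⊆ S →
    H8.resProd (finU K) ≤ H8.principal (finLoc K) ⊔ H8.JS (finU K) (S : Set (FinPlace K))

/-- (B4 = SU) The `S`-unit theorem in the embedding model, in helper8's `sUnit` shape (finite
places only; the archimedean places enter through their number). -/
def SUnitIndexStatement (p : ℕ) : Prop :=
  p.Prime → (∃ ζ : K, IsPrimitiveRoot ζ p) → ∀ S : Finset (FinPlace K),
    ((H8.GS (finU K) (finLoc K) (S : Set (FinPlace K))).map (powMonoidHom p)).relIndex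
        (H8.GS (finU K) (finLoc K) (S : Set (FinPlace K)))
      = p ^ (Nat.card (InfinitePlace K) + S.card)

end B

/-! ### C. A Galois layer `K / k` -/

section C

variable (q : ℕ) [Fact q.Prime] (k K : Type*) [Field k] [Field K] [Algebra k K]

/-- Restriction of places from `K` to `k`. -/
def PlaceAbove.restrict : PlaceAbove q K → PlaceAbove q k :=
  Quotient.map' (fun τ => τ.comp (algebraMap k K)) (by
    rintro τ τ' ⟨g, rfl⟩
    exact ⟨g, by rw [RingHom.comp_assoc]⟩)

/-- (C1) The Galois group is transitive on the embeddings above a given embedding of `k`. -/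
def TransitiveStatement : Prop :=
  ∀ τ' τ'' : K →+* PadicAlgCl q,
    τ'.comp (algebraMap k K) = τ''.comp (algebraMap k K) →
      ∃ σ : K ≃ₐ[k] K, τ'' = τ'.comp ((σ : K ≃+* K) : K →+* K)

/-- (C2) Every embedding of `k` extends to `K`. -/
def ExtendStatement : Prop :=
  ∀ τ : k →+* PadicAlgCl q, ∃ τ' : K →+* PadicAlgCl q, τ'.comp (algebraMap k K) = τ

/-- (C3) Local degree: `#D_w · [k_v : ℚ_q] = [K_w : ℚ_q]`. -/
def LocalDegreeStatement : Prop :=
  ∀ τ' : K →+* PadicAlgCl q,
    Nat.card (decompGroup q k τ') * finrank ℚ_[q] (locField q (τ'.comp (algebraMap k K)))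
      = finrank ℚ_[q] (locField q τ')

/-- (C4) Place count: `#D_w · #{w' ∣ v} = #Gal(K/k)`. -/
def PlaceCountStatement : Prop :=
  ∀ τ' : K →+* PadicAlgCl q,
    Nat.card (decompGroup q k τ') *
        Nat.card {w : PlaceAbove q K //
          PlaceAbove.restrict q k K w = placeOf q (τ'.comp (algebraMap k K))}
      = Nat.card (K ≃ₐ[k] K)

/-- (C5 = LOCGAL) The decomposition group is the Galois group of the completion: it acts on
`K_w = locField q τ'` compatibly with its action on `K`, faithfully, and its image is the group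
of automorphisms of `K_w` that fix (the image of) `k`, i.e. `Gal(K_w / k_v)`. -/
def LocalGaloisStatement : Prop :=
  ∀ τ' : K →+* PadicAlgCl q,
    ∃ φ : decompGroup q k τ' →* (locField q τ' ≃ₐ[ℚ_[q]] locField q τ'),
      (∀ (σ : decompGroup q k τ') (x : K),
        φ σ (locEmb q τ' x) = locEmb q τ' ((σ : K ≃ₐ[k] K) x)) ∧
      Function.Injective φ ∧
      (∀ α : locField q τ' ≃ₐ[ℚ_[q]] locField q τ', α ∈ φ.range ↔
        ∀ y : k, α (locEmb q τ' (algebraMap k K y)) = locEmb q τ' (algebraMap k K y))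

/-- (C6) `τ (N_{K/k} b) = ∏_{σ ∈ Gal(K/k)} τ' (σ b)`: a global norm is a product of local norms. -/
def NormProdStatement : Prop :=
  ∀ (τ' : K →+* PadicAlgCl q) (b : K),
    τ' (algebraMap k K (Algebra.norm k b)) = ∏ᶠ σ : K ≃ₐ[k] K, τ' (σ b)

/-- (C7 = INV) The Galois invariants of `K ⊗ ℚ_q` are `k ⊗ ℚ_q`. -/
def InvariantsStatement : Prop :=
  ∀ f : semiLocal q K, (∀ σ : K ≃ₐ[k] K, σ • f = f) → ∃ f₀ : semiLocal q k, semiLocalMap q k K f₀ = f

end C

/-! ### D. Cohomology of the Galois modules of a layer (objects: `IdeleRep.lean`) -/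

section D

variable (q : ℕ) [Fact q.Prime] (k K : Type) [Field k] [Field K] [Algebra k K]

/-- `K / k` is unramified above `q`: the completions of `K` and of `k` have the same value
groups. -/
def IsUnramifiedAt : Prop :=
  ∀ (τ : K →+* PadicAlgCl q) (x : PadicAlgCl q), x ∈ locField q τ →
    ∃ y ∈ locField q (τ.comp (algebraMap k K)), ‖x‖ = ‖y‖

/-- (D1 = SHAPIRO, injectivity) A class of `Hⁿ(Gal(K/k), (K ⊗ ℚ_q)ˣ)` all of whose localisations
vanish is zero. -/
def SemiLocalDetectStatement (n : ℕ) : Prop :=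
  ∀ x : groupCohomology (semiLocalRep q k K) n,
    (∀ τ : K →+* PadicAlgCl q, (locCohMap q k τ n).hom x = 0) → x = 0

/-- (D2 = UNR) At an unramified prime the semi-local units have trivial `H¹` and `H²`. -/
def UnramifiedUnitsStatement : Prop :=
  IsUnramifiedAt q k K → ∀ n : ℕ, n = 1 ∨ n = 2 →
    CategoryTheory.Limits.IsZero (groupCohomology (semiLocalUnitsRep k K q) n)

/-- (D3) Almost all primes are unramified in `K / k`. -/
def AlmostAllUnramifiedStatement : Prop :=
  {q : Nat.Primes | ¬ IsUnramifiedAt (q : ℕ) k K}.Finite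

/-- (D4 = the export for C8) A class of `H²(Gal(K/k), J_K)` all of whose local components vanish
is zero. -/
def IdeleDetectStatement : Prop :=
  ∀ x : groupCohomology (ideleRep k K) 2,
    (∀ (q : Nat.Primes) (τ : K →+* PadicAlgCl (q : ℕ)),
      (locCohMap (q : ℕ) k τ 2).hom
        ((groupCohomology.map (MonoidHom.id (K ≃ₐ[k] K)) (ideleProj k K q) 2).hom x) = 0) →
    x = 0

/-- (D5) `H¹(Gal(K/k), J_K) = 0`. -/
def IdeleH1Statement : Prop :=
  CategoryTheory.Limits.IsZero (groupCohomology (ideleRep k K) 1)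

end D

/-! ### Internal assembly -/

section Assembly

variable (q : ℕ) [Fact q.Prime] (k K : Type*) [Field k] [Field K] [Algebra k K]

/-- (C7) from (C1) and (C2). -/
theorem invariantsStatement_of (h1 : TransitiveStatement q k K) (h2 : ExtendStatement q k K) :
    InvariantsStatement q k K := by
  intro f hf
  choose ext hext using h2
  have key : ∀ τ' τ'' : K →+* PadicAlgCl q,
      τ'.comp (algebraMap k K) = τ''.comp (algebraMap k K) →
      (f : (K →+* PadicAlgCl q) → PadicAlgCl q) τ'' =
        (f : (K →+* PadicAlgCl q) → PadicAlgCl q) τ' := by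
    intro τ' τ'' h
    obtain ⟨σ, rfl⟩ := h1 τ' τ'' h
    have := congrArg (fun F : semiLocal q K =>
      (F : (K →+* PadicAlgCl q) → PadicAlgCl q) τ') (hf σ)
    exact this
  refine ⟨⟨fun τ => (f : (K →+* PadicAlgCl q) → PadicAlgCl q) (ext τ), fun g τ => ?_⟩,
    Subtype.ext (funext fun τ' => ?_)⟩
  · rw [← f.2 g (ext τ)]
    refine key _ _ ?_
    rw [RingHom.comp_assoc, hext τ, hext]
  · show (f : (K →+* PadicAlgCl q) → PadicAlgCl q) (ext (τ'.comp (algebraMap k K))) = _
    exact key _ _ (hext _).symm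

end Assembly

section AssemblyUnits

variable (q : ℕ) [Fact q.Prime] (K : Type*) [Field K]

/-- Unit form of (A3): a nonzero element of a completion is the value of a semi-local unit
that is `1` at the other places. -/
theorem exists_unit_of_split (h : ∀ (τ : K →+* PadicAlgCl q) (y : PadicAlgCl q),
      y ∈ locField q τ →
      ∃ f : semiLocal q K, (f : (K →+* PadicAlgCl q) → PadicAlgCl q) τ = y ∧
        ∀ τ' : K →+* PadicAlgCl q, ¬ (placeSetoid q K).r τ τ' →
          (f : (K →+* PadicAlgCl q) → PadicAlgCl q) τ' = 0)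
    (τ : K →+* PadicAlgCl q) (y : PadicAlgCl q) (hy : y ∈ locField q τ) (hy0 : y ≠ 0) :
    ∃ u : (semiLocal q K)ˣ,
      ((u : semiLocal q K) : (K →+* PadicAlgCl q) → PadicAlgCl q) τ = y ∧
      ∀ τ' : K →+* PadicAlgCl q, ¬ (placeSetoid q K).r τ τ' →
        ((u : semiLocal q K) : (K →+* PadicAlgCl q) → PadicAlgCl q) τ' = 1 := by
  obtain ⟨f, hf1, hf2⟩ := h τ y hy
  obtain ⟨f', hf'1, hf'2⟩ := h τ y⁻¹ ((locField q τ).inv_mem hy)
  obtain ⟨e, he1, he2⟩ := h τ 1 (locField q τ).one_mem
  have hval : ∀ (F : semiLocal q K) (c : PadicAlgCl q),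
      (F : (K →+* PadicAlgCl q) → PadicAlgCl q) τ = c →
      ∀ g : PadicAlgCl q ≃ₐ[ℚ_[q]] PadicAlgCl q,
        (F : (K →+* PadicAlgCl q) → PadicAlgCl q)
          ((g : PadicAlgCl q →+* PadicAlgCl q).comp τ) = g c := by
    intro F c hF g
    rw [F.2 g τ, hF]
  have hmul : (f + (1 - e)) * (f' + (1 - e)) = 1 := by
    refine Subtype.ext (funext fun τ' => ?_)
    show ((f : (K →+* PadicAlgCl q) → PadicAlgCl q) τ' +
        (1 - (e : (K →+* PadicAlgCl q) → PadicAlgCl q) τ')) *
      ((f' : (K →+* PadicAlgCl q) → PadicAlgCl q) τ' +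
        (1 - (e : (K →+* PadicAlgCl q) → PadicAlgCl q) τ')) = 1
    by_cases hτ' : (placeSetoid q K).r τ τ'
    · obtain ⟨g, rfl⟩ := hτ'
      rw [hval f y hf1 g, hval f' y⁻¹ hf'1 g, hval e 1 he1 g, map_one, sub_self, add_zero,
        add_zero, ← map_mul, mul_inv_cancel₀ hy0, map_one]
    · rw [hf2 τ' hτ', hf'2 τ' hτ', he2 τ' hτ']
      ring
  refine ⟨⟨f + (1 - e), f' + (1 - e), hmul, by rw [mul_comm]; exact hmul⟩, ?_, ?_⟩
  · show (f : (K →+* PadicAlgCl q) → PadicAlgCl q) τ +
      (1 - (e : (K →+* PadicAlgCl q) → PadicAlgCl q) τ) = y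
    rw [hf1, he1, sub_self, add_zero]
  · intro τ' hτ'
    show (f : (K →+* PadicAlgCl q) → PadicAlgCl q) τ' +
      (1 - (e : (K →+* PadicAlgCl q) → PadicAlgCl q) τ') = 1
    rw [hf2 τ' hτ', he2 τ' hτ']
    ring

end AssemblyUnits

/-! ### Leaves already proved (landed files `SemiLocalBasic`, `DecompAction`) -/

section Proved

variable (q : ℕ) [Fact q.Prime]

theorem locFieldFiniteStatement_holds (K : Type*) [Field K] [NumberField K] :
    LocFieldFiniteStatement q K := fun τ => finiteDimensional_locField q τ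

theorem semiLocalMemStatement_holds (K : Type*) [Field K] [NumberField K] :
    SemiLocalMemStatement q K := fun f τ => semiLocal_apply_mem_locField q f τ

theorem semiLocalSplitStatement_holds (K : Type*) [Field K] [NumberField K] :
    SemiLocalSplitStatement q K := fun τ y hy => exists_semiLocal_split q τ y hy

variable (k K : Type*) [Field k] [Field K] [Algebra k K]

theorem transitiveStatement_holds [Normal k K] : TransitiveStatement q k K :=
  fun τ' τ'' h => exists_algEquiv_comp_eq q τ' τ'' h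

theorem extendStatement_holds [Algebra.IsAlgebraic k K] : ExtendStatement q k K :=
  fun τ => exists_extend q τ

theorem normProdStatement_holds [FiniteDimensional k K] [IsGalois k K] :
    NormProdStatement q k K := fun τ' b => norm_eq_finprod q τ' b

theorem invariantsStatement_holds [Normal k K] : InvariantsStatement q k K :=
  fun f hf => exists_semiLocalMap_eq q f hf

theorem localGaloisStatement_holds [Normal k K] : LocalGaloisStatement q k K := by
  intro τ'
  refine ⟨decompAut q k τ', fun σ x => decompAut_locEmb q k τ' σ x,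
    decompAut_injective q k τ', fun α => ⟨?_, fun h => ?_⟩⟩
  · rintro ⟨σ, rfl⟩ y
    exact decompAut_apply_algebraMap q k τ' σ y
  · obtain ⟨σ, hσ⟩ := exists_decompAut_eq q k τ' α h
    exact ⟨σ, hσ⟩

end Proved

section ProvedFin

variable (K : Type*) [Field K] [NumberField K]

theorem finiteNonunitStatement_holds : FiniteNonunitStatement K := by
  intro x
  have hB := finite_setOf_exists_norm_ne_one (x : K) x.ne_zero
  haveI : Finite ↥{q : Nat.Primes | ∃ τ : K →+* PadicAlgCl (q : ℕ), ‖τ (x : K)‖ ≠ 1} :=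
    hB.to_subtype
  haveI : ∀ q : Nat.Primes, Finite (PlaceAbove (q : ℕ) K) := fun q => Quotient.finite _
  let F : (Σ q : ↥{q : Nat.Primes | ∃ τ : K →+* PadicAlgCl (q : ℕ), ‖τ (x : K)‖ ≠ 1},
      PlaceAbove ((q : Nat.Primes) : ℕ) K) → FinPlace K := fun a => ⟨a.1, a.2⟩
  refine (Set.finite_range F).subset ?_
  rintro ⟨q, w⟩ hv
  have hq : q ∈ {q : Nat.Primes | ∃ τ : K →+* PadicAlgCl (q : ℕ), ‖τ (x : K)‖ ≠ 1} := by
    by_contra h
    apply hv
    have h1 : ‖(FinPlace.emb ⟨q, w⟩ : K →+* PadicAlgCl (q : ℕ)) (x : K)‖ = 1 := by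
      by_contra h'
      exact h ⟨_, h'⟩
    exact h1
  exact ⟨⟨⟨q, hq⟩, w⟩, rfl⟩

end ProvedFin

end Fermat.Agent.S55.H88
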