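import Mathlib
import Fermat.Agent.S55.H88.SemiLocalSpec
import Fermat.Agent.S55.H66.InvSpec
import Fermat.Agent.S55.H29.C8Core

/-!
Program C (S55), package C5 (helper88): the concrete layer `K / k` of number fields in the
shape consumed by C8 (`H29.Layer`), built on the embedding model and on C3's local invariant
`H66.inv`.

For an embedding `τ' : K →+* PadicAlgCl q` (a place `w` of `K` with its restriction `v` to `k`):

* `locBase q k τ'` = `k_v`, `locExt q k τ'` = `K_w` as an intermediate field of `Ω / k_v`
  (C3's presentation of the local extension), normal when `K / k` is;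
* `locGalToGlobal q k τ'` : `Gal(K_w / k_v) →* Gal(K / k)` (the decomposition group map);
* `globalToLocUnits q k τ'` : `Kˣ → K_wˣ` as a morphism of representations of `Gal(K_w / k_v)`;
* `linvAt q k τ'` : `H²(Gal(K/k), Kˣ) →+ ℚ/ℤ`, the local invariant at `τ'` of a global class.
-/

set_option autoImplicit false
set_option linter.unusedSectionVars false
set_option linter.unusedVariables false

open scoped IntermediateField NNReal
open CategoryTheory

noncomputable section

namespace Fermat.Agent.S55.H88

variable (q : ℕ) [Fact q.Prime]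

section LocalExtension

variable (k : Type) {K : Type} [Field k] [Field K] [Algebra k K] (τ' : K →+* PadicAlgCl q)

/-- The completion `k_v` of the base field at the restriction of `τ'`. -/
abbrev locBase : IntermediateField ℚ_[q] (PadicAlgCl q) :=
  locField q (τ'.comp (algebraMap k K))

theorem locBase_le : locBase q k τ' ≤ locField q τ' :=
  IntermediateField.adjoin.mono _ _ _ (by
    rintro _ ⟨x, rfl⟩
    exact ⟨algebraMap k K x, rfl⟩)

/-- The completion `K_w` as an extension of `k_v` inside `Ω` (C3's presentation). -/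
def locExt : IntermediateField (locBase q k τ') (PadicAlgCl q) :=
  IntermediateField.extendScalars (locBase_le q k τ')

theorem mem_locExt_iff {z : PadicAlgCl q} : z ∈ locExt q k τ' ↔ z ∈ locField q τ' := Iff.rfl

/-- `τ'` as an embedding `K → K_w`. -/
def locExtEmb : K →+* locExt q k τ' :=
  τ'.codRestrict (locExt q k τ').toSubring fun x =>
    IntermediateField.subset_adjoin ℚ_[q] (Set.range τ') ⟨x, rfl⟩

@[simp] theorem coe_locExtEmb (x : K) :
    ((locExtEmb q k τ' x : locExt q k τ') : PadicAlgCl q) = τ' x := rfl

theorem locExtEmb_algebraMap (y : k) :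
    locExtEmb q k τ' (algebraMap k K y) = algebraMap (locBase q k τ') (locExt q k τ')
      ⟨τ' (algebraMap k K y),
        IntermediateField.subset_adjoin ℚ_[q] (Set.range (τ'.comp (algebraMap k K))) ⟨y, rfl⟩⟩ :=
  rfl

variable [Normal k K]

/-- For `α ∈ Gal(K_w / k_v)` there is a (unique) `σ ∈ Gal(K / k)` with `α ∘ τ' = τ' ∘ σ`. -/
theorem exists_global_of_local (α : locExt q k τ' ≃ₐ[locBase q k τ'] locExt q k τ') :
    ∃ σ : K ≃ₐ[k] K, ∀ x : K, ((α (locExtEmb q k τ' x) : locExt q k τ') : PadicAlgCl q)
      = τ' (σ x) := by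
  let τ'' : K →+* PadicAlgCl q :=
    (algebraMap (locExt q k τ') (PadicAlgCl q)).comp
      ((α : locExt q k τ' →+* locExt q k τ').comp (locExtEmb q k τ'))
  have h : τ'.comp (algebraMap k K) = τ''.comp (algebraMap k K) := by
    refine RingHom.ext fun y => ?_
    show τ' (algebraMap k K y)
      = ((α (locExtEmb q k τ' (algebraMap k K y)) : locExt q k τ') : PadicAlgCl q)
    rw [locExtEmb_algebraMap, AlgEquiv.commutes]
    rfl
  obtain ⟨σ, hσ⟩ := exists_algEquiv_comp_eq q τ' τ'' h
  exact ⟨σ, fun x => RingHom.congr_fun hσ x⟩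

/-- The decomposition-group map `Gal(K_w / k_v) →* Gal(K / k)`. -/
def locGalToGlobal : (locExt q k τ' ≃ₐ[locBase q k τ'] locExt q k τ') →* (K ≃ₐ[k] K) where
  toFun α := Classical.choose (exists_global_of_local q k τ' α)
  map_one' := by
    refine AlgEquiv.ext fun x => τ'.injective ?_
    rw [← Classical.choose_spec (exists_global_of_local q k τ' 1) x]
    rfl
  map_mul' α β := by
    refine AlgEquiv.ext fun x => τ'.injective ?_
    rw [← Classical.choose_spec (exists_global_of_local q k τ' (α * β)) x]
    show ((α (β (locExtEmb q k τ' x)) : locExt q k τ') : PadicAlgCl q) = _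
    have h1 : β (locExtEmb q k τ' x)
        = locExtEmb q k τ' (Classical.choose (exists_global_of_local q k τ' β) x) :=
      Subtype.ext (Classical.choose_spec (exists_global_of_local q k τ' β) x)
    rw [h1, Classical.choose_spec (exists_global_of_local q k τ' α)]
    rfl

theorem locGalToGlobal_spec (α : locExt q k τ' ≃ₐ[locBase q k τ'] locExt q k τ') (x : K) :
    α (locExtEmb q k τ' x) = locExtEmb q k τ' (locGalToGlobal q k τ' α x) :=
  Subtype.ext (Classical.choose_spec (exists_global_of_local q k τ' α) x)

/-- `K_w / k_v` is normal when `K / k` is. -/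
instance normal_locExt : Normal (locBase q k τ') (locExt q k τ') := by
  rw [IntermediateField.normal_iff_forall_map_le]
  intro σ
  -- `σ` maps `τ' K` into itself
  have hσ : ∀ x : K, σ (τ' x) ∈ locField q τ' := by
    intro x
    let τ'' : K →+* PadicAlgCl q := (σ : PadicAlgCl q →+* PadicAlgCl q).comp τ'
    have h : τ'.comp (algebraMap k K) = τ''.comp (algebraMap k K) := by
      refine RingHom.ext fun y => ?_
      have := σ.commutes (⟨τ' (algebraMap k K y),
        IntermediateField.subset_adjoin ℚ_[q] (Set.range (τ'.comp (algebraMap k K))) ⟨y, rfl⟩⟩ :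
          locBase q k τ')
      exact this.symm
    obtain ⟨ρ, hρ⟩ := exists_algEquiv_comp_eq q τ' τ'' h
    have h2 : σ (τ' x) = τ' (ρ x) := RingHom.congr_fun hρ x
    rw [h2]
    exact IntermediateField.subset_adjoin ℚ_[q] (Set.range τ') ⟨_, rfl⟩
  rintro _ ⟨z, hz, rfl⟩
  -- `z ∈ ℚ_q(τ' K)`
  have hle : locField q τ' ≤ (locField q τ').comap (σ.restrictScalars ℚ_[q]) := by
    refine IntermediateField.adjoin_le_iff.mpr ?_
    rintro _ ⟨x, rfl⟩
    exact hσ x
  exact hle hz

/-- The map `Kˣ → K_wˣ` induced by `τ'`, as a morphism of representations of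
`Gal(K_w / k_v)`. -/
def globalToLocUnits :
    Rep.res (locGalToGlobal q k τ') (Rep.ofAlgebraAutOnUnits k K) ⟶
      Rep.ofAlgebraAutOnUnits (locBase q k τ') (locExt q k τ') :=
  Rep.ofHom ⟨(MonoidHom.toAdditive
      (Units.map (locExtEmb q k τ' : K →* locExt q k τ'))).toIntLinearMap,
    fun α => LinearMap.ext fun u => congrArg Additive.ofMul (Units.ext
      (locGalToGlobal_spec q k τ' α ((Additive.toMul (α := Kˣ) u : Kˣ) : K)).symm)⟩

/-- The localisation map `H²(Gal(K/k), Kˣ) → H²(Gal(K_w/k_v), K_wˣ)` at `τ'`. -/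
def locH2At :
    groupCohomology (Rep.ofAlgebraAutOnUnits k K) 2 →+
      groupCohomology (Rep.ofAlgebraAutOnUnits (locBase q k τ') (locExt q k τ')) 2 :=
  (groupCohomology.map (locGalToGlobal q k τ') (globalToLocUnits q k τ') 2).hom.toAddMonoidHom

/-- The local invariant at `τ'` of a class in `H²(Gal(K/k), Kˣ)`. -/
def linvAt : groupCohomology (Rep.ofAlgebraAutOnUnits k K) 2 →+ H66.QZ :=
  (H66.inv q (locExt q k τ')).comp (locH2At q k τ')

end LocalExtension

attribute [local instance] factOfPrimes

section Layer

variable (k K : Type) [Field k] [Field K] [Algebra k K] [Normal k K]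

variable {k} in
/-- A chosen embedding of `K` extending the chosen embedding of a finite place of `k`. -/
def FinPlace.ext (v : FinPlace k) : K →+* PadicAlgCl (v.1 : ℕ) :=
  Classical.choose (exists_extend (v.1 : ℕ) (K := K) v.emb)

variable {k} in
theorem FinPlace.ext_comp (v : FinPlace k) : (v.ext K).comp (algebraMap k K) = v.emb :=
  Classical.choose_spec (exists_extend (v.1 : ℕ) (K := K) v.emb)

/-- The layer `K / k` in the shape consumed by C8: `G = Gal(K/k)`, `M = Kˣ`, `V` = the finite
places of `k`, `linv v` = the local invariant at a chosen place of `K` above `v`. -/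
def layerOf : H29.Layer H66.QZ where
  G := K ≃ₐ[k] K
  M := Rep.ofAlgebraAutOnUnits k K
  V := FinPlace k
  linv v := linvAt (v.1 : ℕ) k (v.ext K)

end Layer

section Infl

variable (k K K' : Type) [Field k] [Field K] [Field K'] [Algebra k K] [Algebra k K']
  [Algebra K K'] [IsScalarTower k K K'] [Normal k K] [Normal k K']

/-- The inclusion `Kˣ → K'ˣ` as a morphism of representations of `Gal(K'/k)`. -/
def unitsInflHom :
    Rep.res (AlgEquiv.restrictNormalHom (F := k) (K₁ := K') K) (Rep.ofAlgebraAutOnUnits k K) ⟶
      Rep.ofAlgebraAutOnUnits k K' :=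
  Rep.ofHom ⟨(MonoidHom.toAdditive (Units.map (algebraMap K K' : K →* K'))).toIntLinearMap,
    fun σ => LinearMap.ext fun u => congrArg Additive.ofMul (Units.ext
      (AlgEquiv.restrictNormal_commutes σ K ((Additive.toMul (α := Kˣ) u : Kˣ) : K)))⟩

/-- The inflation datum from the layer `K / k` to the layer `K' / k` (`k ⊆ K ⊆ K'`). -/
def inflOf : H29.Layer.Infl (layerOf k K) (layerOf k K') where
  φ := AlgEquiv.restrictNormalHom (F := k) (K₁ := K') K
  f := unitsInflHom k K K'
  σ := Equiv.refl (FinPlace k)

end Infl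

end Fermat.Agent.S55.H88
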