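import Mathlib
import Fermat.Agent.S55.H88.TowerData

/-!
Program C (S55), package C5 (helper88): the `S`-unit / `S`-idele data of a layer `K / k` in the
shape consumed by C8 (`H29.SData`), for a finite set `S` of rational primes.

* `sUnitGroup S K` : the `S`-units of `K` (units at all places above all primes outside `S`);
* `sUnitRep`, `sIdeleRep`, `sClassRep`, `sIdealRep` : `U = O_{K,S}ˣ`, `J = ∏_{q ∈ S} (K ⊗ ℚ_q)ˣ`,
  `C = J / U`, `I = Kˣ / U` as representations of `Gal(K/k)`, with the four maps;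
* `sJinvAt` : the local invariant at a place above `S` of a class in `H²(Gal(K/k), J)`;
* `sDataOf k K S : H29.SData (layerOf k K)`.
-/

set_option autoImplicit false
set_option linter.unusedSectionVars false
set_option linter.unusedVariables false
set_option linter.style.haveILetI false

open scoped IntermediateField NNReal
open CategoryTheory

noncomputable section

namespace Fermat.Agent.S55.H88

attribute [local instance] factOfPrimes

section Units

variable (S : Finset Nat.Primes) (k K : Type) [Field k] [Field K] [Algebra k K]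

/-- The `S`-units of `K`: units at every place above every prime outside `S`. -/
def sUnitGroup : Subgroup Kˣ where
  carrier := {x | ∀ q : Nat.Primes, q ∉ S → ∀ τ : K →+* PadicAlgCl (q : ℕ), ‖τ (x : K)‖ = 1}
  mul_mem' := fun {x y} hx hy q hq τ => by
    rw [Units.val_mul, map_mul, norm_mul, hx q hq τ, hy q hq τ, mul_one]
  one_mem' := fun q hq τ => by rw [Units.val_one, map_one, norm_one]
  inv_mem' := fun {x} hx q hq τ => by
    rw [Units.val_inv_eq_inv_val, map_inv₀, norm_inv, hx q hq τ, inv_one]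

variable {S K} in
theorem mem_sUnitGroup_iff {x : Kˣ} : x ∈ sUnitGroup S K ↔
    ∀ q : Nat.Primes, q ∉ S → ∀ τ : K →+* PadicAlgCl (q : ℕ), ‖τ (x : K)‖ = 1 := Iff.rfl

/-- The action of `Gal(K/k)` on the `S`-units. -/
instance sUnitGalAction : MulDistribMulAction (K ≃ₐ[k] K) (sUnitGroup S K) where
  smul σ x := ⟨σ • (x : Kˣ), fun q hq τ =>
    x.2 q hq (τ.comp (((σ : K ≃ₐ[k] K) : K ≃+* K) : K →+* K))⟩
  one_smul x := Subtype.ext (one_smul _ _)
  mul_smul σ ρ x := Subtype.ext (mul_smul _ _ _)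
  smul_mul σ x y := Subtype.ext (smul_mul' _ _ _)
  smul_one σ := Subtype.ext (smul_one _)

/-- `U = O_{K,S}ˣ` as a representation of `Gal(K/k)`. -/
def sUnitRep : Rep ℤ (K ≃ₐ[k] K) := Rep.ofMulDistribMulAction (K ≃ₐ[k] K) (sUnitGroup S K)

/-- The inclusion `U ⟶ Kˣ`. -/
def sUnitIncl : sUnitRep S k K ⟶ Rep.ofAlgebraAutOnUnits k K :=
  Rep.ofHom ⟨(MonoidHom.toAdditive (sUnitGroup S K).subtype).toIntLinearMap,
    fun _ => LinearMap.ext fun _ => rfl⟩

/-- The image of the `S`-units in `Kˣ`, as a `ℤ`-submodule. -/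
def sUnitSubmodule : Submodule ℤ (Rep.ofAlgebraAutOnUnits k K) :=
  LinearMap.range (sUnitIncl S k K).hom.toLinearMap

theorem sUnitSubmodule_le_comap (g : K ≃ₐ[k] K) :
    sUnitSubmodule S k K ≤ (sUnitSubmodule S k K).comap ((Rep.ofAlgebraAutOnUnits k K).ρ g) := by
  rintro _ ⟨x, rfl⟩
  exact ⟨(sUnitRep S k K).ρ g x, Rep.hom_comm_apply (sUnitIncl S k K) g x⟩

/-- `I = Kˣ / O_{K,S}ˣ` as a representation of `Gal(K/k)`. -/
def sIdealRep : Rep ℤ (K ≃ₐ[k] K) :=
  (Rep.ofAlgebraAutOnUnits k K).quotient (sUnitSubmodule S k K) (sUnitSubmodule_le_comap S k K)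

/-- The projection `Kˣ ⟶ I`. -/
def sIdealProj : Rep.ofAlgebraAutOnUnits k K ⟶ sIdealRep S k K :=
  (Rep.ofAlgebraAutOnUnits k K).mkQ (sUnitSubmodule S k K) (sUnitSubmodule_le_comap S k K)

/-- The `S`-idele group `J = ∏_{q ∈ S} (K ⊗ ℚ_q)ˣ`. -/
abbrev SIdele : Type := ∀ q : ↥S, (semiLocal ((q : Nat.Primes) : ℕ) K)ˣ

/-- `J` as a representation of `Gal(K/k)`. -/
def sIdeleRep : Rep ℤ (K ≃ₐ[k] K) := Rep.ofMulDistribMulAction (K ≃ₐ[k] K) (SIdele S K)

/-- The diagonal embedding of the `S`-units into the `S`-ideles. -/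
def sDiagHom : sUnitGroup S K →* SIdele S K where
  toFun x := fun q => Units.map (semiLocalDiag ((q : Nat.Primes) : ℕ) K :
    K →* semiLocal ((q : Nat.Primes) : ℕ) K) (x : Kˣ)
  map_one' := funext fun q => map_one _
  map_mul' x y := funext fun q => map_mul _ (x : Kˣ) (y : Kˣ)

/-- The diagonal embedding `U ⟶ J`. -/
def sDiag : sUnitRep S k K ⟶ sIdeleRep S k K :=
  Rep.ofHom ⟨(MonoidHom.toAdditive (sDiagHom S K)).toIntLinearMap,
    fun _ => LinearMap.ext fun _ => rfl⟩

/-- The image of the `S`-units in the `S`-ideles, as a `ℤ`-submodule. -/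
def sPrincipal : Submodule ℤ (sIdeleRep S k K) :=
  LinearMap.range (sDiag S k K).hom.toLinearMap

theorem sPrincipal_le_comap (g : K ≃ₐ[k] K) :
    sPrincipal S k K ≤ (sPrincipal S k K).comap ((sIdeleRep S k K).ρ g) := by
  rintro _ ⟨x, rfl⟩
  exact ⟨(sUnitRep S k K).ρ g x, Rep.hom_comm_apply (sDiag S k K) g x⟩

/-- The `S`-idele class module `C = J / U` as a representation of `Gal(K/k)`. -/
def sClassRep : Rep ℤ (K ≃ₐ[k] K) :=
  (sIdeleRep S k K).quotient (sPrincipal S k K) (sPrincipal_le_comap S k K)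

/-- The projection `J ⟶ C`. -/
def sClassProj : sIdeleRep S k K ⟶ sClassRep S k K :=
  (sIdeleRep S k K).mkQ (sPrincipal S k K) (sPrincipal_le_comap S k K)

end Units

section LocalEval

variable (q : ℕ) [Fact q.Prime] (k : Type) {K : Type} [Field k] [Field K] [Algebra k K]
  (τ' : K →+* PadicAlgCl q)

/-- Evaluation at `τ'` with values in `K_w` (C3's presentation). -/
def semiLocalEvalExt : semiLocal q K →+* locExt q k τ' :=
  (semiLocalEval q K τ').toRingHom.codRestrict (locExt q k τ').toSubring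
    fun f => semiLocal_apply_mem_locField q f τ'

@[simp] theorem coe_semiLocalEvalExt (f : semiLocal q K) :
    ((semiLocalEvalExt q k τ' f : locExt q k τ') : PadicAlgCl q)
      = (f : (K →+* PadicAlgCl q) → PadicAlgCl q) τ' := rfl

theorem semiLocalEvalExt_diag (x : K) :
    semiLocalEvalExt q k τ' (semiLocalDiag q K x) = locExtEmb q k τ' x := rfl

variable [Normal k K]

/-- Evaluation at `τ'` is equivariant for `Gal(K_w / k_v)`. -/
theorem semiLocalEvalExt_smul (α : locExt q k τ' ≃ₐ[locBase q k τ'] locExt q k τ')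
    (f : semiLocal q K) :
    semiLocalEvalExt q k τ' (locGalToGlobal q k τ' α • f) = α (semiLocalEvalExt q k τ' f) := by
  haveI : Normal (locBase q k τ') (PadicAlgCl q) :=
    Normal.tower_top_of_normal ℚ_[q] (locBase q k τ') (PadicAlgCl q)
  -- lift `α` to the algebraic closure
  let g₀ : PadicAlgCl q ≃ₐ[locBase q k τ'] PadicAlgCl q := AlgEquiv.liftNormal α (PadicAlgCl q)
  let g : PadicAlgCl q ≃ₐ[ℚ_[q]] PadicAlgCl q := g₀.restrictScalars ℚ_[q]
  have hg : ∀ z : locExt q k τ', g (z : PadicAlgCl q) = (α z : PadicAlgCl q) := fun z =>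
    AlgEquiv.liftNormal_commutes α (PadicAlgCl q) z
  have hcomp : τ'.comp (((locGalToGlobal q k τ' α : K ≃ₐ[k] K) : K ≃+* K) : K →+* K)
      = (g : PadicAlgCl q →+* PadicAlgCl q).comp τ' := by
    refine RingHom.ext fun x => ?_
    have h1 := hg (locExtEmb q k τ' x)
    rw [locGalToGlobal_spec] at h1
    exact h1.symm
  refine Subtype.ext ?_
  show (f : (K →+* PadicAlgCl q) → PadicAlgCl q)
      (τ'.comp (((locGalToGlobal q k τ' α : K ≃ₐ[k] K) : K ≃+* K) : K →+* K))
    = ((α (semiLocalEvalExt q k τ' f) : locExt q k τ') : PadicAlgCl q)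
  rw [hcomp, f.2 g τ', ← hg]
  rfl

end LocalEval

section SIdeleLocal

variable (S : Finset Nat.Primes) (k : Type) {K : Type} [Field k] [Field K] [Algebra k K]
  [Normal k K] (q : ↥S) (τ' : K →+* PadicAlgCl ((q : Nat.Primes) : ℕ))

/-- The component at `q ∈ S`, evaluated at `τ'`: `J → K_wˣ`. -/
def sIdeleEvalHom : SIdele S K →* (locExt ((q : Nat.Primes) : ℕ) k τ')ˣ :=
  (Units.map (semiLocalEvalExt ((q : Nat.Primes) : ℕ) k τ' :
      semiLocal ((q : Nat.Primes) : ℕ) K →* locExt ((q : Nat.Primes) : ℕ) k τ')).comp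
    (Pi.evalMonoidHom (fun q : ↥S => (semiLocal ((q : Nat.Primes) : ℕ) K)ˣ) q)

/-- The localisation of the `S`-ideles at `τ'`, as a morphism of representations of
`Gal(K_w / k_v)`. -/
def sIdeleToLoc :
    Rep.res (locGalToGlobal ((q : Nat.Primes) : ℕ) k τ') (sIdeleRep S k K) ⟶
      Rep.ofAlgebraAutOnUnits (locBase ((q : Nat.Primes) : ℕ) k τ')
        (locExt ((q : Nat.Primes) : ℕ) k τ') :=
  Rep.ofHom ⟨(MonoidHom.toAdditive (sIdeleEvalHom S k q τ')).toIntLinearMap,
    fun α => LinearMap.ext fun x => congrArg Additive.ofMul (Units.ext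
      (semiLocalEvalExt_smul ((q : Nat.Primes) : ℕ) k τ' α
        (((Additive.toMul (α := SIdele S K) x) q :
          (semiLocal ((q : Nat.Primes) : ℕ) K)ˣ) : semiLocal ((q : Nat.Primes) : ℕ) K)))⟩

/-- The local invariant at `τ'` (above `q ∈ S`) of a class in `H²(Gal(K/k), J)`. -/
def sJinvAt : groupCohomology (sIdeleRep S k K) 2 →+ H66.QZ :=
  (H66.inv ((q : Nat.Primes) : ℕ) (locExt ((q : Nat.Primes) : ℕ) k τ')).comp
    (groupCohomology.map (locGalToGlobal ((q : Nat.Primes) : ℕ) k τ')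
      (sIdeleToLoc S k q τ') 2).hom.toAddMonoidHom

end SIdeleLocal

section SDataOf

variable (k K : Type) [Field k] [NumberField k] [Field K] [Algebra k K] [Normal k K]
  (S : Finset Nat.Primes)

theorem finite_setOf_fst_mem : {v : FinPlace k | v.1 ∈ S}.Finite := by
  haveI : ∀ q : Nat.Primes, Finite (PlaceAbove (q : ℕ) k) := fun q => Quotient.finite _
  let F : (Σ q : ↥S, PlaceAbove ((q : Nat.Primes) : ℕ) k) → FinPlace k := fun a => ⟨a.1, a.2⟩
  refine (Set.finite_range F).subset ?_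
  rintro ⟨q, w⟩ hq
  exact ⟨⟨⟨q, hq⟩, w⟩, rfl⟩

/-- The finite places of `k` above the primes in `S`. -/
def sPlaces : Finset (FinPlace k) := (finite_setOf_fst_mem k S).toFinset

variable {k S} in
theorem mem_sPlaces_iff {v : FinPlace k} : v ∈ sPlaces k S ↔ v.1 ∈ S := by
  rw [sPlaces, Set.Finite.mem_toFinset]
  rfl

open Classical in
/-- The `S`-data of the layer `K / k` in the shape consumed by C8. -/
def sDataOf : H29.SData (layerOf k K) where
  U := sUnitRep S k K
  J := sIdeleRep S k K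
  C := sClassRep S k K
  I := sIdealRep S k K
  u := sUnitIncl S k K
  q := sIdealProj S k K
  j := sDiag S k K
  π := sClassProj S k K
  S := sPlaces k S
  jinv v := if h : v.1 ∈ S then sJinvAt S k ⟨v.1, h⟩ (v.ext K) else 0

end SDataOf

end Fermat.Agent.S55.H88
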