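import Mathlib
import Fermat.Agent.S55.H88.SData

/-!
Program C (S55), package C5 (helper88): STATEMENTS of the leaves about the concrete C8 terms of
`LayerDefs.lean`, `TowerData.lean`, `SData.lean` (`layerOf`, `inflOf`, `subTowerOf`, `towerOf`,
`sDataOf`).  Each leaf is a `Prop`-valued definition; the assembly at the end derives
`H29.SData.Good` from its four component leaves.
-/

set_option autoImplicit false
set_option linter.unusedSectionVars false
set_option linter.unusedVariables false

open scoped IntermediateField NNReal
open CategoryTheory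

noncomputable section

namespace Fermat.Agent.S55.H88

attribute [local instance] factOfPrimes

section Leaves

variable (k K : Type) [Field k] [Field K] [Algebra k K] [Normal k K]

/-- (L1 = LINV-INDEP) The local invariant at `τ'` depends only on the place of `k` below `τ'`. -/
def LinvIndepStatement : Prop :=
  ∀ (q : ℕ) [Fact q.Prime] (τ' τ'' : K →+* PadicAlgCl q),
    (placeSetoid q k).r (τ'.comp (algebraMap k K)) (τ''.comp (algebraMap k K)) →
      linvAt q k τ' = linvAt q k τ''

/-- (L2 = LINV-FIN) A global class has only finitely many nonzero local invariants. -/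
def LinvFiniteStatement : Prop :=
  ∀ α : groupCohomology (Rep.ofAlgebraAutOnUnits k K) 2,
    {v : FinPlace k | (layerOf k K).linv v α ≠ 0}.Finite

/-- (L3) Inflation `K ⊆ K'` preserves the local invariants (`H29.Layer.Infl.Compat`). -/
def InflCompatStatement (K' : Type) [Field K'] [Algebra k K'] [Algebra K K']
    [IsScalarTower k K K'] [Normal k K'] : Prop :=
  (inflOf k K K').Compat

/-- (L4) Restriction to `Gal(K/E)` multiplies the local invariants by the local degrees
(`H29.SubTower.Compat`). -/
def SubTowerCompatStatement (E : Type) [Field E] [Algebra k E] [Algebra E K]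
    [IsScalarTower k E K] : Prop :=
  (subTowerOf k E K).Compat

end Leaves

section LeavesGalois

variable (k E K : Type) [Field k] [Field E] [Field K] [Algebra k E] [Algebra E K] [Algebra k K]
  [IsScalarTower k E K] [Normal k E] [IsGalois k K] [FiniteDimensional k K]

/-- (L5) Inflation from `E / k` preserves the local invariants (`H29.Tower.InfCompat`). -/
def TowerInfCompatStatement : Prop :=
  (towerOf k E K).InfCompat

end LeavesGalois

section LeavesS

variable (k K : Type) [Field k] [NumberField k] [Field K] [Algebra k K] [Normal k K]
  (S : Finset Nat.Primes)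

/-- (L6a) The two sequences `0 → U → Kˣ → I → 0` and `0 → U → J → C → 0` are short exact. -/
def SDataExactStatement : Prop :=
  ∃ (h1 : (sDataOf k K S).u ≫ (sDataOf k K S).q = 0)
    (h2 : (sDataOf k K S).j ≫ (sDataOf k K S).π = 0),
    (ShortComplex.mk (sDataOf k K S).u (sDataOf k K S).q h1).ShortExact ∧
      (ShortComplex.mk (sDataOf k K S).j (sDataOf k K S).π h2).ShortExact

/-- (L6b) The local invariants of the image of a class of `S`-units in the `S`-ideles are its
local invariants as a global class. -/
def SDataJinvStatement : Prop :=
  ∀ v ∈ (sDataOf k K S).S, ∀ β : groupCohomology (sDataOf k K S).U 2,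
    (sDataOf k K S).jinv v (H29.mapH2 (sDataOf k K S).j β)
      = (layerOf k K).linv v (H29.mapH2 (sDataOf k K S).u β)

/-- (L6c = DETECT) A class of `S`-ideles with trivial local invariants is trivial. -/
def SDataDetectStatement : Prop :=
  ∀ x : groupCohomology (sDataOf k K S).J 2,
    (∀ v ∈ (sDataOf k K S).S, (sDataOf k K S).jinv v x = 0) → x = 0

/-- (L6d = IDEAL) A global class with trivial local invariants outside `S` dies in
`H²(Gal(K/k), Kˣ / O_{K,S}ˣ)`. -/
def SDataIdealStatement : Prop :=
  ∀ α : groupCohomology (layerOf k K).M 2,
    (∀ v, v ∉ (sDataOf k K S).S → (layerOf k K).linv v α = 0) →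
      H29.mapH2 (sDataOf k K S).q α = 0

/-- (L7 = UNIT-OUTSIDE) The classes of `S`-units are locally trivial outside `S`. -/
def SDataUnitOutsideStatement : Prop := (sDataOf k K S).UnitOutside

/-- (L8 = SURJ) Every element of `ℚ/ℤ` killed by the local degree at a place `v` above `S` is the
local invariant at `v` of a class of `S`-ideles whose other local invariants vanish. -/
def SDataSurjStatement : Prop :=
  ∀ v ∈ (sDataOf k K S).S, ∀ t : H66.QZ,
    Module.finrank (locBase (v.1 : ℕ) k (v.ext K)) (locExt (v.1 : ℕ) k (v.ext K)) • t = 0 →
    ∃ x : groupCohomology (sDataOf k K S).J 2, (sDataOf k K S).jinv v x = t ∧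
      ∀ v' ∈ (sDataOf k K S).S, v' ≠ v → (sDataOf k K S).jinv v' x = 0

/-- **Assembly**: `H29.SData.Good` from its four component leaves. -/
theorem sData_good_of (hE : SDataExactStatement k K S) (hJ : SDataJinvStatement k K S)
    (hD : SDataDetectStatement k K S) (hI : SDataIdealStatement k K S) :
    (sDataOf k K S).Good := by
  obtain ⟨h1, h2, e1, e2⟩ := hE
  exact ⟨h1, e1, h2, e2, hJ, hD, hI⟩

end LeavesS

end Fermat.Agent.S55.H88
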