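import Fermat.Agent.S55.H29.C8Idele

/-!
Program C (S55), package C5 → C8 (B4), helper88: classes of `H²(Gal(K/k), J_K)` with ONE
nonzero local invariant.

* `ideleComp k K q₀ : ideleRep k K ⟶ ideleRep k K` : the idempotent "component at the prime `q₀`"
  (`1` at the other primes);
* `jinvAt_ideleComp_same`, `jinvAt_ideleComp_ne` (J-COMP) : it keeps the local invariants at the
  places above `q₀` and kills the others;
* `exists_single_jinv` (J-SINGLE) : a global class with invariant `z` at `v₀` and `0` at the other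
  places of `k` above the same prime gives an idele class with invariant `z` at `v₀` and `0` at
  every other place.  (With two places of full local degree above different primes and the
  existence theorem for cyclic layers this is the lower bound `#H²(G, C_K) ≥ [K : k]`.)
-/

set_option autoImplicit false

open CategoryTheory groupCohomology Rep

noncomputable section

namespace Fermat.Agent.S55.H88

open Fermat.Agent.S55.H29 Fermat.Agent.S55.H66

attribute [local instance] factOfPrimes

section Comp

variable (K : Type) [Field K] (q₀ : Nat.Primes)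

/-- The component at `q₀` of an idele, as an idele (`1` at the other primes). -/
def ideleCompHom : ideleGroup K →* ideleGroup K where
  toFun x := ⟨fun q => if q = q₀ then (x : ∀ q : Nat.Primes, (semiLocal (q : ℕ) K)ˣ) q else 1,
    Set.Finite.subset x.2 fun q hq h => hq (by
      show (if q = q₀ then (x : ∀ q : Nat.Primes, (semiLocal (q : ℕ) K)ˣ) q else 1)
        ∈ semiLocalUnits (q : ℕ) K
      by_cases hq0 : q = q₀
      · rw [if_pos hq0]; exact h
      · rw [if_neg hq0]; exact Subgroup.one_mem _)⟩
  map_one' := Subtype.ext (funext fun q => by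
    show (if q = q₀ then (1 : (semiLocal (q : ℕ) K)ˣ) else 1) = 1
    exact ite_self 1)
  map_mul' x y := Subtype.ext (funext fun q => by
    show (if q = q₀ then (x : ∀ q : Nat.Primes, (semiLocal (q : ℕ) K)ˣ) q *
        (y : ∀ q : Nat.Primes, (semiLocal (q : ℕ) K)ˣ) q else 1)
      = (if q = q₀ then (x : ∀ q : Nat.Primes, (semiLocal (q : ℕ) K)ˣ) q else 1) *
        (if q = q₀ then (y : ∀ q : Nat.Primes, (semiLocal (q : ℕ) K)ˣ) q else 1)
    by_cases hq0 : q = q₀
    · rw [if_pos hq0, if_pos hq0, if_pos hq0]
    · rw [if_neg hq0, if_neg hq0, if_neg hq0, one_mul])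

theorem ideleCompHom_apply (x : ideleGroup K) (q : Nat.Primes) :
    ((ideleCompHom K q₀ x : ideleGroup K) : ∀ q : Nat.Primes, (semiLocal (q : ℕ) K)ˣ) q
      = if q = q₀ then (x : ∀ q : Nat.Primes, (semiLocal (q : ℕ) K)ˣ) q else 1 := rfl

theorem ideleComponent_ideleCompHom_same (x : ideleGroup K) :
    ideleComponent K q₀ (ideleCompHom K q₀ x) = ideleComponent K q₀ x :=
  if_pos rfl

theorem ideleComponent_ideleCompHom_ne {q : Nat.Primes} (h : q ≠ q₀) (x : ideleGroup K) :
    ideleComponent K q (ideleCompHom K q₀ x) = 1 :=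
  if_neg h

end Comp

section CompRep

variable (k K : Type) [Field k] [Field K] [Algebra k K] (q₀ : Nat.Primes)

/-- The idempotent "component at `q₀`" of the idele module. -/
def ideleComp : ideleRep k K ⟶ ideleRep k K :=
  Rep.ofHom ⟨(MonoidHom.toAdditive (ideleCompHom K q₀)).toIntLinearMap, fun σ =>
    LinearMap.ext fun x => congrArg Additive.ofMul (Subtype.ext (funext fun q => by
      show (if q = q₀ then σ • ((Additive.toMul (α := ideleGroup K) x : ideleGroup K) :
          ∀ q : Nat.Primes, (semiLocal (q : ℕ) K)ˣ) q else 1)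
        = σ • (if q = q₀ then ((Additive.toMul (α := ideleGroup K) x : ideleGroup K) :
          ∀ q : Nat.Primes, (semiLocal (q : ℕ) K)ˣ) q else 1)
      by_cases hq0 : q = q₀
      · rw [if_pos hq0, if_pos hq0]
      · rw [if_neg hq0, if_neg hq0, smul_one]))⟩

end CompRep

section Jinv

variable (k K : Type) [Field k] [Field K] [Algebra k K] [Normal k K] (q₀ : Nat.Primes)

/-- (J-COMP), same prime: the component idempotent keeps the local invariants above `q₀`. -/
theorem jinvAt_ideleComp_same (τ' : K →+* PadicAlgCl (q₀ : ℕ))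
    (y : groupCohomology (ideleRep k K) 2) :
    jinvAt k q₀ τ' (mapH2 (ideleComp k K q₀) y) = jinvAt k q₀ τ' y := by
  have e1 : groupCohomology.map (A := ideleRep k K) (MonoidHom.id (K ≃ₐ[k] K)) (ideleComp k K q₀) 2 ≫
        groupCohomology.map (locGalToGlobal (q₀ : ℕ) k τ') (ideleToLoc k q₀ τ') 2
      = groupCohomology.map (locGalToGlobal (q₀ : ℕ) k τ') (ideleToLoc k q₀ τ') 2 := by
    rw [← groupCohomology.map_comp]
    refine groupCohomology.map_congr (MonoidHom.id_comp _) (LinearMap.ext fun x => ?_) 2
    exact congrArg (fun u : (semiLocal (q₀ : ℕ) K)ˣ => Additive.ofMul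
        (Units.map (semiLocalEvalExt (q₀ : ℕ) k τ' :
          semiLocal (q₀ : ℕ) K →* locExt (q₀ : ℕ) k τ') u))
      (ideleComponent_ideleCompHom_same K q₀ (Additive.toMul (α := ideleGroup K) x))
  exact congrArg (H66.inv (q₀ : ℕ) (locExt (q₀ : ℕ) k τ')) (congrArg (fun f => f.hom y) e1)

/-- (J-COMP), other primes: the component idempotent kills the local invariants away from
`q₀`. -/
theorem jinvAt_ideleComp_ne {q : Nat.Primes} (h : q ≠ q₀) (τ' : K →+* PadicAlgCl (q : ℕ))
    (y : groupCohomology (ideleRep k K) 2) :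
    jinvAt k q τ' (mapH2 (ideleComp k K q₀) y) = 0 := by
  have e1 : groupCohomology.map (A := ideleRep k K) (MonoidHom.id (K ≃ₐ[k] K)) (ideleComp k K q₀) 2 ≫
        groupCohomology.map (locGalToGlobal (q : ℕ) k τ') (ideleToLoc k q τ') 2
      = 0 := by
    rw [← groupCohomology.map_comp]
    have e2 : groupCohomology.map ((MonoidHom.id (K ≃ₐ[k] K)).comp (locGalToGlobal (q : ℕ) k τ'))
        ((Rep.resFunctor (locGalToGlobal (q : ℕ) k τ')).map (ideleComp k K q₀) ≫
          ideleToLoc k q τ') 2
        = groupCohomology.map (locGalToGlobal (q : ℕ) k τ')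
          (0 : Rep.res (locGalToGlobal (q : ℕ) k τ') (ideleRep k K) ⟶
            Rep.ofAlgebraAutOnUnits (locBase (q : ℕ) k τ') (locExt (q : ℕ) k τ')) 2 := by
      refine groupCohomology.map_congr (MonoidHom.id_comp _) (LinearMap.ext fun x => ?_) 2
      exact congrArg (fun u : (semiLocal (q : ℕ) K)ˣ => Additive.ofMul
          (Units.map (semiLocalEvalExt (q : ℕ) k τ' :
            semiLocal (q : ℕ) K →* locExt (q : ℕ) k τ') u))
        (ideleComponent_ideleCompHom_ne K q₀ h (Additive.toMul (α := ideleGroup K) x))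
    rw [e2]
    exact HomologicalComplex.homologyMap_zero _ _ _
  have e3 := congrArg (fun f => f.hom y) e1
  exact (congrArg (H66.inv (q : ℕ) (locExt (q : ℕ) k τ')) e3).trans (map_zero _)

end Jinv

section Single

variable (k K : Type) [Field k] [Field K] [Algebra k K] [Normal k K] [NumberField K]

/-- **(J-SINGLE)** A global class with invariant `z` at `v₀` and invariant `0` at the other
places of `k` above the same prime gives a class of `H²(Gal(K/k), J_K)` with invariant `z` at
`v₀` and `0` at every other finite place. -/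
theorem exists_single_jinv (v₀ : FinPlace k) (z : QZ)
    (α : groupCohomology (Rep.ofAlgebraAutOnUnits k K) 2)
    (h₀ : (layerOf k K).linv v₀ α = z)
    (h₁ : ∀ v : FinPlace k, v ≠ v₀ → v.1 = v₀.1 → (layerOf k K).linv v α = 0) :
    ∃ y : groupCohomology (ideleRep k K) 2, jinv k K v₀ y = z ∧
      ∀ v : FinPlace k, v ≠ v₀ → jinv k K v y = 0 := by
  refine ⟨mapH2 (ideleComp k K v₀.1) (mapH2 (ideleDiag k K) α), ?_, fun v hv => ?_⟩
  · show jinvAt k v₀.1 (v₀.ext K) _ = z
    rw [jinvAt_ideleComp_same, jinvAt_ideleDiag]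
    exact h₀
  · show jinvAt k v.1 (v.ext K) _ = 0
    by_cases hq : v.1 = v₀.1
    · obtain ⟨q, P⟩ := v
      obtain ⟨q₀, P₀⟩ := v₀
      have hq' : q = q₀ := hq
      subst hq'
      rw [jinvAt_ideleComp_same, jinvAt_ideleDiag]
      exact h₁ ⟨q, P⟩ hv rfl
    · exact jinvAt_ideleComp_ne k K v₀.1 hq (v.ext K) _

end Single

end Fermat.Agent.S55.H88
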