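import Fermat.Agent.S55.H88.IdeleComp
import Fermat.Agent.S55.H52.FullPlace

/-!
Program C (S55), package C8 (B4), helper88: (J-SURJ) for CYCLIC layers of `p`-power degree over
fields containing `μ_p`, from the existence theorem for cyclic layers (B3, `CyclicExStatement p`),
a second place of full local degree above a different prime (`H81`) and the component idempotent
of the ideles (`IdeleComp.lean`).  No Shapiro surjectivity is used.

* `JSurjCycStatement p` : the conclusion of `H29.JSurjStatement` for cyclic layers of `p`-power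
  degree over `k ∋ μ_p` (the only layers at which CLASS-CYC consumes J-SURJ);
* `jSurjCyc_of_cyclicEx : CyclicExStatement p → JSurjCycStatement p`;
* `exists_jclass_sum_eq : CyclicExStatement p → …` : an idele class whose local invariants add up
  to a prescribed element killed by the local degree at one place (the lower bound in CLASS-CYC).
-/

set_option autoImplicit false

open CategoryTheory groupCohomology Rep

noncomputable section

namespace Fermat.Agent.S55.H88

open Fermat.Agent.S55.H29 Fermat.Agent.S55.H66

attribute [local instance] factOfPrimes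

/-- **(J-SURJ) for cyclic layers of `p`-power degree over fields containing `μ_p`** : every
element of `ℚ/ℤ` killed by the local degree at `v` is the local invariant at `v` of an idele
class whose other local invariants vanish. -/
def JSurjCycStatement (p : ℕ) : Prop :=
  p.Prime → p ≠ 2 →
  ∀ (k K : Type) [Field k] [NumberField k] [Field K] [NumberField K] [Algebra k K] [IsGalois k K]
    [IsCyclic (K ≃ₐ[k] K)], (∃ ζ : k, IsPrimitiveRoot ζ p) →
    (∃ n : ℕ, Module.finrank k K = p ^ n) →
    ∀ (v : FinPlace k) (t : QZ), locDegAt k K v • t = 0 →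
    ∃ y : groupCohomology (ideleRep k K) 2, jinv k K v y = t ∧
      ∀ v' : FinPlace k, v' ≠ v → jinv k K v' y = 0

/-- (J-SURJ) for cyclic `p`-power layers from the existence theorem (B3): the global class with
invariants `t` at `v`, `-t` at a place of full local degree above a larger prime, and `0`
elsewhere, cut down to its component at the prime below `v`. -/
theorem jSurjCyc_of_cyclicEx {p : ℕ} (hEx : CyclicExStatement p) : JSurjCycStatement p := by
  intro hp hp2 k K _ _ _ _ _ _ _ hζ hdeg v t ht
  obtain ⟨n, hn⟩ := hdeg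
  have hcard : Nat.card (K ≃ₐ[k] K) = p ^ n := by rw [IsGalois.card_aut_eq_finrank, hn]
  obtain ⟨v₁, hlt, hv₁⟩ := H81.exists_finPlace_decompGroup_eq_top k K hp hcard (v.1 : ℕ)
  have hne1 : v₁.1 ≠ v.1 := fun h => by rw [h] at hlt; exact lt_irrefl _ hlt
  have hne : v₁ ≠ v := fun h => hne1 (congrArg Sigma.fst h)
  -- `#G • t = 0`
  have hG : Nat.card (K ≃ₐ[k] K) • t = 0 := by
    have hdvd : locDegAt k K v ∣ Nat.card (K ≃ₐ[k] K) := by
      rw [H52.locDegAt_eq_card_decompGroup]
      exact Subgroup.card_subgroup_dvd_card _
    obtain ⟨c, hc⟩ := hdvd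
    rw [hc, mul_comm, mul_smul, ht, smul_zero]
  classical
  let s : FinPlace k → QZ := fun v' => if v' = v then t else if v' = v₁ then -t else 0
  have hs_v : s v = t := if_pos rfl
  have hs_v₁ : s v₁ = -t := (if_neg hne).trans (if_pos rfl)
  have hs_other : ∀ v', v' ≠ v → v' ≠ v₁ → s v' = 0 := fun v' h1 h2 =>
    (if_neg h1).trans (if_neg h2)
  have hs_supp : Function.support s ⊆ (({v, v₁} : Finset (FinPlace k)) : Set (FinPlace k)) := by
    intro v' hv'
    by_contra hcon
    rw [Finset.coe_insert, Finset.coe_singleton, Set.mem_insert_iff, Set.mem_singleton_iff,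
      not_or] at hcon
    exact hv' (hs_other v' hcon.1 hcon.2)
  have hs_fin : (Function.support s).Finite := (Finset.finite_toSet _).subset hs_supp
  have hs_adm : ∀ v', locDegAt k K v' • s v' = 0 := by
    intro v'
    by_cases h1 : v' = v
    · rw [h1, hs_v]; exact ht
    · by_cases h2 : v' = v₁
      · rw [h2, hs_v₁, H52.locDegAt_eq_card_decompGroup, hv₁, Subgroup.card_top, smul_neg, hG,
          neg_zero]
      · rw [hs_other v' h1 h2, smul_zero]
  have hs_sum : ∑ᶠ v', s v' = 0 := by
    rw [finsum_eq_sum_of_support_subset s hs_supp, Finset.sum_pair (Ne.symm hne), hs_v, hs_v₁]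
    exact add_neg_cancel t
  obtain ⟨α, hα⟩ := hEx hp hp2 k K hζ ⟨n, hn⟩ s hs_fin hs_adm hs_sum
  refine exists_single_jinv k K v t α ((hα v).trans hs_v) fun v' hv' hq => ?_
  have h2 : v' ≠ v₁ := fun h => hne1 (by rw [← h]; exact hq)
  exact (hα v').trans (hs_other v' hv' h2)

/-- The lower bound of CLASS-CYC in one line: an idele class whose local invariants add up to a
prescribed element `t` killed by the local degree at `v`. -/
theorem exists_jclass_sum_eq {p : ℕ} (hEx : CyclicExStatement p) (hp : p.Prime) (hp2 : p ≠ 2)
    (k K : Type) [Field k] [NumberField k] [Field K] [NumberField K] [Algebra k K] [IsGalois k K]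
    [IsCyclic (K ≃ₐ[k] K)] (hζ : ∃ ζ : k, IsPrimitiveRoot ζ p)
    (hdeg : ∃ n : ℕ, Module.finrank k K = p ^ n) (v : FinPlace k) (t : QZ)
    (ht : locDegAt k K v • t = 0) :
    ∃ y : groupCohomology (ideleRep k K) 2, ∑ᶠ v' : FinPlace k, jinv k K v' y = t := by
  obtain ⟨y, hy, hy'⟩ := jSurjCyc_of_cyclicEx hEx hp hp2 k K hζ hdeg v t ht
  refine ⟨y, ?_⟩
  rw [finsum_eq_single (fun v' : FinPlace k => jinv k K v' y) v hy', hy]

end Fermat.Agent.S55.H88
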