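import Fermat.Agent.S55.H93.ClassCyc
import Fermat.Agent.S55.H88.JSurjCyc

/-!
Program C (S55), package C8 (B4), helper88: (CLASS-CYC) WITHOUT the leaf (J-SURJ).

helper93's assembly `H93.classCyc_of` consumes `H29.JSurjStatement` (all Galois layers, Shapiro
surjectivity) only at the cyclic layer under consideration.  There the conclusion of (J-SURJ)
follows from the existence theorem (B3) — `H88.jSurjCyc_of_cyclicEx` — so (CLASS-CYC) holds
from CYC-H3, CYC-KER, reciprocity (B2), existence (B3), FULL-PLACE and J-FIN alone.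

* `classCyc_of_jSurjCyc` : helper93's proof with the weaker hypothesis `JSurjCycStatement p`;
* `classCyc_of_cyclicEx` : the same with `CyclicExStatement p`.
-/

set_option autoImplicit false

open CategoryTheory groupCohomology Rep

noncomputable section

namespace Fermat.Agent.S55.H88

open Fermat.Agent.S55.H66 Fermat.Agent.S55.H29

attribute [local instance] factOfPrimes

/-- **(CLASS-CYC)** from CYC-H3, CYC-KER, reciprocity (B2), (J-SURJ) for cyclic `p`-power
layers, FULL-PLACE and J-FIN.  (The proof of `H93.classCyc_of`, with the weaker hypothesis.) -/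
theorem classCyc_of_jSurjCyc {p : ℕ} (hCycH3 : CycH3Statement) (hKer : CycKerStatement p)
    (hRec : RecStatement NFLayer p) (hSurj : JSurjCycStatement p) (hFull : FullPlaceStatement)
    (hFin : JFinStatement) : ClassCycStatement p := by
  intro hp hp2 k K _ _ _ _ _ _ _ hζ a ha
  have hX := ideleShortComplex_shortExact k K
  have hcard : Nat.card (K ≃ₐ[k] K) = p ^ a := by
    rw [IsGalois.card_aut_eq_finrank, ha]
  -- (i) `H²(J) → H²(C)` is onto
  have hsurj : Function.Surjective (mapH2 (ideleClassProj k K)) := by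
    intro c
    have hs : Subsingleton (groupCohomology (Rep.ofAlgebraAutOnUnits k K) 3) :=
      ModuleCat.subsingleton_of_isZero (hCycH3 k K)
    have hz : (δ hX 2 3 rfl).hom c = 0 := @Subsingleton.elim _ hs _ _
    obtain ⟨y, hy⟩ := (ShortComplex.moduleCat_exact_iff _).1
      (mapShortComplex₃_exact hX (i := 2) (j := 3) rfl) c hz
    exact ⟨y, hy⟩
  refine ⟨hsurj, ?_⟩
  -- the sum of the local invariants
  let s : groupCohomology (ideleRep k K) 2 →+ QZ :=
    AddMonoidHom.mk' (fun y => ∑ᶠ v : FinPlace k, jinv k K v y) (fun y y' => by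
      simp only [map_add]
      exact finsum_add_distrib (hFin k K y) (hFin k K y'))
  have hs : ∀ y, s y = ∑ᶠ v : FinPlace k, jinv k K v y := fun _ => rfl
  have hex : ∀ y : groupCohomology (ideleRep k K) 2, mapH2 (ideleClassProj k K) y = 0 →
      ∃ α : groupCohomology (Rep.ofAlgebraAutOnUnits k K) 2, mapH2 (ideleDiag k K) α = y :=
    fun y hy => exists_mapH2_eq hX y hy
  -- (ii) `ker (H²(J) → H²(C)) = ker s`
  have hker : (mapH2 (ideleClassProj k K)).ker = s.ker := by
    ext y
    rw [AddMonoidHom.mem_ker, AddMonoidHom.mem_ker]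
    constructor
    · intro hy
      obtain ⟨α, hα⟩ := hex y hy
      rw [← hα, hs]
      simp_rw [jinv_ideleDiag]
      exact hRec (layerOf k K)
        ⟨k, K, inferInstance, inferInstance, inferInstance, inferInstance, inferInstance,
          inferInstance, rfl⟩ α
        ⟨a, by
          rw [← hcard]
          exact Fermat.Agent.S55.H80.card_smul_eq_zero (Rep.ofAlgebraAutOnUnits k K) 2
            (Or.inr rfl) α⟩
    · intro hy
      obtain ⟨α, rfl⟩ := hKer hp hp2 k K hζ ⟨a, ha⟩ y hy
      exact congrArg (fun g => g.hom α) (mapShortComplex₂ (ideleShortComplex k K) 2).zero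
  rw [H93.natCard_eq_card_range _ s hsurj hker]
  refine H93.natCard_eq_of_torsion s.range (p ^ a) (pow_pos hp.pos a) ?_ ?_
  · rintro _ ⟨y, rfl⟩
    rw [← map_nsmul, ← hcard,
      Fermat.Agent.S55.H80.card_smul_eq_zero (ideleRep k K) 2 (Or.inr rfl) y, map_zero]
  · obtain ⟨v₀, hv₀⟩ := hFull k K p hp ⟨a, ha⟩
    have hpa : ((p ^ a : ℕ) : ℚ) ≠ 0 := Nat.cast_ne_zero.mpr (pow_pos hp.pos a).ne'
    obtain ⟨y, hy, hy'⟩ := hSurj hp hp2 k K hζ ⟨a, ha⟩ v₀
      (((1 : ℚ) / ((p ^ a : ℕ) : ℚ) : ℚ) : QZ) (by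
      rw [hv₀, ha]
      show (((p ^ a) • ((1 : ℚ) / ((p ^ a : ℕ) : ℚ)) : ℚ) : QZ) = 0
      rw [AddCircle.coe_eq_zero_iff]
      refine ⟨1, ?_⟩
      rw [one_smul, nsmul_eq_mul]
      field_simp)
    refine ⟨y, ?_⟩
    rw [hs, finsum_eq_single _ v₀ (fun v hv => hy' v hv), hy]

/-- **(CLASS-CYC) without (J-SURJ)** : from CYC-H3, CYC-KER, reciprocity (B2), existence (B3),
FULL-PLACE and J-FIN. -/
theorem classCyc_of_cyclicEx {p : ℕ} (hCycH3 : CycH3Statement) (hKer : CycKerStatement p)
    (hRec : RecStatement NFLayer p) (hEx : CyclicExStatement p) (hFull : FullPlaceStatement)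
    (hFin : JFinStatement) : ClassCycStatement p :=
  classCyc_of_jSurjCyc hCycH3 hKer hRec (jSurjCyc_of_cyclicEx hEx) hFull hFin

end Fermat.Agent.S55.H88
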