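import Fermat.Agent.S55.H66.C3Main
import Fermat.Agent.S55.H76.InvResFinal
import Fermat.Agent.S55.H20.ConjH2
import Fermat.Agent.S55.H15.InflRes

/-!
Program C (S55), package C5 (helper88): THE LOCAL INVARIANT IS INVARIANT UNDER TRANSPORT BY
`g ∈ Gal(Ω / ℚ_q)` (`inv_conj`), and in particular under a change of presentation (`g = 1`).

For `F₁ F₂ : IntermediateField ℚ_[q] Ω` (finite), `L_i : IntermediateField F_i Ω` finite Galois,
and `g : Ω ≃ₐ[ℚ_[q]] Ω` with `g F₁ = F₂`, `g L₁ = L₂`: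

  `inv_{L₂/F₂} ∘ T_g = inv_{L₁/F₁}`,

where `T_g = groupCohomology.map φ u 2` for ANY pair `(φ, u)` which is a `g`-pair
(`IsConjPair`: `g (φ s x) = s (g x)` and `u = g` on units).

The proof is formal from the C3 exports: `LeafInvInfl`, `LeafInvRes`, `LeafInv` and the fact that
inner automorphisms act trivially on `H²` (`H20.map_conj_H2`).  With `M ⊇ L₁` finite Galois over
`ℚ_q` (so `g M = M`) and `M_i = M / F_i`:
* `T` commutes with inflation `H²(L_i/F_i) → H²(M_i/F_i)`;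
* `res_i : H²(M/ℚ_q) → H²(M_i/F_i)` is surjective, `inv ∘ res_i = [F_i : ℚ_q] • inv`;
* `T ∘ res₁ = res₂ ∘ (conjugation by g|M) = res₂`.
-/

set_option autoImplicit false

open CategoryTheory groupCohomology Rep IntermediateField
open Fermat.Agent.S55.H66

noncomputable section

namespace Fermat.Agent.S55.H88

variable {q : ℕ} [Fact q.Prime]

section ConjPair

variable {F F' F'' : Type} [Field F] [Field F'] [Field F'']
  [Algebra F (PadicAlgCl q)] [Algebra F' (PadicAlgCl q)] [Algebra F'' (PadicAlgCl q)]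

/-- The underlying element of `Ω` of an element of the Galois module `Nˣ`. -/
def uval (N : IntermediateField F (PadicAlgCl q)) (x : Rep.ofAlgebraAutOnUnits F N) :
    PadicAlgCl q :=
  (((Additive.toMul (Rep.toAdditive x) : Nˣ) : N) : PadicAlgCl q)

theorem uval_injective (N : IntermediateField F (PadicAlgCl q)) :
    Function.Injective (uval (q := q) N) := by
  intro x y hxy
  apply Rep.toAdditive.injective
  apply Additive.toMul.injective
  apply Units.ext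
  exact Subtype.ext hxy

/-- `(φ, u)` is a `g`-pair from `(F, N)` to `(F', M)`: `φ : Gal(M/F') →* Gal(N/F)` and
`u : Nˣ → Mˣ` are both induced by `g : Ω → Ω` (`g (φ s x) = s (g x)`, `u x = g x`). -/
structure IsConjPair (g : PadicAlgCl q → PadicAlgCl q) (N : IntermediateField F (PadicAlgCl q))
    (M : IntermediateField F' (PadicAlgCl q)) (φ : (M ≃ₐ[F'] M) →* (N ≃ₐ[F] N))
    (u : Rep.res φ (Rep.ofAlgebraAutOnUnits F N) ⟶ Rep.ofAlgebraAutOnUnits F' M) : Prop where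
  /-- `φ s` is `s` transported by `g`. -/
  hφ : ∀ (s : M ≃ₐ[F'] M) (x : N) (y : M), (y : PadicAlgCl q) = g x →
    ((s y : M) : PadicAlgCl q) = g ((φ s x : N) : PadicAlgCl q)
  /-- `u` is `g` on units. -/
  hu : ∀ x : Rep.ofAlgebraAutOnUnits F N, uval M (u.hom x) = g (uval N x)

/-- Two `g`-pairs induce the same map on `H²`. -/
theorem IsConjPair.map_eq {g : PadicAlgCl q → PadicAlgCl q} (hg : Function.Injective g)
    {N : IntermediateField F (PadicAlgCl q)} {M : IntermediateField F' (PadicAlgCl q)}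
    (hmem : ∀ z ∈ N, g z ∈ M)
    {φ φ' : (M ≃ₐ[F'] M) →* (N ≃ₐ[F] N)}
    {u : Rep.res φ (Rep.ofAlgebraAutOnUnits F N) ⟶ Rep.ofAlgebraAutOnUnits F' M}
    {u' : Rep.res φ' (Rep.ofAlgebraAutOnUnits F N) ⟶ Rep.ofAlgebraAutOnUnits F' M}
    (h : IsConjPair g N M φ u) (h' : IsConjPair g N M φ' u') :
    groupCohomology.map φ u 2 = groupCohomology.map φ' u' 2 := by
  refine groupCohomology.map_congr ?_ ?_ 2
  · refine MonoidHom.ext fun s => AlgEquiv.ext fun x => Subtype.ext (hg ?_)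
    rw [← h.hφ s x ⟨g x, hmem x x.2⟩ rfl, ← h'.hφ s x ⟨g x, hmem x x.2⟩ rfl]
  · refine LinearMap.ext fun x => uval_injective M ?_
    exact (h.hu x).trans (h'.hu x).symm

/-- Composition of a `g₁`-pair and a `g₂`-pair is a `g₂ ∘ g₁`-pair. -/
theorem IsConjPair.comp {g₁ g₂ g₃ : PadicAlgCl q → PadicAlgCl q} (hg : ∀ z, g₃ z = g₂ (g₁ z))
    {N : IntermediateField F (PadicAlgCl q)} {M : IntermediateField F' (PadicAlgCl q)}
    {P : IntermediateField F'' (PadicAlgCl q)} (hmem : ∀ z ∈ N, g₁ z ∈ M)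
    {φ₁ : (M ≃ₐ[F'] M) →* (N ≃ₐ[F] N)}
    {u₁ : Rep.res φ₁ (Rep.ofAlgebraAutOnUnits F N) ⟶ Rep.ofAlgebraAutOnUnits F' M}
    {φ₂ : (P ≃ₐ[F''] P) →* (M ≃ₐ[F'] M)}
    {u₂ : Rep.res φ₂ (Rep.ofAlgebraAutOnUnits F' M) ⟶ Rep.ofAlgebraAutOnUnits F'' P}
    (h₁ : IsConjPair g₁ N M φ₁ u₁) (h₂ : IsConjPair g₂ M P φ₂ u₂) :
    IsConjPair g₃ N P (φ₁.comp φ₂) ((resFunctor φ₂).map u₁ ≫ u₂) where
  hφ s x y hy := by
    have e1 := h₂.hφ s ⟨g₁ x, hmem x x.2⟩ y (by rw [hy, hg])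
    have e2 := h₁.hφ (φ₂ s) x ⟨g₁ x, hmem x x.2⟩ rfl
    rw [e1, e2, hg]
    rfl
  hu x := by
    show uval P (u₂.hom (u₁.hom x)) = _
    rw [h₂.hu, h₁.hu, hg]

/-- Two factorisations of a `g`-pair through `g_i`-pairs give a commutative square on `H²`. -/
theorem IsConjPair.square {F₃ : Type} [Field F₃] [Algebra F₃ (PadicAlgCl q)]
    {g₁ g₂ g₁' g₂' g₃ : PadicAlgCl q → PadicAlgCl q}
    (hg : ∀ z, g₃ z = g₂ (g₁ z)) (hg' : ∀ z, g₃ z = g₂' (g₁' z)) (hinj : Function.Injective g₃)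
    {N : IntermediateField F (PadicAlgCl q)} {M : IntermediateField F' (PadicAlgCl q)}
    {M' : IntermediateField F'' (PadicAlgCl q)} {P : IntermediateField F₃ (PadicAlgCl q)}
    (hmem : ∀ z ∈ N, g₁ z ∈ M) (hmem' : ∀ z ∈ N, g₁' z ∈ M') (hmem₃ : ∀ z ∈ N, g₃ z ∈ P)
    {φ₁ : (M ≃ₐ[F'] M) →* (N ≃ₐ[F] N)}
    {u₁ : Rep.res φ₁ (Rep.ofAlgebraAutOnUnits F N) ⟶ Rep.ofAlgebraAutOnUnits F' M}
    {φ₂ : (P ≃ₐ[F₃] P) →* (M ≃ₐ[F'] M)}
    {u₂ : Rep.res φ₂ (Rep.ofAlgebraAutOnUnits F' M) ⟶ Rep.ofAlgebraAutOnUnits F₃ P}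
    {φ₁' : (M' ≃ₐ[F''] M') →* (N ≃ₐ[F] N)}
    {u₁' : Rep.res φ₁' (Rep.ofAlgebraAutOnUnits F N) ⟶ Rep.ofAlgebraAutOnUnits F'' M'}
    {φ₂' : (P ≃ₐ[F₃] P) →* (M' ≃ₐ[F''] M')}
    {u₂' : Rep.res φ₂' (Rep.ofAlgebraAutOnUnits F'' M') ⟶ Rep.ofAlgebraAutOnUnits F₃ P}
    (h₁ : IsConjPair g₁ N M φ₁ u₁) (h₂ : IsConjPair g₂ M P φ₂ u₂)
    (h₁' : IsConjPair g₁' N M' φ₁' u₁') (h₂' : IsConjPair g₂' M' P φ₂' u₂') :
    groupCohomology.map φ₁ u₁ 2 ≫ groupCohomology.map φ₂ u₂ 2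
      = groupCohomology.map φ₁' u₁' 2 ≫ groupCohomology.map φ₂' u₂' 2 := by
  rw [← groupCohomology.map_comp, ← groupCohomology.map_comp]
  exact IsConjPair.map_eq (g := g₃) hinj hmem₃ (IsConjPair.comp hg hmem h₁ h₂)
    (IsConjPair.comp hg' hmem' h₁' h₂')

end ConjPair

section Known

variable {F : Type} [Field F] [Algebra F (PadicAlgCl q)]
variable {L E : IntermediateField F (PadicAlgCl q)}

/-- Inflation is an `id`-pair. -/
theorem isConjPair_infl [Normal F L] (h : L ≤ E) :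
    IsConjPair id L E (resHom h) (inflRep h) where
  hφ s x y hy := by
    show ((s y : E) : PadicAlgCl q) = ((resHom h s x : L) : PadicAlgCl q)
    rw [resHom_apply]
    have : y = inclusion h x := Subtype.ext hy
    rw [this]
  hu x := rfl

/-- Restriction is an `id`-pair. -/
theorem isConjPair_res (h : L ≤ E) :
    IsConjPair id E (extendScalars h) (upHom h) (upRep h) where
  hφ s x y hy := by
    show ((s y : extendScalars h) : PadicAlgCl q) = ((upHom h s x : E) : PadicAlgCl q)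
    rw [upHom_apply_coe]
    have : (upEquiv h).symm x = y := Subtype.ext ((upEquiv_symm_apply_coe h x).trans hy.symm)
    rw [this]
  hu x := upEquiv_symm_apply_coe h _

/-- Conjugation by `γ ∈ Gal(M/F)` is a `g`-pair when `g` restricts to `γ` on `M`. -/
theorem isConjPair_conj (M : IntermediateField F (PadicAlgCl q)) (γ : M ≃ₐ[F] M)
    (g : PadicAlgCl q → PadicAlgCl q) (hg : ∀ x : M, g x = γ x) :
    IsConjPair g M M (H20.conjHom γ⁻¹)
      (H20.conjRepHom (Rep.ofAlgebraAutOnUnits F M) γ⁻¹) where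
  hφ s x y hy := by
    have hy' : y = γ x := Subtype.ext (hy.trans (hg x))
    rw [hg, hy']
    show ((s (γ x) : M) : PadicAlgCl q) = ((γ ((γ⁻¹ * s * γ⁻¹⁻¹) x) : M) : PadicAlgCl q)
    rw [inv_inv]
    show _ = (((γ * (γ⁻¹ * s * γ)) x : M) : PadicAlgCl q)
    rw [← mul_assoc, ← mul_assoc, mul_inv_cancel, one_mul]
    rfl
  hu x := by
    rw [H20.conjRepHom_hom_apply, inv_inv]
    exact (hg _).symm

end Known

section Construct

variable {F F' : Type} [Field F] [Field F'] [Algebra F (PadicAlgCl q)]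
  [Algebra F' (PadicAlgCl q)]
variable (g : PadicAlgCl q ≃+* PadicAlgCl q) (N : IntermediateField F (PadicAlgCl q))
  (M : IntermediateField F' (PadicAlgCl q))
variable (hF : ∀ r : F, ∃ t : F', algebraMap F' (PadicAlgCl q) t = g (algebraMap F (PadicAlgCl q) r))
variable (hNM : ∀ z : PadicAlgCl q, z ∈ N ↔ g z ∈ M)

/-- The ring isomorphism `N ≃ M` induced by `g`. -/
def conjRingEquiv : N ≃+* M where
  toFun z := ⟨g z, (hNM z).1 z.2⟩
  invFun w := ⟨g.symm w, (hNM _).2 (by rw [RingEquiv.apply_symm_apply]; exact w.2)⟩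
  left_inv z := Subtype.ext (g.symm_apply_apply z)
  right_inv w := Subtype.ext (g.apply_symm_apply w)
  map_mul' x y := Subtype.ext (map_mul g (x : PadicAlgCl q) y)
  map_add' x y := Subtype.ext (map_add g (x : PadicAlgCl q) y)

@[simp] theorem coe_conjRingEquiv (z : N) :
    ((conjRingEquiv g N M hNM z : M) : PadicAlgCl q) = g z := rfl

include hF in
theorem conjRingEquiv_algebraMap (s : M ≃ₐ[F'] M) (r : F) :
    (conjRingEquiv g N M hNM).symm (s (conjRingEquiv g N M hNM (algebraMap F N r)))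
      = algebraMap F N r := by
  obtain ⟨t, ht⟩ := hF r
  have e : conjRingEquiv g N M hNM (algebraMap F N r) = algebraMap F' M t :=
    Subtype.ext ht.symm
  rw [e, s.commutes, ← e, RingEquiv.symm_apply_apply]

/-- `Gal(M/F') →* Gal(N/F)`, `s ↦ g⁻¹ s g`. -/
def conjGalHom : (M ≃ₐ[F'] M) →* (N ≃ₐ[F] N) where
  toFun s := AlgEquiv.ofRingEquiv
    (f := ((conjRingEquiv g N M hNM).trans (s : M ≃+* M)).trans (conjRingEquiv g N M hNM).symm)
    (fun r => conjRingEquiv_algebraMap g N M hF hNM s r)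
  map_one' := by
    refine AlgEquiv.ext fun x => ?_
    show (conjRingEquiv g N M hNM).symm (conjRingEquiv g N M hNM x) = x
    rw [RingEquiv.symm_apply_apply]
  map_mul' s t := by
    refine AlgEquiv.ext fun x => ?_
    show (conjRingEquiv g N M hNM).symm (s (t (conjRingEquiv g N M hNM x)))
      = (conjRingEquiv g N M hNM).symm (s (conjRingEquiv g N M hNM
          ((conjRingEquiv g N M hNM).symm (t (conjRingEquiv g N M hNM x)))))
    rw [RingEquiv.apply_symm_apply]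

theorem conjGalHom_apply (s : M ≃ₐ[F'] M) (x : N) :
    conjRingEquiv g N M hNM (conjGalHom g N M hF hNM s x) = s (conjRingEquiv g N M hNM x) :=
  RingEquiv.apply_symm_apply _ _

/-- The coefficient map `Nˣ → Mˣ` induced by `g`. -/
def conjUnitsHom :
    Rep.res (conjGalHom g N M hF hNM) (Rep.ofAlgebraAutOnUnits F N) ⟶
      Rep.ofAlgebraAutOnUnits F' M :=
  Rep.ofHom ⟨(MonoidHom.toAdditive
      (Units.map ((conjRingEquiv g N M hNM : N →+* M) : N →* M))).toIntLinearMap,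
    fun s => LinearMap.ext fun u => congrArg Additive.ofMul (Units.ext
      (conjGalHom_apply g N M hF hNM s ((Additive.toMul (α := Nˣ) u : Nˣ) : N)))⟩

theorem isConjPair_conjGal :
    IsConjPair g N M (conjGalHom g N M hF hNM) (conjUnitsHom g N M hF hNM) where
  hφ s x y hy := by
    have : y = conjRingEquiv g N M hNM x := Subtype.ext hy
    rw [this, ← conjGalHom_apply g N M hF hNM]
    rfl
  hu x := rfl

end Construct

section Main

variable (q)

/-- `ℚ/ℤ` is divisible. -/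
theorem exists_nsmul_eq_QZ (n : ℕ) (hn : n ≠ 0) (z : QZ) : ∃ z' : QZ, n • z' = z := by
  obtain ⟨r, rfl⟩ := QuotientAddGroup.mk_surjective z
  refine ⟨((r / n : ℚ) : QZ), ?_⟩
  rw [← AddCircle.coe_nsmul]
  congr 1
  rw [nsmul_eq_mul]
  field_simp

/-- An automorphism of `Ω / ℚ_q` preserves a normal intermediate field. -/
theorem mem_of_normal (M : IntermediateField ℚ_[q] (PadicAlgCl q)) [Normal ℚ_[q] M]
    (g : PadicAlgCl q ≃ₐ[ℚ_[q]] PadicAlgCl q) {z : PadicAlgCl q} (hz : z ∈ M) : g z ∈ M := by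
  have h1 : ((g : PadicAlgCl q →ₐ[ℚ_[q]] PadicAlgCl q).comp M.val) ⟨z, hz⟩
      ∈ ((g : PadicAlgCl q →ₐ[ℚ_[q]] PadicAlgCl q).comp M.val).fieldRange := ⟨⟨z, hz⟩, rfl⟩
  rw [AlgHom.fieldRange_of_normal] at h1
  exact h1

/-- Transport by `g` after restriction from `M / ℚ_q` (`M` normal) is restriction. -/
theorem conj_res_eq (M F₁ F₂ : IntermediateField ℚ_[q] (PadicAlgCl q)) [Normal ℚ_[q] M]
    (g : PadicAlgCl q ≃ₐ[ℚ_[q]] PadicAlgCl q) (h₁ : F₁ ≤ M) (h₂ : F₂ ≤ M)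
    (φM : (extendScalars h₂ ≃ₐ[F₂] extendScalars h₂) →* (extendScalars h₁ ≃ₐ[F₁] extendScalars h₁))
    (uM : Rep.res φM (Rep.ofAlgebraAutOnUnits F₁ (extendScalars h₁)) ⟶
      Rep.ofAlgebraAutOnUnits F₂ (extendScalars h₂))
    (hTM : IsConjPair g (extendScalars h₁) (extendScalars h₂) φM uM) :
    resH2 h₁ ≫ groupCohomology.map φM uM 2 = resH2 h₂ := by
  have hgM : ∀ z : PadicAlgCl q, z ∈ M → g z ∈ M := fun z hz => mem_of_normal q M g hz
  have hγ : ∀ x : M, g x = (g.restrictNormal M) x := fun x =>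
    (AlgEquiv.restrictNormal_commutes g M x).symm
  have he1 : groupCohomology.map (upHom h₁) (upRep h₁) 2 ≫ groupCohomology.map φM uM 2
      = groupCohomology.map (H20.conjHom (g.restrictNormal M)⁻¹)
          (H20.conjRepHom (Rep.ofAlgebraAutOnUnits ℚ_[q] M) (g.restrictNormal M)⁻¹) 2
        ≫ groupCohomology.map (upHom h₂) (upRep h₂) 2 :=
    IsConjPair.square (N := M) (M := extendScalars h₁) (M' := M) (P := extendScalars h₂)
      (g₁ := id) (g₂ := g) (g₁' := g) (g₂' := id) (g₃ := g) (fun z => rfl)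
      (fun z => rfl) g.injective (fun z hz => hz) (fun z hz => hgM z hz)
      (fun z hz => hgM z hz) (isConjPair_res h₁) hTM
      (isConjPair_conj M (g.restrictNormal M) g hγ) (isConjPair_res h₂)
  rw [H20.map_conj_H2, Category.id_comp] at he1
  exact he1

/-- Restriction from a Galois extension `M / ℚ_q` to `M / F₁` is surjective on `H²`. -/
theorem exists_resH2_eq (M F₁ : IntermediateField ℚ_[q] (PadicAlgCl q))
    [FiniteDimensional ℚ_[q] M] [IsGalois ℚ_[q] M] [FiniteDimensional ℚ_[q] F₁] (h₁ : F₁ ≤ M)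
    (y : groupCohomology (Rep.ofAlgebraAutOnUnits F₁ (extendScalars h₁)) 2) :
    ∃ w, (resH2 h₁).hom w = y := by
  obtain ⟨-, hinjM₁, himM₁⟩ := c3_inv q F₁ (extendScalars h₁)
  obtain ⟨-, -, himM⟩ := c3_inv q ℚ_[q] M
  have hz : Module.finrank F₁ (extendScalars h₁) • inv q (extendScalars h₁) y = 0 :=
    (himM₁ _).1 ⟨_, rfl⟩
  obtain ⟨z', hz'⟩ := exists_nsmul_eq_QZ (Module.finrank ℚ_[q] F₁) Module.finrank_pos.ne'
    (inv q (extendScalars h₁) y)
  have h0 : Module.finrank ℚ_[q] M • z' = 0 := by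
    rw [← H76.finrank_extendScalars_mul h₁, mul_comm, mul_smul, hz', hz]
  obtain ⟨w, hw⟩ := (himM z').2 h0
  refine ⟨w, hinjM₁ ?_⟩
  rw [H76.leafInvRes_holds q ℚ_[q] F₁ M h₁ w, hw, hz']

/-- The invariance at the level of a big Galois extension `M / ℚ_q`. -/
theorem inv_conj_top (M F₁ F₂ : IntermediateField ℚ_[q] (PadicAlgCl q))
    [FiniteDimensional ℚ_[q] M] [IsGalois ℚ_[q] M]
    [FiniteDimensional ℚ_[q] F₁] [FiniteDimensional ℚ_[q] F₂]
    (g : PadicAlgCl q ≃ₐ[ℚ_[q]] PadicAlgCl q) (hF : ∀ x : PadicAlgCl q, x ∈ F₁ ↔ g x ∈ F₂)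
    (h₁ : F₁ ≤ M) (h₂ : F₂ ≤ M)
    (φM : (extendScalars h₂ ≃ₐ[F₂] extendScalars h₂) →* (extendScalars h₁ ≃ₐ[F₁] extendScalars h₁))
    (uM : Rep.res φM (Rep.ofAlgebraAutOnUnits F₁ (extendScalars h₁)) ⟶
      Rep.ofAlgebraAutOnUnits F₂ (extendScalars h₂))
    (hTM : IsConjPair g (extendScalars h₁) (extendScalars h₂) φM uM)
    (y : groupCohomology (Rep.ofAlgebraAutOnUnits F₁ (extendScalars h₁)) 2) :
    inv q (extendScalars h₂) ((groupCohomology.map φM uM 2).hom y) = inv q (extendScalars h₁) y := by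
  obtain ⟨w, rfl⟩ := exists_resH2_eq q M F₁ h₁ y
  have he := congrArg (fun f => f.hom w) (conj_res_eq q M F₁ F₂ g h₁ h₂ φM uM hTM)
  have he' : (groupCohomology.map φM uM 2).hom ((resH2 h₁).hom w) = (resH2 h₂).hom w := he
  have hmap : F₁.map (g : PadicAlgCl q →ₐ[ℚ_[q]] PadicAlgCl q) = F₂ := by
    ext z
    constructor
    · rintro ⟨w, hw, rfl⟩
      exact (hF w).1 hw
    · intro hz
      exact ⟨g.symm z, (hF _).2 (by rwa [AlgEquiv.apply_symm_apply]),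
        g.apply_symm_apply z⟩
  have hdeg : Module.finrank ℚ_[q] F₁ = Module.finrank ℚ_[q] F₂ := by
    rw [← hmap]
    exact (F₁.equivMap (g : PadicAlgCl q →ₐ[ℚ_[q]] PadicAlgCl q)).toLinearEquiv.finrank_eq
  rw [he', H76.leafInvRes_holds q ℚ_[q] F₂ M h₂ w, H76.leafInvRes_holds q ℚ_[q] F₁ M h₁ w, hdeg]

/-- `LeafInvInfl` for `L₁ ≤ M / F₁`. -/
theorem inv_inflH2_top (M F₁ : IntermediateField ℚ_[q] (PadicAlgCl q))
    [FiniteDimensional ℚ_[q] M] [IsGalois ℚ_[q] M] [FiniteDimensional ℚ_[q] F₁] (h₁ : F₁ ≤ M)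
    (L₁ : IntermediateField F₁ (PadicAlgCl q)) [FiniteDimensional F₁ L₁] [IsGalois F₁ L₁]
    (hLM₁ : L₁ ≤ extendScalars h₁) (x : groupCohomology (Rep.ofAlgebraAutOnUnits F₁ L₁) 2) :
    inv q (extendScalars h₁) ((inflH2 hLM₁).hom x) = inv q L₁ x :=
  c3_invInfl q F₁ L₁ (extendScalars h₁) hLM₁ x

set_option maxHeartbeats 1000000 in
/-- **The local invariant is invariant under transport by `g ∈ Gal(Ω/ℚ_q)`.** -/
theorem inv_conj (F₁ F₂ : IntermediateField ℚ_[q] (PadicAlgCl q))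
    [FiniteDimensional ℚ_[q] F₁] [FiniteDimensional ℚ_[q] F₂]
    (L₁ : IntermediateField F₁ (PadicAlgCl q)) (L₂ : IntermediateField F₂ (PadicAlgCl q))
    [FiniteDimensional F₁ L₁] [IsGalois F₁ L₁] [FiniteDimensional F₂ L₂] [IsGalois F₂ L₂]
    (g : PadicAlgCl q ≃ₐ[ℚ_[q]] PadicAlgCl q)
    (hF : ∀ x : PadicAlgCl q, x ∈ F₁ ↔ g x ∈ F₂) (hL : ∀ x : PadicAlgCl q, x ∈ L₁ ↔ g x ∈ L₂)
    (φ : (L₂ ≃ₐ[F₂] L₂) →* (L₁ ≃ₐ[F₁] L₁))
    (u : Rep.res φ (Rep.ofAlgebraAutOnUnits F₁ L₁) ⟶ Rep.ofAlgebraAutOnUnits F₂ L₂)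
    (hφu : IsConjPair g L₁ L₂ φ u)
    (x : groupCohomology (Rep.ofAlgebraAutOnUnits F₁ L₁) 2) :
    inv q L₂ ((groupCohomology.map φ u 2).hom x) = inv q L₁ x := by
  classical
  -- a finite Galois extension `M / ℚ_q` containing `L₁`
  obtain ⟨M, hMn, hMf, hL₁M⟩ : ∃ M : IntermediateField ℚ_[q] (PadicAlgCl q),
      Normal ℚ_[q] M ∧ FiniteDimensional ℚ_[q] M ∧ ∀ z : PadicAlgCl q, z ∈ L₁ → z ∈ M := by
    refine ⟨normalClosure ℚ_[q] L₁ (PadicAlgCl q), inferInstance, inferInstance, fun z hz => ?_⟩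
    exact (IsScalarTower.toAlgHom ℚ_[q] L₁ (PadicAlgCl q)).fieldRange_le_normalClosure
      ⟨⟨z, hz⟩, rfl⟩
  have := hMn
  have := hMf
  have : IsGalois ℚ_[q] M := ⟨⟩
  have hgM : ∀ z : PadicAlgCl q, z ∈ M ↔ g z ∈ M := fun z =>
    ⟨fun hz => mem_of_normal q M g hz, fun hz => by
      have := mem_of_normal q M g.symm hz
      rwa [AlgEquiv.symm_apply_apply] at this⟩
  have hL₂M : ∀ z : PadicAlgCl q, z ∈ L₂ → z ∈ M := by
    intro z hz
    have h1 : g.symm z ∈ L₁ := (hL _).2 (by rwa [AlgEquiv.apply_symm_apply])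
    have h2 := (hgM _).1 (hL₁M _ h1)
    rwa [AlgEquiv.apply_symm_apply] at h2
  have h₁ : F₁ ≤ M := fun z hz => hL₁M z (L₁.algebraMap_mem ⟨z, hz⟩)
  have h₂ : F₂ ≤ M := fun z hz => hL₂M z (L₂.algebraMap_mem ⟨z, hz⟩)
  have hLM₁ : L₁ ≤ extendScalars h₁ := fun z hz => hL₁M z hz
  have hLM₂ : L₂ ≤ extendScalars h₂ := fun z hz => hL₂M z hz
  -- the transport at level `M`
  have hF' : ∀ r : F₁, ∃ t : F₂, algebraMap F₂ (PadicAlgCl q) t
      = (g : PadicAlgCl q ≃+* PadicAlgCl q) (algebraMap F₁ (PadicAlgCl q) r) :=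
    fun r => ⟨⟨g r, (hF r).1 r.2⟩, rfl⟩
  have hM' : ∀ z : PadicAlgCl q, z ∈ extendScalars h₁ ↔
      (g : PadicAlgCl q ≃+* PadicAlgCl q) z ∈ extendScalars h₂ := hgM
  obtain ⟨φM, uM, hTM⟩ : ∃ (φM : (extendScalars h₂ ≃ₐ[F₂] extendScalars h₂) →*
      (extendScalars h₁ ≃ₐ[F₁] extendScalars h₁))
      (uM : Rep.res φM (Rep.ofAlgebraAutOnUnits F₁ (extendScalars h₁)) ⟶
        Rep.ofAlgebraAutOnUnits F₂ (extendScalars h₂)),
      IsConjPair g (extendScalars h₁) (extendScalars h₂) φM uM :=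
    ⟨_, _, isConjPair_conjGal (g : PadicAlgCl q ≃+* PadicAlgCl q) (extendScalars h₁)
      (extendScalars h₂) hF' hM'⟩
  -- (b) transport commutes with inflation
  have hb : groupCohomology.map (resHom hLM₁) (inflRep hLM₁) 2 ≫ groupCohomology.map φM uM 2
      = groupCohomology.map φ u 2 ≫ groupCohomology.map (resHom hLM₂) (inflRep hLM₂) 2 :=
    IsConjPair.square (N := L₁) (M := extendScalars h₁) (M' := L₂) (P := extendScalars h₂)
      (g₁ := id) (g₂ := g) (g₁' := g) (g₂' := id) (g₃ := g) (fun z => rfl)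
      (fun z => rfl) g.injective (fun z hz => hLM₁ hz) (fun z hz => (hL z).1 hz)
      (fun z hz => hLM₂ ((hL z).1 hz)) (isConjPair_infl hLM₁) hTM hφu (isConjPair_infl hLM₂)
  have hb' : (groupCohomology.map φM uM 2).hom ((inflH2 hLM₁).hom x)
      = (inflH2 hLM₂).hom ((groupCohomology.map φ u 2).hom x) :=
    congrArg (fun f => f.hom x) hb
  have e1 := inv_inflH2_top q M F₂ h₂ L₂ hLM₂ ((groupCohomology.map φ u 2).hom x)
  have e2 := inv_inflH2_top q M F₁ h₁ L₁ hLM₁ x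
  have e3 := inv_conj_top q M F₁ F₂ g hF h₁ h₂ φM uM hTM ((inflH2 hLM₁).hom x)
  rw [hb'] at e3
  exact e1.symm.trans (e3.trans e2)

end Main

end Fermat.Agent.S55.H88
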