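import Fermat.Agent.S55.H88.InvConj
import Fermat.Agent.S55.H88.LayerSpec

/-!
Program C (S55), package C5 (helper88): (LINV-INDEP) — the local invariant `linvAt q k τ'` of a
global class depends only on the place of `k` below `τ'`.

* `linvAt_conj` : `linvAt q k (g ∘ τ' ∘ σ) = linvAt q k τ'` for `g ∈ Gal(Ω/ℚ_q)`, `σ ∈ Gal(K/k)`
  (`inv_conj` for the transport by `g`, `H20.map_conj_H2` for the inner automorphism `σ`);
* `linvAt_eq_of_comp_eq` : equal restrictions to `k` give equal local invariants;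
* `linvIndepStatement` : `LinvIndepStatement k K` for number fields.
-/

set_option autoImplicit false

open CategoryTheory groupCohomology Rep IntermediateField
open Fermat.Agent.S55.H66

noncomputable section

namespace Fermat.Agent.S55.H88

variable (q : ℕ) [Fact q.Prime]

section Instances

variable (k : Type) {K : Type} [Field k] [Field K] [Algebra k K] (τ' : K →+* PadicAlgCl q)

instance finiteDimensional_locExt [NumberField K] :
    FiniteDimensional (locBase q k τ') (locExt q k τ') :=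
  H15.finiteDimensional_extendScalars (locBase_le q k τ')

instance isGalois_locExt [Normal k K] : IsGalois (locBase q k τ') (locExt q k τ') := ⟨⟩

end Instances

/-- Membership in `ℚ_q(τ₂ K)` when `τ₂ K = g (τ₁ K)`. -/
theorem mem_locField_iff_of_range {K₀ K₁ : Type} [Field K₀] [Field K₁] (τ₁ : K₀ →+* PadicAlgCl q)
    (τ₂ : K₁ →+* PadicAlgCl q) (g : PadicAlgCl q ≃ₐ[ℚ_[q]] PadicAlgCl q)
    (h : Set.range τ₂ = g '' Set.range τ₁) (x : PadicAlgCl q) :
    x ∈ locField q τ₁ ↔ g x ∈ locField q τ₂ := by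
  have e : locField q τ₂
      = (locField q τ₁).map (g : PadicAlgCl q →ₐ[ℚ_[q]] PadicAlgCl q) := by
    unfold locField
    rw [IntermediateField.adjoin_map, h]
    rfl
  rw [e]
  constructor
  · intro hx
    exact ⟨x, hx, rfl⟩
  · rintro ⟨y, hy, hyx⟩
    have : y = x := g.injective hyx
    rwa [← this]

section Conj

variable (k : Type) {K : Type} [Field k] [Field K] [Algebra k K] [Normal k K]
  [NumberField k] [NumberField K]

/-- **The local invariant at `g ∘ τ' ∘ σ` is the local invariant at `τ'`.** -/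
theorem linvAt_conj (τ' : K →+* PadicAlgCl q) (g : PadicAlgCl q ≃ₐ[ℚ_[q]] PadicAlgCl q)
    (σ : K ≃ₐ[k] K) :
    linvAt q k ((g : PadicAlgCl q →+* PadicAlgCl q).comp (τ'.comp ((σ : K ≃+* K) : K →+* K)))
      = linvAt q k τ' := by
  obtain ⟨τ'', hτ''⟩ : ∃ τ'' : K →+* PadicAlgCl q, τ'' =
      (g : PadicAlgCl q →+* PadicAlgCl q).comp (τ'.comp ((σ : K ≃+* K) : K →+* K)) := ⟨_, rfl⟩
  rw [← hτ'']
  have happ : ∀ x : K, τ'' x = g (τ' (σ x)) := fun x => by rw [hτ'']; rfl
  have hF : ∀ x : PadicAlgCl q, x ∈ locBase q k τ' ↔ g x ∈ locBase q k τ'' :=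
    mem_locField_iff_of_range q _ _ g (by
      ext z
      constructor
      · rintro ⟨y, rfl⟩
        refine ⟨τ' (algebraMap k K y), ⟨y, rfl⟩, ?_⟩
        show g (τ' (algebraMap k K y)) = τ'' (algebraMap k K y)
        rw [happ, σ.commutes]
      · rintro ⟨_, ⟨y, rfl⟩, rfl⟩
        refine ⟨y, ?_⟩
        show τ'' (algebraMap k K y) = g (τ' (algebraMap k K y))
        rw [happ, σ.commutes])
  have hL : ∀ x : PadicAlgCl q, x ∈ locExt q k τ' ↔ g x ∈ locExt q k τ'' :=
    mem_locField_iff_of_range q τ' τ'' g (by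
      ext z
      constructor
      · rintro ⟨y, rfl⟩
        refine ⟨τ' (σ y), ⟨σ y, rfl⟩, ?_⟩
        rw [happ]
      · rintro ⟨_, ⟨y, rfl⟩, rfl⟩
        refine ⟨σ.symm y, ?_⟩
        rw [happ, AlgEquiv.apply_symm_apply])
  have hF' : ∀ r : locBase q k τ', ∃ t : locBase q k τ'',
      algebraMap (locBase q k τ'') (PadicAlgCl q) t
        = (g : PadicAlgCl q ≃+* PadicAlgCl q) (algebraMap (locBase q k τ') (PadicAlgCl q) r) :=
    fun r => ⟨⟨g r, (hF r).1 r.2⟩, rfl⟩
  have hL' : ∀ z : PadicAlgCl q, z ∈ locExt q k τ' ↔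
      (g : PadicAlgCl q ≃+* PadicAlgCl q) z ∈ locExt q k τ'' := hL
  obtain ⟨φ, u, hφu⟩ : ∃ (φ : (locExt q k τ'' ≃ₐ[locBase q k τ''] locExt q k τ'') →*
      (locExt q k τ' ≃ₐ[locBase q k τ'] locExt q k τ'))
      (u : Rep.res φ (Rep.ofAlgebraAutOnUnits (locBase q k τ') (locExt q k τ')) ⟶
        Rep.ofAlgebraAutOnUnits (locBase q k τ'') (locExt q k τ'')),
      IsConjPair g (locExt q k τ') (locExt q k τ'') φ u :=
    ⟨_, _, isConjPair_conjGal (g : PadicAlgCl q ≃+* PadicAlgCl q) (locExt q k τ')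
      (locExt q k τ'') hF' hL'⟩
  have key : groupCohomology.map (locGalToGlobal q k τ'') (globalToLocUnits q k τ'') 2
      = groupCohomology.map (H20.conjHom σ⁻¹)
          (H20.conjRepHom (Rep.ofAlgebraAutOnUnits k K) σ⁻¹) 2 ≫
        (groupCohomology.map (locGalToGlobal q k τ') (globalToLocUnits q k τ') 2 ≫
          groupCohomology.map φ u 2) := by
    rw [← groupCohomology.map_comp, ← groupCohomology.map_comp]
    refine groupCohomology.map_congr ?_ ?_ 2
    · refine MonoidHom.ext fun s => AlgEquiv.ext fun x => τ''.injective ?_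
      have h1 := congrArg (fun y : locExt q k τ'' => (y : PadicAlgCl q))
        (locGalToGlobal_spec q k τ'' s x)
      have h2 := hφu.hφ s (locExtEmb q k τ' (σ x)) (locExtEmb q k τ'' x) (happ x)
      have h3 := congrArg (fun y : locExt q k τ' => (y : PadicAlgCl q))
        (locGalToGlobal_spec q k τ' (φ s) (σ x))
      simp only [coe_locExtEmb] at h1 h3
      rw [← h1, h2, h3]
      show g (τ' (locGalToGlobal q k τ' (φ s) (σ x)))
        = τ'' ((σ⁻¹ * locGalToGlobal q k τ' (φ s) * σ⁻¹⁻¹) x)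
      rw [happ, inv_inv]
      show _ = g (τ' ((σ * (σ⁻¹ * locGalToGlobal q k τ' (φ s) * σ)) x))
      rw [← mul_assoc, ← mul_assoc, mul_inv_cancel, one_mul]
      rfl
    · refine LinearMap.ext fun x => uval_injective _ ?_
      have h1 := hφu.hu ((globalToLocUnits q k τ').hom
        ((H20.conjRepHom (Rep.ofAlgebraAutOnUnits k K) σ⁻¹).hom x))
      refine Eq.trans ?_ h1.symm
      rw [H20.conjRepHom_hom_apply, inv_inv]
      exact happ _
  rw [H20.map_conj_H2, Category.id_comp] at key
  refine AddMonoidHom.ext fun α => ?_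
  show inv q (locExt q k τ'')
      ((groupCohomology.map (locGalToGlobal q k τ'') (globalToLocUnits q k τ'') 2).hom α)
    = inv q (locExt q k τ')
      ((groupCohomology.map (locGalToGlobal q k τ') (globalToLocUnits q k τ') 2).hom α)
  rw [key]
  exact inv_conj q _ _ _ _ g hF hL φ u hφu _

/-- Equal restrictions to `k` give equal local invariants. -/
theorem linvAt_eq_of_comp_eq (τ' τ'' : K →+* PadicAlgCl q)
    (h : τ'.comp (algebraMap k K) = τ''.comp (algebraMap k K)) :
    linvAt q k τ' = linvAt q k τ'' := by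
  obtain ⟨σ, hσ⟩ := exists_algEquiv_comp_eq q τ' τ'' h
  have := linvAt_conj q k τ' 1 σ
  rw [hσ]
  exact this.symm

end Conj

/-- **(LINV-INDEP)** for number fields. -/
theorem linvIndepStatement (k K : Type) [Field k] [NumberField k] [Field K] [NumberField K]
    [Algebra k K] [Normal k K] : LinvIndepStatement k K := by
  intro q _ τ' τ'' hr
  obtain ⟨g, hg⟩ := hr
  obtain ⟨σ, hσ⟩ := exists_algEquiv_comp_eq q
    ((g : PadicAlgCl q →+* PadicAlgCl q).comp τ') τ'' hg.symm
  rw [hσ]
  exact (linvAt_conj q k τ' g σ).symm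

end Fermat.Agent.S55.H88
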