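import Mathlib

/-!
Program C (S55), package C5 (helper88): STATEMENTS of the abstract Shapiro leaves in degree 2
(Mathlib only), in the exact shape needed for the `S`-idele modules.

A representation `A` of a finite group `Γ` is *coinduced from a family* `(D i, N i)` along
homomorphisms `f i : D i →* Γ` and morphisms `ε i : Res (f i) A ⟶ N i` when
`a ↦ (i ↦ σ ↦ ε i (σ • a))` identifies `A` with the families `(φ i : Γ → N i)` such that
`φ i (f i d * σ) = d • φ i σ` and `φ i = 0` for almost all `i` (a finite direct sum of coinduced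
modules when the index type is finite; the module of fractional ideals when it is not).

* `ShapiroDetectStatement` : a class of `H²(Γ, A)` all of whose localisations
  `H²(Γ, A) → H²(D i, N i)` vanish is zero.
* `ShapiroRealizeStatement` : every class of `H²(D i₀, N i₀)` is the localisation at `i₀` of a
  class of `H²(Γ, A)` whose other localisations vanish.
-/

set_option autoImplicit false

open CategoryTheory

namespace Fermat.Agent.S55.H88

/-- `A` is coinduced from the family `(D i, N i)` along `(f i, ε i)`. -/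
structure IsCoindFamily {Γ : Type} [Group Γ] (A : Rep.{0, 0, 0} ℤ Γ) {ι : Type}
    (D : ι → Type) [∀ i, Group (D i)] (f : ∀ i, D i →* Γ) (N : ∀ i, Rep.{0, 0, 0} ℤ (D i))
    (ε : ∀ i, Rep.res (f i) A ⟶ N i) : Prop where
  /-- the subgroups are embedded -/
  inj_f : ∀ i, Function.Injective (f i)
  /-- an element is determined by its components -/
  inj : ∀ a : A, (∀ i σ, (ε i).hom (A.ρ σ a) = 0) → a = 0
  /-- an element has finitely many nonzero components -/
  fin : ∀ a : A, {i | ∃ σ, (ε i).hom (A.ρ σ a) ≠ 0}.Finite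
  /-- every equivariant family with finitely many nonzero components comes from an element -/
  surj : ∀ φ : ∀ i, Γ → N i, (∀ i d σ, φ i (f i d * σ) = (N i).ρ d (φ i σ)) →
    {i | ∃ σ, φ i σ ≠ 0}.Finite → ∃ a : A, ∀ i σ, (ε i).hom (A.ρ σ a) = φ i σ

/-- (SH-DETECT) Shapiro's lemma in degree 2, injectivity. -/
def ShapiroDetectStatement : Prop :=
  ∀ {Γ : Type} [Group Γ] [Finite Γ] (A : Rep.{0, 0, 0} ℤ Γ) {ι : Type}
    (D : ι → Type) [∀ i, Group (D i)] (f : ∀ i, D i →* Γ) (N : ∀ i, Rep.{0, 0, 0} ℤ (D i))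
    (ε : ∀ i, Rep.res (f i) A ⟶ N i), IsCoindFamily A D f N ε →
    ∀ x : groupCohomology A 2,
      (∀ i, (groupCohomology.map (f i) (ε i) 2).hom x = 0) → x = 0

/-- (SH-REALIZE) Shapiro's lemma in degree 2, surjectivity. -/
def ShapiroRealizeStatement : Prop :=
  ∀ {Γ : Type} [Group Γ] [Finite Γ] (A : Rep.{0, 0, 0} ℤ Γ) {ι : Type}
    (D : ι → Type) [∀ i, Group (D i)] (f : ∀ i, D i →* Γ) (N : ∀ i, Rep.{0, 0, 0} ℤ (D i))
    (ε : ∀ i, Rep.res (f i) A ⟶ N i), IsCoindFamily A D f N ε →
    ∀ (i₀ : ι) (y : groupCohomology (N i₀) 2), ∃ x : groupCohomology A 2,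
      (groupCohomology.map (f i₀) (ε i₀) 2).hom x = y ∧
      ∀ i, i ≠ i₀ → (groupCohomology.map (f i) (ε i) 2).hom x = 0

end Fermat.Agent.S55.H88
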