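import Mathlib
import Fermat.Agent.S55.H88.LayerDefs

/-!
Program C (S55), package C5 (helper88): towers `k ⊆ E ⊆ K` in the shape consumed by C8
(`H29.SubTower`, `H29.Tower`).

* `fixSubgroup k E K` : the subgroup `Gal(K/E)` of `Gal(K/k)`;
* `subTowerOf k E K : H29.SubTower (layerOf k K)` : places of `E`, the place of `k` below, the
  local degree, and the local invariants of the layer `K / E`;
* `towerOf k E K : H29.Tower (layerOf k K)` (for `E / k` normal) : in addition the local
  invariants of the layer `E / k`, transported to `H²(Gal(K/k) ⧸ Gal(K/E), (Kˣ)^{Gal(K/E)})`.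
-/

set_option autoImplicit false
set_option linter.unusedSectionVars false
set_option linter.unusedVariables false
set_option linter.style.haveILetI false

open scoped IntermediateField NNReal
open CategoryTheory

noncomputable section

namespace Fermat.Agent.S55.H88

attribute [local instance] factOfPrimes

section Sub

variable (k E K : Type) [Field k] [Field E] [Field K] [Algebra k E] [Algebra E K] [Algebra k K]
  [IsScalarTower k E K]

/-- The subgroup `Gal(K/E)` of `Gal(K/k)`. -/
def fixSubgroup : Subgroup (K ≃ₐ[k] K) where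
  carrier := {σ | ∀ e : E, σ (algebraMap E K e) = algebraMap E K e}
  mul_mem' := fun {σ ρ} hσ hρ e => by
    show σ (ρ (algebraMap E K e)) = algebraMap E K e
    rw [hρ e, hσ e]
  one_mem' := fun e => rfl
  inv_mem' := fun {σ} hσ e => by
    have := congrArg (σ⁻¹ : K ≃ₐ[k] K) (hσ e)
    rw [show (σ⁻¹ : K ≃ₐ[k] K) (σ (algebraMap E K e)) = algebraMap E K e from
      σ.symm_apply_apply _] at this
    exact this.symm

theorem mem_fixSubgroup_iff {σ : K ≃ₐ[k] K} :
    σ ∈ fixSubgroup k E K ↔ ∀ e : E, σ (algebraMap E K e) = algebraMap E K e := Iff.rfl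

/-- `Gal(K/E) → Gal(K/k)`, with values in `fixSubgroup`. -/
def galToFix : (K ≃ₐ[E] K) →* fixSubgroup k E K where
  toFun σ := ⟨σ.restrictScalars k, fun e => σ.commutes e⟩
  map_one' := rfl
  map_mul' _ _ := rfl

/-- The identification of `Kˣ` as a `Gal(K/E)`-module with the restriction of `Kˣ` as a
`Gal(K/k)`-module. -/
def resUnitsHom :
    Rep.res (galToFix k E K) (Rep.res (fixSubgroup k E K).subtype (Rep.ofAlgebraAutOnUnits k K)) ⟶
      Rep.ofAlgebraAutOnUnits E K :=
  Rep.ofHom ⟨LinearMap.id, fun _ => rfl⟩

/-- `H²(Gal(K/E) ≤ Gal(K/k), Kˣ) → H²(Gal(K/E), Kˣ)` (change of presentation). -/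
def subH2 :
    groupCohomology (Rep.res (fixSubgroup k E K).subtype (Rep.ofAlgebraAutOnUnits k K)) 2 →+
      groupCohomology (Rep.ofAlgebraAutOnUnits E K) 2 :=
  (groupCohomology.map (galToFix k E K) (resUnitsHom k E K) 2).hom.toAddMonoidHom

variable {E} in
/-- The place of `k` below a finite place of `E`. -/
def FinPlace.below (w : FinPlace E) : FinPlace k :=
  ⟨w.1, PlaceAbove.restrict (w.1 : ℕ) k E w.2⟩

variable {E} in
/-- The local degree `[E_w : k_v]` at a finite place `w` of `E`. -/
def FinPlace.locDeg (w : FinPlace E) : ℕ :=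
  Module.finrank (locBase (w.1 : ℕ) k w.emb) (locExt (w.1 : ℕ) k w.emb)

variable [Normal k K]

/-- The intermediate field `E` of the layer `K / k` in the shape consumed by C8. -/
def subTowerOf : H29.SubTower (layerOf k K) where
  H := fixSubgroup k E K
  W := FinPlace E
  below w := w.below k
  deg w := w.locDeg k
  linvSub w :=
    haveI : Normal E K := Normal.tower_top_of_normal k E K
    (linvAt (w.1 : ℕ) E (w.ext K)).comp (subH2 k E K)

end Sub

section Quot

variable (k E K : Type) [Field k] [Field E] [Field K] [Algebra k E] [Algebra E K] [Algebra k K]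
  [IsScalarTower k E K] [Normal k E]

theorem fixSubgroup_eq_ker [Normal k K] :
    fixSubgroup k E K = (AlgEquiv.restrictNormalHom (F := k) (K₁ := K) E).ker := by
  ext σ
  rw [mem_fixSubgroup_iff, MonoidHom.mem_ker]
  constructor
  · intro h
    refine AlgEquiv.ext fun e => (algebraMap E K).injective ?_
    have := AlgEquiv.restrictNormal_commutes σ E e
    rw [show (AlgEquiv.restrictNormalHom (F := k) (K₁ := K) E σ) e = σ.restrictNormal E e from rfl,
      this]
    exact h e
  · intro h e
    have := AlgEquiv.restrictNormal_commutes σ E e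
    rw [← this, show σ.restrictNormal E = AlgEquiv.restrictNormalHom (F := k) (K₁ := K) E σ from rfl,
      h]
    rfl

instance fixSubgroup_normal [Normal k K] : (fixSubgroup k E K).Normal := by
  rw [fixSubgroup_eq_ker]
  infer_instance

/-- `Gal(K/k) ⧸ Gal(K/E) ≃ Gal(E/k)`. -/
def quotGalEquiv [Normal k K] : ((K ≃ₐ[k] K) ⧸ fixSubgroup k E K) ≃* (E ≃ₐ[k] E) :=
  (QuotientGroup.quotientMulEquivOfEq (fixSubgroup_eq_ker k E K)).trans
    (QuotientGroup.quotientKerEquivOfSurjective _ (AlgEquiv.restrictNormalHom_surjective K))

theorem quotGalEquiv_mk [Normal k K] (σ : K ≃ₐ[k] K) :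
    quotGalEquiv k E K (QuotientGroup.mk σ) = σ.restrictNormal E := rfl

variable [IsGalois k K] [FiniteDimensional k K]

/-- `Eˣ` as the `Gal(K/E)`-invariants of `Kˣ` (linear map into the invariants). -/
def unitsToInvariants :
    Additive Eˣ →ₗ[ℤ] Representation.invariants
      ((Rep.ofAlgebraAutOnUnits k K).ρ.comp (fixSubgroup k E K).subtype) :=
  { toFun := fun u => ⟨Additive.ofMul (Units.map (algebraMap E K : E →* K) (Additive.toMul u)),
      fun h => congrArg Additive.ofMul (Units.ext (h.2 ((Additive.toMul u : Eˣ) : E)))⟩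
    map_add' := fun u v => Subtype.ext (by
      show Additive.ofMul (Units.map (algebraMap E K : E →* K) (Additive.toMul u * Additive.toMul v))
        = _
      rw [map_mul]
      rfl)
    map_smul' := fun n u => Subtype.ext (by
      show Additive.ofMul (Units.map (algebraMap E K : E →* K) (Additive.toMul (n • u))) = _
      rw [toMul_zsmul, map_zpow]
      rfl) }

theorem unitsToInvariants_bijective : Function.Bijective (unitsToInvariants k E K) := by
  haveI : IsGalois E K := IsGalois.tower_top_of_isGalois k E K
  haveI : FiniteDimensional E K := Module.Finite.right k E K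
  constructor
  · intro u v h
    have h1 := congrArg (fun x => Additive.toMul (x : Additive Kˣ)) (congrArg Subtype.val h)
    exact congrArg Additive.ofMul (Units.map_injective (algebraMap E K).injective h1)
  · rintro ⟨x, hx⟩
    have hfix : ∀ f : K ≃ₐ[E] K, f ((Additive.toMul x : Kˣ) : K) = ((Additive.toMul x : Kˣ) : K) := by
      intro f
      have := hx (galToFix k E K f)
      exact congrArg (fun y : Additive Kˣ => ((Additive.toMul y : Kˣ) : K)) this
    obtain ⟨e, he⟩ := (IsGalois.mem_range_algebraMap_iff_fixed (F := E) _).mpr hfix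
    have he0 : e ≠ 0 := by
      rintro rfl
      rw [map_zero] at he
      exact (Additive.toMul x : Kˣ).ne_zero he.symm
    refine ⟨Additive.ofMul (Units.mk0 e he0), Subtype.ext ?_⟩
    exact congrArg Additive.ofMul (Units.ext he)

/-- `(Kˣ)^{Gal(K/E)} → Eˣ` as a morphism of representations of `Gal(E/k)`. -/
def invariantsToUnits :
    Rep.res (quotGalEquiv k E K).symm.toMonoidHom
        ((Rep.ofAlgebraAutOnUnits k K).quotientToInvariants (fixSubgroup k E K)) ⟶
      Rep.ofAlgebraAutOnUnits k E :=
  Rep.ofHom ⟨(LinearEquiv.ofBijective (unitsToInvariants k E K)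
      (unitsToInvariants_bijective k E K)).symm.toLinearMap, fun γ => by
    refine LinearMap.ext fun x => ?_
    obtain ⟨u, rfl⟩ := (unitsToInvariants_bijective k E K).2 x
    obtain ⟨σ, hσ⟩ := QuotientGroup.mk_surjective ((quotGalEquiv k E K).symm γ)
    have hγ : σ.restrictNormal E = γ := by
      rw [← quotGalEquiv_mk, hσ, MulEquiv.apply_symm_apply]
    have key : ((Rep.ofAlgebraAutOnUnits k K).quotientToInvariants (fixSubgroup k E K)).ρ
          ((quotGalEquiv k E K).symm γ) (unitsToInvariants k E K u)
        = unitsToInvariants k E K ((Rep.ofAlgebraAutOnUnits k E).ρ γ u) := by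
      rw [← hσ]
      refine Subtype.ext (congrArg Additive.ofMul (Units.ext ?_))
      show σ (algebraMap E K ((Additive.toMul u : Eˣ) : E))
        = algebraMap E K (γ ((Additive.toMul u : Eˣ) : E))
      rw [← hγ]
      exact (AlgEquiv.restrictNormal_commutes σ E _).symm
    show (LinearEquiv.ofBijective (unitsToInvariants k E K)
        (unitsToInvariants_bijective k E K)).symm
        (((Rep.ofAlgebraAutOnUnits k K).quotientToInvariants (fixSubgroup k E K)).ρ
          ((quotGalEquiv k E K).symm γ) (unitsToInvariants k E K u))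
      = (Rep.ofAlgebraAutOnUnits k E).ρ γ ((LinearEquiv.ofBijective (unitsToInvariants k E K)
        (unitsToInvariants_bijective k E K)).symm (unitsToInvariants k E K u))
    rw [key]
    have e1 : ∀ w : Additive Eˣ, (LinearEquiv.ofBijective (unitsToInvariants k E K)
        (unitsToInvariants_bijective k E K)).symm (unitsToInvariants k E K w) = w := fun w =>
      (LinearEquiv.ofBijective (unitsToInvariants k E K)
        (unitsToInvariants_bijective k E K)).symm_apply_apply w
    rw [e1]
    exact e1 _⟩

/-- `H²(Gal(K/k) ⧸ Gal(K/E), (Kˣ)^{Gal(K/E)}) → H²(Gal(E/k), Eˣ)` (change of presentation). -/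
def quotH2 :
    groupCohomology ((Rep.ofAlgebraAutOnUnits k K).quotientToInvariants (fixSubgroup k E K)) 2 →+
      groupCohomology (Rep.ofAlgebraAutOnUnits k E) 2 :=
  (groupCohomology.map (quotGalEquiv k E K).symm.toMonoidHom (invariantsToUnits k E K)
    2).hom.toAddMonoidHom

/-- The normal intermediate field `E` of the layer `K / k` in the shape consumed by C8. -/
def towerOf : H29.Tower (layerOf k K) where
  toSubTower := subTowerOf k E K
  normal := fixSubgroup_normal k E K
  linvQuot v := (linvAt (v.1 : ℕ) k (v.ext E)).comp (quotH2 k E K)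

end Quot

end Fermat.Agent.S55.H88
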